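import Fermat.Agent.IntStr.FieldAut

/-!
# Fixed fields in `ℂ` and bounded denominators of power series

`mem_of_forall_fixing`: a number fixed by all endomorphisms of `ℂ` over a countable subfield `K`
lies in `K`; `isIntegral_of_finite_orbit`: finite orbits consist of algebraic numbers;
`isIntegral_of_stable`: a number stabilising a nonzero set with bounded denominators is integral;
`mem_serIn_of_mul_pow`: if a series `P` over a number field `K` is such that `E`, `P * E` and
`P ^ m` (`E ≠ 0`, `m > 0`) have algebraic integer coefficients in `K`, then so has `P`.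
-/

set_option autoImplicit false
set_option linter.style.haveILetI false

noncomputable section

namespace FLTAgent.WeightOne

variable {K : IntermediateField ℚ ℂ}

theorem countable_of_isAlgebraic (K : IntermediateField ℚ ℂ) [Algebra.IsAlgebraic ℚ K] :
    Countable K := by
  rw [← Cardinal.mk_le_aleph0_iff]
  exact (Algebra.IsAlgebraic.cardinalMk_le_max ℚ K).trans (by simp)

theorem countable_polynomial [Countable K] : Countable (Polynomial K) :=
  Function.Injective.countable
    (f := fun p : Polynomial K => (⟨p.support, p.toFinsupp.coeff⟩ : _ × (ℕ →₀ K)))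
    fun _ _ h => Polynomial.toFinsupp_injective
      (AddMonoidAlgebra.coeff_injective (congrArg Prod.snd h))

open Polynomial in
/-- An element transcendental over a countable field can be translated by an automorphism. -/
theorem exists_fixing_eq_add [Countable K] {z : ℂ} (hz : Transcendental K z) (n : ℕ) :
    ∃ σ : ℂ →+* ℂ, (∀ x : K, σ (x : ℂ) = x) ∧ σ z = z + n := by
  haveI := countable_polynomial (K := K)
  have hinj : Function.Injective (aeval z : K[X] →ₐ[K] ℂ) := transcendental_iff_injective.mp hz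
  have hinj' : Function.Injective (aeval (z + n) : K[X] →ₐ[K] ℂ) := by
    refine (injective_iff_map_eq_zero _).mpr fun p hp => ?_
    have h : aeval z (p.comp (X + C (n : K))) = 0 := by
      rw [aeval_comp]; simpa using hp
    have h' : p.comp (X + C (n : K)) = 0 := hinj (h.trans (map_zero _).symm)
    rcases comp_eq_zero_iff.mp h' with h'' | ⟨-, h''⟩
    · exact h''
    · exfalso
      have := congrArg (Polynomial.coeff · 1) h''
      simp at this
  obtain ⟨σ, hσ⟩ := IntStr.exists_ringEquiv_complex_of_two_homs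
    (aeval z : K[X] →ₐ[K] ℂ).toRingHom (aeval (z + n) : K[X] →ₐ[K] ℂ).toRingHom hinj hinj'
  refine ⟨σ, fun x => ?_, ?_⟩
  · simpa using hσ (C x)
  · simpa using hσ X

/-- An element outside a countable field is moved by some automorphism fixing the field. -/
theorem exists_fixing_ne [Countable K] {z : ℂ} (hz : z ∉ K) :
    ∃ σ : ℂ →+* ℂ, (∀ x : K, σ (x : ℂ) = x) ∧ σ z ≠ z := by
  by_cases halg : IsIntegral K z
  · have hirr : Irreducible (minpoly K z) := minpoly.irreducible halg
    haveI := Fact.mk hirr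
    haveI := countable_polynomial (K := K)
    haveI : Countable (AdjoinRoot (minpoly K z)) := AdjoinRoot.mk_surjective.countable
    obtain ⟨w, hw, hwz⟩ : ∃ w : ℂ, w ∈ (minpoly K z).aroots ℂ ∧ w ≠ z := by
      by_contra h
      push Not at h
      have hnd : ((minpoly K z).aroots ℂ).Nodup :=
        Polynomial.nodup_roots hirr.separable.map
      have hle : ((minpoly K z).aroots ℂ).card ≤ 1 :=
        (Multiset.card_le_card ((Multiset.le_iff_subset hnd).mpr fun w hw =>
          Multiset.mem_singleton.mpr (h w hw))).trans (by simp)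
      have hdeg : ((minpoly K z).aroots ℂ).card = (minpoly K z).natDegree :=
        IsAlgClosed.card_aroots_eq_natDegree
      have h1 : (minpoly K z).natDegree = 1 :=
        le_antisymm (hdeg ▸ hle) (minpoly.natDegree_pos halg)
      obtain ⟨x, hx⟩ := minpoly.natDegree_eq_one_iff.mp h1
      exact hz (hx ▸ x.2)
    have hw0 : Polynomial.aeval w (minpoly K z) = 0 := (Polynomial.mem_aroots.mp hw).2
    let φ : AdjoinRoot (minpoly K z) →+* ℂ :=
      AdjoinRoot.lift (algebraMap K ℂ) z (minpoly.aeval K z)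
    let ψ : AdjoinRoot (minpoly K z) →+* ℂ := AdjoinRoot.lift (algebraMap K ℂ) w hw0
    obtain ⟨σ, hσ⟩ := IntStr.exists_ringEquiv_complex_of_two_homs φ ψ φ.injective ψ.injective
    refine ⟨σ, fun x => ?_, ?_⟩
    · have := hσ (AdjoinRoot.of _ x)
      simp only [φ, ψ] at this
      erw [AdjoinRoot.lift_of, AdjoinRoot.lift_of] at this
      exact this
    · have := hσ (AdjoinRoot.root _)
      simp only [φ, ψ] at this
      erw [AdjoinRoot.lift_root, AdjoinRoot.lift_root] at this
      exact fun h => hwz (this.symm.trans h)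
  · obtain ⟨σ, hσ, hσz⟩ := exists_fixing_eq_add (K := K) (z := z)
      (fun h => halg h.isIntegral) 1
    exact ⟨σ, hσ, by rw [hσz]; simp⟩

theorem mem_of_forall_fixing [Countable K] {z : ℂ}
    (h : ∀ σ : ℂ →+* ℂ, (∀ x : K, σ (x : ℂ) = x) → σ z = z) : z ∈ K := by
  by_contra hz
  obtain ⟨σ, hσ, hne⟩ := exists_fixing_ne hz
  exact hne (h σ hσ)

/-- Finite orbits consist of algebraic numbers. -/
theorem isIntegral_of_finite_orbit [Algebra.IsAlgebraic ℚ K] {z : ℂ}
    (h : {w : ℂ | ∃ σ : ℂ →+* ℂ, (∀ x : K, σ (x : ℂ) = x) ∧ σ z = w}.Finite) :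
    IsIntegral ℚ z := by
  haveI := countable_of_isAlgebraic K
  by_cases halg : IsIntegral K z
  · exact isIntegral_trans z halg
  · exfalso
    refine Set.infinite_range_of_injective
      (f := fun n : ℕ => z + n) (fun a b hab => by simpa using hab) (h.subset ?_)
    rintro _ ⟨n, rfl⟩
    obtain ⟨σ, hσ, hσz⟩ := exists_fixing_eq_add (K := K) (z := z)
      (fun h => halg h.isIntegral) n
    exact ⟨σ, hσ, hσz⟩

/-! ### Integral elements of a number field inside `ℂ` -/

/-- The algebraic integers in `K`. -/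
def intsIn (K : IntermediateField ℚ ℂ) : Subring ℂ :=
  K.toSubfield.toSubring ⊓ (integralClosure ℤ ℂ).toSubring

theorem mem_intsIn {z : ℂ} : z ∈ intsIn K ↔ z ∈ K ∧ IsIntegral ℤ z := Iff.rfl

theorem intsIn_fg (K : IntermediateField ℚ ℂ) [FiniteDimensional ℚ K] :
    (intsIn K).toAddSubgroup.toIntSubmodule.FG := by
  haveI : NumberField K := { }
  let j : NumberField.RingOfIntegers K →+* ℂ :=
    (algebraMap K ℂ).comp (algebraMap (NumberField.RingOfIntegers K) K)
  have h : (intsIn K).toAddSubgroup.toIntSubmodule =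
      LinearMap.range j.toAddMonoidHom.toIntLinearMap := by
    ext z
    simp only [LinearMap.mem_range]
    constructor
    · rintro ⟨hzK, hzI⟩
      have hi : IsIntegral ℤ (⟨z, hzK⟩ : K) :=
        (isIntegral_algebraMap_iff (B := ℂ) (algebraMap K ℂ).injective).mp hzI
      exact ⟨⟨⟨z, hzK⟩, hi⟩, rfl⟩
    · rintro ⟨x, rfl⟩
      exact ⟨(x : K).2, (NumberField.RingOfIntegers.isIntegral_coe x).algebraMap⟩
  rw [h]
  rw [LinearMap.range_eq_map]
  exact Module.Finite.fg_top.map _

/-- A number stabilising a nonzero module of numbers with bounded denominators is integral. -/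
theorem isIntegral_of_stable [FiniteDimensional ℚ K] (x : ℂ) (S : Set ℂ) {D : ℂ} (hD : D ≠ 0)
    (hS : ∀ s ∈ S, D * s ∈ intsIn K) (hne : ∃ s ∈ S, s ≠ 0)
    (hx : ∀ s ∈ S, x * s ∈ Submodule.span ℤ S) : IsIntegral ℤ x := by
  set M := Submodule.span ℤ S
  have hfg : ((intsIn K).toAddSubgroup.toIntSubmodule.map
      (LinearMap.mulLeft ℤ D⁻¹)).FG := (intsIn_fg K).map _
  have hle : M ≤ (intsIn K).toAddSubgroup.toIntSubmodule.map (LinearMap.mulLeft ℤ D⁻¹) := by
    refine Submodule.span_le.mpr fun s hs => ⟨D * s, hS s hs, ?_⟩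
    simp [inv_mul_cancel_left₀ hD]
  have hMfg : M.FG := by
    haveI := isNoetherian_of_fg_of_noetherian _ hfg
    have h := (IsNoetherian.noetherian (Submodule.comap
      ((intsIn K).toAddSubgroup.toIntSubmodule.map (LinearMap.mulLeft ℤ D⁻¹)).subtype M)).map
      ((intsIn K).toAddSubgroup.toIntSubmodule.map (LinearMap.mulLeft ℤ D⁻¹)).subtype
    rwa [Submodule.map_comap_eq_of_le (by simpa using hle)] at h
  refine isIntegral_of_smul_mem_submodule M ?_ hMfg x fun n hn => ?_
  · obtain ⟨s, hs, hs0⟩ := hne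
    exact fun h => hs0 ((Submodule.mem_bot ℤ).mp (h ▸ Submodule.subset_span hs))
  · rw [smul_eq_mul]
    induction hn using Submodule.span_induction with
    | mem s hs => exact hx s hs
    | zero => simp
    | add a b _ _ ha hb => rw [mul_add]; exact add_mem ha hb
    | smul c a _ ha => rw [mul_smul_comm]; exact Submodule.smul_mem _ c ha

/-- Power series with coefficients in a subring. -/
def serIn (O : Subring ℂ) : Subring (PowerSeries ℂ) := (PowerSeries.map O.subtype).range

theorem mem_serIn {O : Subring ℂ} {P : PowerSeries ℂ} :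
    P ∈ serIn O ↔ ∀ n, PowerSeries.coeff n P ∈ O := by
  constructor
  · rintro ⟨Q, rfl⟩ n
    simp
  · intro h
    exact ⟨PowerSeries.mk fun n => ⟨_, h n⟩, PowerSeries.ext fun n => by simp⟩

/-- A series integral over a ring of series that lies in its fraction field lies in the ring. -/
theorem mem_serIn_of_mul_pow [FiniteDimensional ℚ K] {P E : PowerSeries ℂ} {m : ℕ} (hm : 0 < m)
    (hP : ∀ n, PowerSeries.coeff n P ∈ K) (hE0 : E ≠ 0) (hE : E ∈ serIn (intsIn K))
    (hPE : P * E ∈ serIn (intsIn K)) (hPm : P ^ m ∈ serIn (intsIn K)) :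
    P ∈ serIn (intsIn K) := by
  have hC : ∀ j : ℕ, E ^ m * P ^ j ∈ serIn (intsIn K) := fun j => by
    have hb : j % m ≤ m := (Nat.mod_lt j hm).le
    have : E ^ m * P ^ j = (P ^ m) ^ (j / m) * (P * E) ^ (j % m) * E ^ (m - j % m) := by
      conv_lhs => rw [← Nat.div_add_mod j m, ← Nat.sub_add_cancel hb]
      rw [pow_add, pow_add, mul_pow, pow_mul, Nat.sub_add_cancel hb]
      ring
    rw [this]
    exact mul_mem (mul_mem (pow_mem hPm _) (pow_mem hPE _)) (pow_mem hE _)
  rw [mem_serIn]
  intro n
  induction n using Nat.strong_induction_on with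
  | h n ih =>
  refine mem_intsIn.mpr ⟨hP n, ?_⟩
  set T : PowerSeries ℂ := PowerSeries.mk fun i => if i < n then PowerSeries.coeff i P else 0
  have hT : T ∈ serIn (intsIn K) := mem_serIn.mpr fun i => by
    simp only [T, PowerSeries.coeff_mk]
    split_ifs with h
    · exact ih i h
    · exact zero_mem _
  have hX : ∀ j : ℕ, E ^ m * (P - T) ^ j ∈ serIn (intsIn K) := fun j => by
    rw [sub_eq_add_neg, add_pow, Finset.mul_sum]
    refine sum_mem fun i _ => ?_
    rw [← mul_assoc, ← mul_assoc]
    exact mul_mem (mul_mem (hC i) (pow_mem (neg_mem hT) _)) (natCast_mem _ _)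
  obtain ⟨Y, hY⟩ : PowerSeries.X ^ n ∣ P - T := PowerSeries.X_pow_dvd_iff.mpr fun i hi => by
    simp [T, hi]
  have hY0 : PowerSeries.coeff 0 Y = PowerSeries.coeff n P := by
    have := congrArg (PowerSeries.coeff (0 + n)) hY
    rw [PowerSeries.coeff_X_pow_mul] at this
    simpa [T] using this.symm
  have hE' : E ^ m ≠ 0 := pow_ne_zero _ hE0
  classical
  have hex : ∃ v, PowerSeries.coeff v (E ^ m) ≠ 0 := by
    by_contra h
    push Not at h
    exact hE' (PowerSeries.ext fun v => by simpa using h v)
  set v := Nat.find hex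
  have hv : PowerSeries.coeff v (E ^ m) ≠ 0 := Nat.find_spec hex
  obtain ⟨C', hC'⟩ : PowerSeries.X ^ v ∣ E ^ m := PowerSeries.X_pow_dvd_iff.mpr fun i hi =>
    not_not.mp (Nat.find_min hex hi)
  have hC0 : PowerSeries.coeff 0 C' = PowerSeries.coeff v (E ^ m) := by
    have := congrArg (PowerSeries.coeff (0 + v)) hC'
    rw [PowerSeries.coeff_X_pow_mul] at this
    simpa using this.symm
  refine isIntegral_of_stable (K := K) _
    {s | ∃ j : ℕ, s = PowerSeries.coeff v (E ^ m) * PowerSeries.coeff n P ^ j} one_ne_zero ?_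
    ⟨_, ⟨0, rfl⟩, by simpa using hv⟩ ?_
  · rintro _ ⟨j, rfl⟩
    rw [one_mul]
    have h := mem_serIn.mp (hX j) (0 + (v + n * j))
    rw [hY, hC', mul_pow, ← pow_mul,
      show PowerSeries.X ^ v * C' * (PowerSeries.X ^ (n * j) * Y ^ j) =
        PowerSeries.X ^ (v + n * j) * (C' * Y ^ j) by ring, PowerSeries.coeff_X_pow_mul] at h
    rw [← hC0, ← hY0]
    simpa [PowerSeries.coeff_zero_eq_constantCoeff] using h
  · rintro _ ⟨j, rfl⟩
    exact Submodule.subset_span ⟨j + 1, by ring⟩

end FLTAgent.WeightOne
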