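import Fermat.Agent.Lower.Lift.Coeff
import Fermat.Agent.IntStr.FieldAut

/-!
# Coefficient rings inside `ℂ`

`exists_coeff_embedding`: for a number field `K ⊆ ℂ` and a prime `ℓ` there are a complete discrete
valuation ring `O` with finite residue field of characteristic `ℓ` and an injective map `O → ℂ`
whose image contains the algebraic integers of `K` and the roots of unity of order `ℓ - 1`
(cardinality bound `mk_le_continuum` and extension of embeddings; roots of unity by Hensel).
-/

set_option autoImplicit false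
set_option linter.style.haveILetI false

noncomputable section

open IsLocalRing (maximalIdeal ResidueField residue)
open scoped Cardinal

namespace FLTAgent.WeightOne

/-- A complete local ring with finite residue field has at most continuum many elements. -/
theorem mk_le_continuum (O : Type) [CommRing O] [IsLocalRing O] [IsNoetherianRing O]
    [IsAdicComplete (maximalIdeal O) O] [Finite (ResidueField O)] : #O ≤ 𝔠 := by
  have hfin : ∀ n : ℕ, Finite (O ⧸ maximalIdeal O ^ n) := fun n => by
    haveI : Finite (O ⧸ maximalIdeal O) := ‹Finite (ResidueField O)›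
    exact Ideal.finite_quotient_pow (IsNoetherian.noetherian _) n
  let e : O → (n : ℕ) → O ⧸ maximalIdeal O ^ n := fun x n => Ideal.Quotient.mk _ x
  have hinj : Function.Injective e := fun x y h => by
    refine sub_eq_zero.mp (IsHausdorff.haus (I := maximalIdeal O) inferInstance _ fun n => ?_)
    rw [SModEq.sub_mem, sub_zero, smul_eq_mul, Ideal.mul_top]
    exact Ideal.Quotient.eq.mp (congrFun h n)
  refine (Cardinal.mk_le_of_injective hinj).trans ?_
  rw [Cardinal.mk_pi]
  refine (Cardinal.prod_le_prod _ (fun _ : ℕ => ℵ₀) fun n =>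
    haveI := hfin n
    Cardinal.mk_le_aleph0).trans ?_
  rw [Cardinal.prod_const', Cardinal.mk_nat, Cardinal.aleph0_power_aleph0]

/-- The roots of unity of order `ℓ - 1` exist in a complete local ring of residue characteristic
`ℓ`. -/
theorem exists_primitiveRoot_pred {O : Type} [CommRing O] [IsDomain O] [IsLocalRing O]
    [IsAdicComplete (maximalIdeal O) O] {ℓ : ℕ} [Fact ℓ.Prime] (hℓ : (ℓ : O) ∈ maximalIdeal O) :
    ∃ g : O, IsPrimitiveRoot g (ℓ - 1) := by
  have hℓp : ℓ.Prime := Fact.out
  haveI : CharP (ResidueField O) ℓ := (CharP.charP_iff_prime_eq_zero hℓp).mpr (by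
    rw [← map_natCast (residue O), IsLocalRing.residue_eq_zero_iff]; exact hℓ)
  obtain ⟨u, hu⟩ := IsCyclic.exists_generator (α := (ZMod ℓ)ˣ)
  have hord : orderOf u = ℓ - 1 := by
    rw [orderOf_eq_card_of_forall_mem_zpowers hu, Nat.card_eq_fintype_card, ZMod.card_units]
  let i : ZMod ℓ →+* ResidueField O := ZMod.castHom dvd_rfl _
  obtain ⟨a, ha⟩ := IsLocalRing.residue_surjective (i (u : ZMod ℓ))
  have hk : (i (u : ZMod ℓ)) ^ (ℓ - 1) = 1 := by
    rw [← map_pow, ← Units.val_pow_eq_pow_val, ← hord, pow_orderOf_eq_one, Units.val_one, map_one]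
  let P : Polynomial O := Polynomial.X ^ (ℓ - 1) - 1
  have hP : P.Monic := by
    refine Polynomial.monic_X_pow_sub ?_
    rw [Polynomial.degree_one]
    exact_mod_cast Nat.sub_pos_of_lt hℓp.one_lt
  have hev : P.eval a ∈ maximalIdeal O := by
    rw [← IsLocalRing.residue_eq_zero_iff]
    simp [P, ha, hk]
  have hder : IsUnit (Ideal.Quotient.mk (maximalIdeal O) (P.derivative.eval a)) := by
    refine isUnit_iff_ne_zero.mpr ?_ |> fun h => (h : IsUnit (residue O (P.derivative.eval a)))
    have h1 : residue O (P.derivative.eval a) =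
        ((ℓ - 1 : ℕ) : ResidueField O) * i (u : ZMod ℓ) ^ (ℓ - 1 - 1) := by
      simp [P, ha, Polynomial.derivative_X_pow]
    rw [h1]
    refine mul_ne_zero ?_ (pow_ne_zero _ ((u.isUnit.map i).ne_zero))
    rw [Ne, CharP.cast_eq_zero_iff (ResidueField O) ℓ]
    intro h
    have := Nat.le_of_dvd (Nat.sub_pos_of_lt hℓp.one_lt) h
    have := hℓp.two_le
    omega
  obtain ⟨g, hg, hga⟩ := HenselianRing.is_henselian P hP a hev hder
  have hres : residue O g = i (u : ZMod ℓ) := ha ▸ Ideal.Quotient.eq.mpr hga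
  have hg1 : g ^ (ℓ - 1) = 1 := by simpa [P, sub_eq_zero] using hg
  refine ⟨g, hg1, fun n hn => ?_⟩
  rw [← hord]
  refine orderOf_dvd_of_pow_eq_one (Units.ext (i.injective ?_))
  rw [Units.val_pow_eq_pow_val, map_pow, ← hres, ← map_pow, hn, map_one, Units.val_one, map_one]

/-- The coefficient ring of a number field at `ℓ`. -/
theorem exists_coeff_embedding (K : IntermediateField ℚ ℂ) [FiniteDimensional ℚ K] (ℓ : ℕ)
    [Fact ℓ.Prime] :
    ∃ (O : Type) (_ : CommRing O) (_ : IsDomain O) (_ : IsDiscreteValuationRing O)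
      (_ : IsAdicComplete (maximalIdeal O) O) (_ : Finite (ResidueField O)) (_ : CharZero O)
      (ι : O →+* ℂ), Function.Injective ι ∧ (ℓ : O) ∈ maximalIdeal O ∧
      (∀ x : ℂ, x ∈ K → IsIntegral ℤ x → x ∈ ι.range) ∧
      ∀ z : ℂ, z ^ (ℓ - 1) = 1 → z ∈ ι.range := by
  classical
  have hℓ : ℓ.Prime := Fact.out
  let pb := Field.powerBasisOfFiniteOfSeparable ℚ K
  haveI : Algebra.IsAlgebraic ℤ ℚ := IsLocalization.isAlgebraic _ (nonZeroDivisors ℤ)
  haveI : Algebra.IsAlgebraic ℤ K := Algebra.IsAlgebraic.trans ℤ ℚ K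
  obtain ⟨d, hd, hint⟩ := Algebra.IsAlgebraic.exists_integral_multiples ℤ ({pb.gen} : Finset K)
  replace hint : IsIntegral ℤ (d • pb.gen) := hint _ (Finset.mem_singleton_self _)
  set θ : K := d • pb.gen with hθ
  have hθQ : IsIntegral ℚ θ := Algebra.IsIntegral.isIntegral θ
  have htop : Algebra.adjoin ℚ {θ} = ⊤ := by
    rw [eq_top_iff, ← pb.adjoin_gen_eq_top, Algebra.adjoin_le_iff, Set.singleton_subset_iff]
    have he : pb.gen = ((d : ℚ)⁻¹) • θ := by
      rw [hθ, ← Int.cast_smul_eq_zsmul ℚ, smul_smul, inv_mul_cancel₀ (Int.cast_ne_zero.mpr hd),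
        one_smul]
    rw [he]
    exact Subalgebra.smul_mem _ (Algebra.self_mem_adjoin_singleton ℚ θ) _
  let pb' : PowerBasis ℚ K :=
    (Algebra.adjoin.powerBasis hθQ).map ((Subalgebra.equivOfEq _ ⊤ htop).trans Subalgebra.topEquiv)
  let P : Polynomial ℤ_[ℓ] := (minpoly ℤ θ).map (Int.castRingHom _)
  have hP : P.Monic := (minpoly.monic hint).map _
  have hPd : 0 < P.natDegree := by
    rw [(minpoly.monic hint).natDegree_map]
    exact minpoly.natDegree_pos hint
  obtain ⟨O, _, _, _, _, _, _, φ, hφ, hroots⟩ :=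
    Lower.Lift.exists_extension_roots ℤ_[ℓ] [P] (by simpa using ⟨hP, hPd⟩)
  obtain ⟨c, hc⟩ := hroots P (List.mem_singleton_self P)
  have hℓO : (ℓ : O) ∈ maximalIdeal O := by
    rw [← map_natCast φ]
    refine map_nonunit φ _ ?_
    rw [PadicInt.maximalIdeal_eq_span_p]
    exact Ideal.mem_span_singleton_self _
  have hφinj : Function.Injective φ := by
    rw [injective_iff_map_eq_zero]
    intro a ha
    by_contra ha0
    obtain ⟨n, u, rfl⟩ := IsDiscreteValuationRing.eq_unit_mul_pow_irreducible ha0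
      PadicInt.irreducible_p
    rw [map_mul, map_pow, map_natCast] at ha
    exact mul_ne_zero (u.isUnit.map φ).ne_zero
      (pow_ne_zero _ (Nat.cast_ne_zero.mpr hℓ.ne_zero)) ha
  let F := FractionRing O
  haveI : CharZero F := charZero_of_injective_algebraMap (IsFractionRing.injective O F)
  have hgen : pb'.gen = θ := by simp [pb']
  have hmin : minpoly ℚ θ = (minpoly ℤ θ).map (algebraMap ℤ ℚ) :=
    minpoly.isIntegrallyClosed_eq_field_fractions' ℚ hint
  have hroot : Polynomial.aeval (algebraMap O F c) (minpoly ℚ pb'.gen) = 0 := by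
    rw [hgen, hmin, Polynomial.aeval_def, Polynomial.eval₂_map]
    have h1 : Polynomial.eval₂ (φ.comp (Int.castRingHom ℤ_[ℓ])) c (minpoly ℤ θ) = 0 := by
      rw [← Polynomial.eval₂_map, ← Polynomial.eval_map]
      exact hc
    rw [RingHom.ext_int ((algebraMap ℚ F).comp (algebraMap ℤ ℚ))
      ((algebraMap O F).comp (φ.comp (Int.castRingHom ℤ_[ℓ]))), ← Polynomial.hom_eval₂, h1,
      map_zero]
  let iK : K →ₐ[ℚ] F := pb'.lift _ hroot
  let L := AlgebraicClosure F
  letI : Algebra K L := ((algebraMap F L).comp iK.toRingHom).toAlgebra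
  haveI : Countable K := by
    rw [← Cardinal.mk_le_aleph0_iff]
    exact (Algebra.IsAlgebraic.cardinalMk_le_max ℚ K).trans (by simp)
  have hQℓ : 𝔠 ≤ #L := by
    refine (continuum_le_cardinal_of_nontriviallyNormedField ℚ_[ℓ]).trans ?_
    let j : ℚ_[ℓ] →+* F :=
      IsFractionRing.lift (K := ℚ_[ℓ]) (g := (algebraMap O F).comp φ)
        fun a b h => hφinj (IsFractionRing.injective O F h)
    exact (Cardinal.mk_le_of_injective j.injective).trans
      (Cardinal.mk_le_of_injective (algebraMap F L).injective)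
  have hLc : #L = #ℂ := by
    rw [Cardinal.mk_complex]
    refine le_antisymm ((Algebra.IsAlgebraic.cardinalMk_le_max F L).trans (max_le ?_
      Cardinal.aleph0_le_continuum)) hQℓ
    exact (IsLocalization.cardinalMk_le (L := F) (nonZeroDivisors O)).trans (mk_le_continuum O)
  obtain ⟨σ, hσ⟩ := IntStr.exists_ringEquiv_extending (R := K) (L := L) (M := ℂ)
    (RingHom.injective (algebraMap K L)) (RingHom.injective (algebraMap K ℂ))
    (Cardinal.aleph0_lt_continuum.trans_le hQℓ) hLc
  let ι : O →+* ℂ := (σ : L →+* ℂ).comp (algebraMap O L)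
  have hι : Function.Injective ι := σ.injective.comp <| by
    rw [IsScalarTower.algebraMap_eq O F L]
    exact (algebraMap F L).injective.comp (IsFractionRing.injective O F)
  refine ⟨O, inferInstance, inferInstance, inferInstance, inferInstance, inferInstance,
    inferInstance, ι, hι, hℓO, fun x hxK hx => ?_, fun z hz => ?_⟩
  · let y : K := ⟨x, hxK⟩
    have hy : IsIntegral ℤ y := (isIntegral_algHom_iff (f := (K.val.restrictScalars ℤ))
      Subtype.val_injective).mp hx
    have h1 : IsIntegral O (iK y) := by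
      obtain ⟨Q, hQ, hQ0⟩ := hy
      refine ⟨Q.map (Int.castRingHom O), hQ.map _, ?_⟩
      rw [Polynomial.eval₂_map, RingHom.ext_int ((algebraMap O F).comp (Int.castRingHom O))
        (iK.toRingHom.comp (algebraMap ℤ K))]
      exact (Polynomial.hom_eval₂ Q (algebraMap ℤ K) iK.toRingHom y).symm.trans
        (by rw [hQ0, map_zero])
    obtain ⟨o, ho⟩ := IsIntegrallyClosed.isIntegral_iff.mp h1
    refine ⟨o, ?_⟩
    refine Eq.trans ?_ (hσ y)
    show σ (algebraMap O L o) = σ (algebraMap F L (iK y))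
    rw [IsScalarTower.algebraMap_apply O F L, ho]
  · haveI : NeZero (ℓ - 1) := ⟨by have := hℓ.two_le; omega⟩
    obtain ⟨g, hg⟩ := exists_primitiveRoot_pred hℓO
    obtain ⟨i, -, rfl⟩ := (hg.map_of_injective hι).eq_pow_of_pow_eq_one hz
    exact ⟨g ^ i, map_pow ι g i⟩

end FLTAgent.WeightOne
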