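import Fermat.Agent.WeightOne.Defs

/-!
# Lifting representations of order prime to the residue characteristic

`exists_lift_of_coprime`: a representation `G → GL₂` over the residue field of a complete discrete
valuation ring `O` lifts to `O` when `|G|` is a unit in `O`. An almost multiplicative lift is
improved by averaging (`averageStep`), doubling the precision at each step.
-/

set_option autoImplicit false
set_option linter.unusedSectionVars false
set_option linter.style.haveILetI false

noncomputable section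

open IsLocalRing (maximalIdeal ResidueField residue)

namespace FLTAgent.WeightOne

section Averaging

variable {O : Type} [CommRing O] (I : Ideal O)

/-- All entries lie in the `j`th power of `I`. -/
def EntriesIn (j : ℕ) (A : Matrix (Fin 2) (Fin 2) O) : Prop := ∀ i l, A i l ∈ I ^ j

variable {I}

theorem EntriesIn.zero' (j : ℕ) : EntriesIn I j 0 := fun _ _ => zero_mem _

theorem EntriesIn.add' {j : ℕ} {A B : Matrix (Fin 2) (Fin 2) O} (hA : EntriesIn I j A)
    (hB : EntriesIn I j B) : EntriesIn I j (A + B) := fun i l => add_mem (hA i l) (hB i l)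

theorem EntriesIn.neg' {j : ℕ} {A : Matrix (Fin 2) (Fin 2) O} (hA : EntriesIn I j A) :
    EntriesIn I j (-A) := fun i l => neg_mem (hA i l)

theorem EntriesIn.smul' {j : ℕ} (c : O) {A : Matrix (Fin 2) (Fin 2) O} (hA : EntriesIn I j A) :
    EntriesIn I j (c • A) := fun i l => Ideal.mul_mem_left _ c (hA i l)

theorem EntriesIn.sum' {j : ℕ} {ι : Type*} (s : Finset ι) {A : ι → Matrix (Fin 2) (Fin 2) O}
    (hA : ∀ x ∈ s, EntriesIn I j (A x)) : EntriesIn I j (∑ x ∈ s, A x) := fun i l => by
  rw [Matrix.sum_apply]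
  exact Submodule.sum_mem _ fun x hx => hA x hx i l

theorem EntriesIn.mul_left' {j : ℕ} (B : Matrix (Fin 2) (Fin 2) O)
    {A : Matrix (Fin 2) (Fin 2) O} (hA : EntriesIn I j A) : EntriesIn I j (B * A) := fun i l => by
  rw [Matrix.mul_apply]
  exact Submodule.sum_mem _ fun x _ => Ideal.mul_mem_left _ _ (hA x l)

theorem EntriesIn.mul_right' {j : ℕ} (B : Matrix (Fin 2) (Fin 2) O)
    {A : Matrix (Fin 2) (Fin 2) O} (hA : EntriesIn I j A) : EntriesIn I j (A * B) := fun i l => by
  rw [Matrix.mul_apply]
  exact Submodule.sum_mem _ fun x _ => Ideal.mul_mem_right _ _ (hA i x)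

theorem EntriesIn.mul_both' {j j' : ℕ} {A B : Matrix (Fin 2) (Fin 2) O} (hA : EntriesIn I j A)
    (hB : EntriesIn I j' B) : EntriesIn I (j + j') (A * B) := fun i l => by
  rw [Matrix.mul_apply, pow_add]
  exact Submodule.sum_mem _ fun x _ => Ideal.mul_mem_mul (hA i x) (hB x l)

theorem EntriesIn.mono' {j j' : ℕ} (h : j ≤ j') {A : Matrix (Fin 2) (Fin 2) O}
    (hA : EntriesIn I j' A) : EntriesIn I j A := fun i l => Ideal.pow_le_pow_right h (hA i l)

variable {G : Type} [Group G] [Fintype G]

/-- The averaging step: an almost multiplicative map becomes multiplicative to twice the order. -/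
def averageStep (u : O) (f : G → Matrix (Fin 2) (Fin 2) O) (g : G) : Matrix (Fin 2) (Fin 2) O :=
  u • ∑ x : G, f (g * x) * (f x)⁻¹

theorem averageStep_spec {u : O} (hu : u * (Fintype.card G : O) = 1)
    {f : G → Matrix (Fin 2) (Fin 2) O} (hf : ∀ g, IsUnit (f g).det) {j : ℕ}
    (herr : ∀ g h, EntriesIn I j (f g * f h - f (g * h))) :
    (∀ g, EntriesIn I j (averageStep u f g - f g)) ∧
      ∀ g h, EntriesIn I (j + j)
        (averageStep u f g * averageStep u f h - averageStep u f (g * h)) := by
  have havg : ∀ A : Matrix (Fin 2) (Fin 2) O, u • ∑ _x : G, A = A := fun A => by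
    rw [Finset.sum_const, Finset.card_univ, ← Nat.cast_smul_eq_nsmul O, smul_smul, hu, one_smul]
  have hclose : ∀ g x, EntriesIn I j (f (g * x) * (f x)⁻¹ - f g) := fun g x => by
    have h := ((herr g x).mul_right' (f x)⁻¹).neg'
    rwa [sub_mul, Matrix.mul_nonsing_inv_cancel_right _ _ (hf x), neg_sub] at h
  have h1 : ∀ g, EntriesIn I j (averageStep u f g - f g) := fun g => by
    rw [averageStep]
    have e : u • ∑ x : G, f (g * x) * (f x)⁻¹ - f g =
        u • ∑ x : G, (f (g * x) * (f x)⁻¹ - f g) := by
      rw [Finset.sum_sub_distrib, smul_sub, havg]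
    rw [e]
    exact (EntriesIn.sum' _ fun x _ => hclose g x).smul' u
  refine ⟨h1, fun g h => ?_⟩
  set F := averageStep u f with hF
  let D : G → G → Matrix (Fin 2) (Fin 2) O := fun a x => f (a * x) * (f x)⁻¹ - F a
  have hD : ∀ a x, EntriesIn I j (D a x) := fun a x => by
    show EntriesIn I j (f (a * x) * (f x)⁻¹ - F a)
    rw [← sub_add_sub_cancel _ (f a) (F a), ← neg_sub (F a) (f a)]
    exact (hclose a x).add' (h1 a).neg'
  have hD0 : ∀ a, u • ∑ x : G, D a x = 0 := fun a => by
    simp only [D]
    rw [Finset.sum_sub_distrib, smul_sub, havg, hF, averageStep, sub_self]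
  have key : F (g * h) = F g * F h + u • ∑ y : G, D g (h * y) * D h y := by
    have hterm : ∀ y : G, f (g * h * y) * (f y)⁻¹ =
        F g * F h + F g * D h y + D g (h * y) * F h + D g (h * y) * D h y := fun y => by
      have e : f (g * h * y) * (f y)⁻¹ = (F g + D g (h * y)) * (F h + D h y) := by
        simp only [D, add_sub_cancel]
        rw [← Matrix.mul_assoc, Matrix.nonsing_inv_mul_cancel_right _ _ (hf _), mul_assoc g h y]
      rw [e, add_mul, mul_add, mul_add]
      abel
    conv_lhs => rw [hF, averageStep]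
    rw [Finset.sum_congr rfl fun y _ => hterm y, Finset.sum_add_distrib, Finset.sum_add_distrib,
      Finset.sum_add_distrib, smul_add, smul_add, smul_add, havg, ← Finset.mul_sum, ← Finset.sum_mul,
      ← mul_smul_comm, ← smul_mul_assoc, hD0,
      show u • ∑ y : G, D g (h * y) = 0 from
        (congrArg (u • ·) (Equiv.sum_comp (Equiv.mulLeft h) (D g))).trans (hD0 g),
      mul_zero, zero_mul, add_zero, add_zero]
  rw [key, sub_add_cancel_left]
  exact ((EntriesIn.sum' _ fun y _ => (hD g _).mul_both' (hD h y)).smul' u).neg'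

end Averaging

/-- A representation of a finite group of order prime to the residue characteristic lifts. -/
theorem exists_lift_of_coprime {O : Type} [CommRing O] [IsDomain O] [IsDiscreteValuationRing O]
    [IsAdicComplete (maximalIdeal O) O] [Finite (ResidueField O)]
    {G : Type} [Group G] [Finite G] (hG : IsUnit ((Nat.card G : ℕ) : O))
    (ρ : G →* GL (Fin 2) (ResidueField O)) :
    ∃ ρ' : G →* GL (Fin 2) O, (Matrix.GeneralLinearGroup.map (residue O)).comp ρ' = ρ := by
  classical
  haveI := Fintype.ofFinite G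
  obtain ⟨u₀, hu₀⟩ := hG
  set u : O := ↑u₀⁻¹
  have hu : u * (Fintype.card G : O) = 1 := by
    rw [← Nat.card_eq_fintype_card, ← hu₀]
    exact u₀.inv_mul
  let red : Matrix (Fin 2) (Fin 2) O →+* Matrix (Fin 2) (Fin 2) (ResidueField O) :=
    (residue O).mapMatrix
  set m := maximalIdeal O with hm
  have hred : ∀ A : Matrix (Fin 2) (Fin 2) O, EntriesIn m 1 A → red A = 0 := fun A hA => by
    ext i l
    exact Ideal.Quotient.eq_zero_iff_mem.mpr ((pow_one m).le (hA i l))
  have hred' : ∀ A : Matrix (Fin 2) (Fin 2) O, red A = 0 → EntriesIn m 1 A := fun A hA i l => by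
    rw [pow_one]
    exact Ideal.Quotient.eq_zero_iff_mem.mp (congrFun (congrFun hA i) l)
  have hunit : ∀ (g : G) (A : Matrix (Fin 2) (Fin 2) O),
      red A = ((ρ g : GL (Fin 2) (ResidueField O)) : Matrix _ _ (ResidueField O)) → IsUnit A.det :=
    fun g A hA => by
    refine (IsLocalRing.residue_ne_zero_iff_isUnit _).mp ?_
    rw [RingHom.map_det]
    show (red A).det ≠ 0
    rw [hA]
    exact ((Matrix.isUnit_iff_isUnit_det _).mp (ρ g).isUnit).ne_zero
  -- a set-theoretic lift
  have hlift : ∀ g : G, ∃ A : Matrix (Fin 2) (Fin 2) O,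
      red A = ((ρ g : GL (Fin 2) (ResidueField O)) : Matrix _ _ (ResidueField O)) := fun g => by
    choose c hc using fun i l => IsLocalRing.residue_surjective
      ((↑(ρ g) : Matrix (Fin 2) (Fin 2) (ResidueField O)) i l)
    exact ⟨Matrix.of c, Matrix.ext hc⟩
  choose f₀ hf₀ using hlift
  let f : ℕ → G → Matrix (Fin 2) (Fin 2) O := fun n => (averageStep u)^[n] f₀
  have inv : ∀ n, (∀ g, red (f n g) = ((ρ g : GL (Fin 2) (ResidueField O)) : Matrix _ _ _)) ∧
      ∀ g h, EntriesIn m (n + 1) (f n g * f n h - f n (g * h)) := by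
    intro n
    induction n with
    | zero =>
      refine ⟨hf₀, fun g h => hred' _ ?_⟩
      show red (f₀ g * f₀ h - f₀ (g * h)) = 0
      rw [map_sub, map_mul, hf₀, hf₀, hf₀, map_mul, Units.val_mul, sub_self]
    | succ n ih =>
      have hs := averageStep_spec hu (fun g => hunit g _ (ih.1 g)) ih.2
      have hfs : f (n + 1) = averageStep u (f n) := Function.iterate_succ_apply' _ _ _
      refine ⟨fun g => ?_, fun g h => ?_⟩
      · rw [hfs, ← ih.1 g, ← sub_eq_zero, ← map_sub]
        exact hred _ ((hs.1 g).mono' (by omega))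
      · rw [hfs]
        exact (hs.2 g h).mono' (by omega)
  have hstep : ∀ n g, EntriesIn m (n + 1) (f (n + 1) g - f n g) := fun n g => by
    rw [show f (n + 1) = averageStep u (f n) from Function.iterate_succ_apply' _ _ _]
    exact (averageStep_spec hu (fun g => hunit g _ ((inv n).1 g)) (inv n).2).1 g
  have hcauchy : ∀ {a b : ℕ}, a ≤ b → ∀ g, EntriesIn m a (f b g - f a g) := by
    intro a b hab g
    induction b, hab using Nat.le_induction with
    | base => rw [sub_self]; exact EntriesIn.zero' a
    | succ b hab ih =>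
      rw [← sub_add_sub_cancel _ (f b g)]
      exact ((hstep b g).mono' (by omega)).add' ih
  have hlim : ∀ g i l, ∃ L : O, ∀ n, f n g i l - L ∈ m ^ n := by
    intro g i l
    obtain ⟨L, hL⟩ := IsPrecomplete.prec (I := m) (M := O) inferInstance
      (f := fun n => f n g i l) (fun {a b} hab => by
        rw [SModEq.sub_mem, smul_eq_mul, Ideal.mul_top, ← neg_sub]
        exact neg_mem (hcauchy hab g i l))
    refine ⟨L, fun n => ?_⟩
    have := hL n
    rwa [SModEq.sub_mem, smul_eq_mul, Ideal.mul_top] at this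
  choose Lim hLim using hlim
  let F : G → Matrix (Fin 2) (Fin 2) O := fun g => Matrix.of (Lim g)
  have hFn : ∀ n g, EntriesIn m n (f n g - F g) := fun n g i l => hLim g i l n
  have hFmul : ∀ g h, F (g * h) = F g * F h := fun g h => by
    refine sub_eq_zero.mp (Matrix.ext fun i l => IsHausdorff.haus' (I := m) _ fun n => ?_)
    rw [SModEq.sub_mem, smul_eq_mul, Ideal.mul_top, sub_zero]
    have e : F (g * h) - F g * F h = -(f n (g * h) - F (g * h)) + -(f n g * f n h - f n (g * h)) +
        ((f n g - F g) * f n h + F g * (f n h - F h)) := by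
      noncomm_ring
    rw [e]
    exact ((hFn n _).neg'.add' (((inv n).2 g h).mono' (by omega)).neg').add'
      (((hFn n g).mul_right' _).add' ((hFn n h).mul_left' _)) i l
  have hFred : ∀ g, red (F g) = ((ρ g : GL (Fin 2) (ResidueField O)) : Matrix _ _ _) := fun g => by
    rw [← (inv 1).1 g, eq_comm, ← sub_eq_zero, ← map_sub]
    exact hred _ (hFn 1 g)
  have hF1 : F 1 = 1 := by
    have h := hFmul 1 1
    rw [mul_one] at h
    have hU : IsUnit (F 1).det := hunit 1 _ (hFred 1)
    calc F 1 = (F 1)⁻¹ * (F 1 * F 1) := by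
          rw [← Matrix.mul_assoc, Matrix.nonsing_inv_mul _ hU, one_mul]
      _ = 1 := by rw [← h, Matrix.nonsing_inv_mul _ hU]
  let Fh : G →* Matrix (Fin 2) (Fin 2) O := { toFun := F, map_one' := hF1, map_mul' := hFmul }
  exact ⟨Fh.toHomUnits, MonoidHom.ext fun g => Units.ext (hFred g)⟩

end FLTAgent.WeightOne
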