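import Fermat.Agent.WeightOne.Defs

/-!
# Changing the level of forms on `Γ₁`

For `N ∣ M`: cusp forms and modular forms on `Γ₁(N)` as forms on `Γ₁(M)` (`restrictCusp`,
`restrictModular`), the values of a character with changed level (`changeLevel_intCast`,
`changeLevel_natCast`), and the lower right entry of an element of `Γ₀(M)` being a unit modulo `M`.
-/

set_option autoImplicit false

noncomputable section

open CongruenceSubgroup UpperHalfPlane
open scoped MatrixGroups ModularForm

namespace FLTAgent.WeightOne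

theorem gamma1_le_gamma1 {N M : ℕ} (h : N ∣ M) : Gamma1 M ≤ Gamma1 N := by
  intro γ hγ
  rw [Gamma1_mem] at hγ ⊢
  obtain ⟨ha, hd, hc⟩ := hγ
  have e : ∀ x : ℤ, ((x : ℤ) : ZMod N) = ZMod.castHom h (ZMod N) (x : ZMod M) := fun x => by simp
  exact ⟨by rw [e, ha, map_one], by rw [e, hd, map_one], by rw [e, hc, map_zero]⟩

theorem gamma1_map_le {N M : ℕ} (h : N ∣ M) :
    (Gamma1 M : Subgroup (GL (Fin 2) ℝ)) ≤ (Gamma1 N : Subgroup (GL (Fin 2) ℝ)) :=
  Subgroup.map_mono (gamma1_le_gamma1 h)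

/-- A cusp form as one of a higher level. -/
def restrictCusp {N M : ℕ} (h : N ∣ M) {k : ℤ} (f : CuspForm (Gamma1 N) k) :
    CuspForm (Gamma1 M) k where
  toFun := ⇑f
  slash_action_eq' A hA := f.slash_action_eq' A (gamma1_map_le h hA)
  holo' := f.holo'
  zero_at_cusps' hc := f.zero_at_cusps' (hc.mono (gamma1_map_le h))

/-- A modular form as one of a higher level. -/
def restrictModular {N M : ℕ} (h : N ∣ M) {k : ℤ} (f : ModularForm (Gamma1 N) k) :
    ModularForm (Gamma1 M) k where
  toFun := ⇑f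
  slash_action_eq' A hA := f.slash_action_eq' A (gamma1_map_le h hA)
  holo' := f.holo'
  bdd_at_cusps' hc := f.bdd_at_cusps' (hc.mono (gamma1_map_le h))

@[simp] theorem coe_restrictCusp {N M : ℕ} (h : N ∣ M) {k : ℤ} (f : CuspForm (Gamma1 N) k) :
    ⇑(restrictCusp h f) = ⇑f := rfl

@[simp] theorem coe_restrictModular {N M : ℕ} (h : N ∣ M) {k : ℤ}
    (f : ModularForm (Gamma1 N) k) : ⇑(restrictModular h f) = ⇑f := rfl

theorem one_mem_strictPeriods_gamma1 (N : ℕ) :
    (1 : ℝ) ∈ (Gamma1 N : Subgroup (GL (Fin 2) ℝ)).strictPeriods := by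
  rw [CongruenceSubgroup.strictPeriods_Gamma1]
  exact AddSubgroup.mem_zmultiples 1

/-- The value of a changed level character at an integer prime to the level. -/
theorem changeLevel_intCast {N M : ℕ} (h : N ∣ M) (ε : DirichletCharacter ℂ N) {d : ℤ}
    (hd : IsUnit (d : ZMod M)) :
    DirichletCharacter.changeLevel h ε (d : ZMod M) = ε (d : ZMod N) := by
  obtain ⟨u, hu⟩ := hd
  rw [← hu, DirichletCharacter.changeLevel_eq_cast_of_dvd _ h, hu, ZMod.cast_intCast h]

theorem changeLevel_natCast {N M : ℕ} (h : N ∣ M) (ε : DirichletCharacter ℂ N) {d : ℕ}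
    (hd : IsUnit (d : ZMod M)) :
    DirichletCharacter.changeLevel h ε (d : ZMod M) = ε (d : ZMod N) := by
  have hd' : IsUnit (((d : ℤ)) : ZMod M) := by rwa [Int.cast_natCast]
  simpa using changeLevel_intCast h ε hd'

/-- The lower right entry of an element of `Γ₀(M)` is a unit mod `M`. -/
theorem isUnit_lowerRight {M : ℕ} {γ : SL(2, ℤ)} (hγ : γ ∈ Gamma0 M) :
    IsUnit ((γ 1 1 : ℤ) : ZMod M) := by
  rw [Gamma0_mem] at hγ
  have h := congrArg (Int.cast : ℤ → ZMod M) γ.2
  rw [Matrix.det_fin_two, Int.cast_sub, Int.cast_mul, Int.cast_mul, hγ, mul_zero, sub_zero,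
    Int.cast_one] at h
  exact IsUnit.of_mul_eq_one_right _ h

end FLTAgent.WeightOne
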