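import Fermat.Agent.WeightOne.Eisenstein
import Fermat.Agent.WeightOne.EmbedO
import Fermat.Agent.WeightOne.Forms
import Fermat.Agent.Gamma1.Final

/-!
# Residual representations of a weight one eigen system

`exists_residual`: for a prime `ℓ ≠ 2` not dividing `N`, an eigen system of weight one with
`ℓ`-integral coefficients has a semisimple residual representation, unramified outside `N ℓ`,
with the expected trace and determinant at Frobenius elements. The form is multiplied by the
Eisenstein series of the inverse Teichmüller character, normalised to be congruent to `1` modulo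
`ℓ`, and the weight two construction on `Γ₁(N ℓ)` of `Gamma1.Final` is applied to the product.
-/

set_option autoImplicit false
set_option linter.style.haveILetI false

noncomputable section

open CongruenceSubgroup UpperHalfPlane
open scoped MatrixGroups ModularForm
open IsLocalRing (maximalIdeal ResidueField residue)

local notation "Γℚ" => (AlgebraicClosure ℚ ≃ₐ[ℚ] AlgebraicClosure ℚ)

namespace FLTAgent.WeightOne

open ModularFormClass (qCoeff)

variable {O : Type} [CommRing O] [IsDomain O] [IsDiscreteValuationRing O]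
  [IsAdicComplete (maximalIdeal O) O] [Finite (ResidueField O)] [CharZero O]
  {ℓ : ℕ} [Fact ℓ.Prime] (ι : O →+* ℂ)

/-- The inverse of the Teichmüller character at `ℓ`, inside the coefficient ring. -/
theorem exists_teichInv (hι : Function.Injective ι) (hℓO : (ℓ : O) ∈ maximalIdeal O)
    (hroots : ∀ z : ℂ, z ^ (ℓ - 1) = 1 → z ∈ ι.range) :
    ∃ (ψ : DirichletCharacter ℂ ℓ) (ψO : ZMod ℓ → O), (∀ x, ι (ψO x) = ψ x) ∧ ψO 0 = 0 ∧
      ∀ x : (ZMod ℓ)ˣ, residue O (ψO x) * ((x : ZMod ℓ).val : ResidueField O) = 1 := by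
  classical
  have hℓ : ℓ.Prime := Fact.out
  haveI : CharP (ResidueField O) ℓ := (CharP.charP_iff_prime_eq_zero hℓ).mpr (by
    rw [← map_natCast (residue O), IsLocalRing.residue_eq_zero_iff]; exact hℓO)
  haveI : NeZero (ℓ - 1) := ⟨by have := hℓ.two_le; omega⟩
  let i : ZMod ℓ →+* ResidueField O := ZMod.castHom dvd_rfl _
  -- lifts of `x⁻¹`
  have hlift : ∀ x : (ZMod ℓ)ˣ, ∃ g : O, g ^ (ℓ - 1) = 1 ∧ residue O g = i ((x⁻¹ : (ZMod ℓ)ˣ) : ZMod ℓ) := by
    intro x
    obtain ⟨g, hg⟩ := exists_primitiveRoot_pred hℓO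
    have hgk : IsPrimitiveRoot (residue O g) (ℓ - 1) := by
      refine IsPrimitiveRoot.of_map_of_injective
        (f := MonoidHom.id (ResidueField O)) ⟨by rw [MonoidHom.id_apply, ← map_pow, hg.pow_eq_one, map_one],
          fun n hn => ?_⟩ Function.injective_id
      rw [MonoidHom.id_apply, ← map_pow, ← sub_eq_zero, ← map_one (residue O), ← map_sub,
        IsLocalRing.residue_eq_zero_iff] at hn
      refine hg.dvd_of_pow_eq_one n ?_
      by_contra hne
      -- distinct roots of `X ^ (ℓ - 1) - 1` are incongruent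
      have h1 : (g ^ n) ^ (ℓ - 1) = 1 := by rw [← pow_mul, mul_comm, pow_mul, hg.pow_eq_one, one_pow]
      have h2 := geom_sum_mul (g ^ n) (ℓ - 1)
      rw [h1, sub_self, mul_eq_zero] at h2
      have h3 : (∑ j ∈ Finset.range (ℓ - 1), (g ^ n) ^ j) = 0 :=
        h2.resolve_right (sub_ne_zero.mpr hne)
      have h4 := congrArg (residue O) h3
      have h5 : residue O (g ^ n) = 1 := by
        rw [← sub_eq_zero, ← map_one (residue O), ← map_sub, IsLocalRing.residue_eq_zero_iff]
        exact hn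
      rw [map_sum, map_zero] at h4
      simp only [map_pow] at h4 h5
      simp only [h5, one_pow, Finset.sum_const, Finset.card_range, nsmul_eq_mul, mul_one] at h4
      rw [CharP.cast_eq_zero_iff (ResidueField O) ℓ] at h4
      have := Nat.le_of_dvd (by have := hℓ.two_le; omega) h4
      have := hℓ.two_le
      omega
    have hx : i ((x⁻¹ : (ZMod ℓ)ˣ) : ZMod ℓ) ^ (ℓ - 1) = 1 := by
      rw [← map_pow, ← Units.val_pow_eq_pow_val, ZMod.units_pow_card_sub_one_eq_one, Units.val_one,
        map_one]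
    obtain ⟨m, -, hm⟩ := hgk.eq_pow_of_pow_eq_one hx
    exact ⟨g ^ m, by rw [← pow_mul, mul_comm, pow_mul, hg.pow_eq_one, one_pow],
      by rw [map_pow, hm]⟩
  choose g hg hgres using hlift
  -- such lifts are unique
  have huniq : ∀ a b : O, a ^ (ℓ - 1) = 1 → b ^ (ℓ - 1) = 1 → residue O a = residue O b → a = b := by
    intro a b ha hb hab
    have hb0 : IsUnit b := IsUnit.of_pow_eq_one hb (NeZero.ne _)
    by_contra hne
    have h2 := geom_sum₂_mul a b (ℓ - 1)
    rw [ha, hb, sub_self, mul_eq_zero] at h2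
    have h4 := congrArg (residue O) (h2.resolve_right (sub_ne_zero.mpr hne))
    rw [map_sum, map_zero] at h4
    have h6 : ∀ j ∈ Finset.range (ℓ - 1), residue O (a ^ j * b ^ (ℓ - 1 - 1 - j)) =
        residue O b ^ (ℓ - 1 - 1) := by
      intro j hj
      rw [Finset.mem_range] at hj
      rw [map_mul, map_pow, map_pow, hab, ← pow_add]
      congr 1
      omega
    rw [Finset.sum_congr rfl h6, Finset.sum_const, Finset.card_range, nsmul_eq_mul, mul_eq_zero]
      at h4
    rcases h4 with h4 | h4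
    · rw [CharP.cast_eq_zero_iff (ResidueField O) ℓ] at h4
      have := Nat.le_of_dvd (by have := hℓ.two_le; omega) h4
      have := hℓ.two_le
      omega
    · exact (hb0.map (residue O)).pow _ |>.ne_zero h4
  let t : (ZMod ℓ)ˣ →* Oˣ :=
    { toFun := fun x => Units.ofPowEqOne (g x) (ℓ - 1) (hg x) (NeZero.ne _)
      map_one' := Units.ext (huniq _ _ (hg 1) (one_pow _) (by simp [hgres 1]))
      map_mul' := fun x y => Units.ext (huniq _ _ (hg _) (by
        rw [Units.val_mul, Units.val_ofPowEqOne, Units.val_ofPowEqOne, mul_pow, hg, hg, one_mul]) (by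
        simp only [Units.val_mul, Units.val_ofPowEqOne, map_mul, hgres, mul_inv])) }
  refine ⟨MulChar.ofUnitHom ((Units.map ι.toMonoidHom).comp t),
    fun x => if h : IsUnit x then g h.unit else 0, fun x => ?_, ?_, fun x => ?_⟩
  · dsimp only
    by_cases h : IsUnit x
    · rw [dif_pos h]
      conv_rhs => rw [← h.unit_spec, MulChar.ofUnitHom_coe]
      rfl
    · rw [dif_neg h, map_zero, MulChar.map_nonunit _ h]
  · exact dif_neg not_isUnit_zero
  · dsimp only
    rw [dif_pos x.isUnit, show (x.isUnit).unit = x from Units.ext rfl, hgres]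
    have e : (((x : ZMod ℓ).val : ℕ) : ResidueField O) = i (x : ZMod ℓ) := by
      conv_rhs => rw [← ZMod.natCast_zmod_val (x : ZMod ℓ), map_natCast]
    rw [e, ← map_mul, Units.inv_mul, map_one]

/-- The residual representation of an eigen system of weight one. -/
theorem exists_residual {N : ℕ} [NeZero N] {ε : DirichletCharacter ℂ N}
    {f₀ : CuspForm (Gamma1 N) 1} (hf₁ : qCoeff f₀ 1 = 1) (hneb : DS.HasNebentypus 1 ε ⇑f₀)
    {a : ℕ → ℂ} (hrel : EigenRel N (fun p => ε (p : ZMod N)) a (fun n => qCoeff f₀ n))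
    (hℓ2 : ℓ ≠ 2) (hℓN : ¬ ℓ ∣ N) (hι : Function.Injective ι) (hℓO : (ℓ : O) ∈ maximalIdeal O)
    (hcoef : ∀ n, qCoeff f₀ n ∈ ι.range) (hεr : ∀ x, ε x ∈ ι.range)
    (hroots : ∀ z : ℂ, z ^ (ℓ - 1) = 1 → z ∈ ι.range) :
    ∃ ρ : Γℚ →* GL (Fin 2) (ResidueField O), GaloisFactorsThroughFiniteLevel ρ ∧
      DS.SemisimpleTwo ρ ∧
      ∀ p : ℕ, p.Prime → ¬ p ∣ N * ℓ →
        ∀ P : ValuationSubring (AlgebraicClosure ℚ), P.LiesOverPrime p →
          (∀ σ ∈ P.inertiaSubgroupIn ℚ, ρ σ = 1) ∧
          ∀ σ : Γℚ, P.IsFrobeniusAt σ p → ∀ x e : O, ι x = a p → ι e = ε (p : ZMod N) →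
            ((ρ σ : GL (Fin 2) (ResidueField O)) :
              Matrix (Fin 2) (Fin 2) (ResidueField O)).trace = residue O x ∧
            ((ρ σ : GL (Fin 2) (ResidueField O)) :
              Matrix (Fin 2) (Fin 2) (ResidueField O)).det = residue O e := by
  classical
  have hℓ : ℓ.Prime := Fact.out
  haveI : CharP (ResidueField O) ℓ := (CharP.charP_iff_prime_eq_zero hℓ).mpr (by
    rw [← map_natCast (residue O), IsLocalRing.residue_eq_zero_iff]; exact hℓO)
  haveI : NeZero ℓ := ⟨hℓ.ne_zero⟩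
  haveI : NeZero (N * ℓ) := ⟨mul_ne_zero (NeZero.ne N) hℓ.ne_zero⟩
  obtain ⟨ψ, ψO, hψO, hψ0, hψres⟩ := exists_teichInv ι hι hℓO hroots
  -- `ψ` is odd
  have hψodd : ψ (-1) = -1 := by
    have hu : IsUnit (-1 : ZMod ℓ) := isUnit_one.neg
    have hsq : ψO (-1) * ψO (-1) = 1 := hι (by
      rw [map_mul, hψO, ← map_mul, neg_one_mul, neg_neg, map_one, map_one])
    rw [← hψO]
    rcases mul_self_eq_one_iff.mp hsq with h | h
    · exfalso
      have h1 := hψres hu.unit
      rw [IsUnit.unit_spec, h, map_one, one_mul] at h1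
      obtain ⟨m, hm⟩ : ∃ m, ℓ = m + 1 := ⟨ℓ - 1, by have := hℓ.two_le; omega⟩
      subst hm
      rw [ZMod.val_neg_one] at h1
      have h2 : ((m + 1 : ℕ) : ResidueField O) = 0 := CharP.cast_eq_zero _ _
      rw [Nat.cast_add, Nat.cast_one, h1] at h2
      have h3 : ((2 : ℕ) : ResidueField O) = 0 := by rw [Nat.cast_two, ← one_add_one_eq_two, h2]
      have := Nat.le_of_dvd two_pos ((CharP.cast_eq_zero_iff (ResidueField O) (m + 1) 2).mp h3)
      have := hℓ.two_le
      omega
    · rw [h, map_neg, map_one]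
  obtain ⟨G, hG, hG0, hGn⟩ := exists_eisenstein ℓ ψ hψodd
  -- the constant term and its inverse
  let S₀ : O := ∑ m ∈ Finset.range ℓ, ψO (m : ZMod ℓ) * (m : O)
  have hS₀ : residue O S₀ = -1 := by
    rw [map_sum]
    have hterm : ∀ m ∈ Finset.range ℓ, residue O (ψO (m : ZMod ℓ) * (m : O)) =
        if m = 0 then 0 else 1 := by
      intro m hm
      rw [Finset.mem_range] at hm
      by_cases h0 : m = 0
      · simp [h0, hψ0]
      · rw [if_neg h0, map_mul, map_natCast]
        have hu : IsUnit (m : ZMod ℓ) := by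
          rw [ZMod.isUnit_iff_coprime, Nat.coprime_comm, hℓ.coprime_iff_not_dvd]
          exact fun hd => h0 (Nat.eq_zero_of_dvd_of_lt hd hm)
        have h1 := hψres hu.unit
        rwa [IsUnit.unit_spec, ZMod.val_natCast_of_lt hm] at h1
    rw [Finset.sum_congr rfl hterm, Finset.sum_ite, Finset.sum_const_zero, zero_add,
      Finset.sum_const, nsmul_one]
    have hcard : ((Finset.range ℓ).filter fun m => ¬ m = 0).card = ℓ - 1 := by
      rw [Finset.filter_not, Finset.card_sdiff, Finset.card_range, Finset.filter_eq',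
        if_pos (Finset.mem_range.mpr hℓ.pos)]
      simp [hℓ.pos]
    rw [hcard, Nat.cast_sub hℓ.one_le, CharP.cast_eq_zero, Nat.cast_one, zero_sub]
  have hS₀u : IsUnit S₀ := by
    refine IsLocalRing.notMem_maximalIdeal.mp fun hm => ?_
    rw [← IsLocalRing.residue_eq_zero_iff, hS₀] at hm
    exact one_ne_zero (neg_eq_zero.mp hm)
  obtain ⟨u, hu⟩ := hS₀u
  have hιS : ι S₀ = ∑ m ∈ Finset.range ℓ, ψ (m : ZMod ℓ) * (m : ℂ) := by
    simp [S₀, map_sum, hψO]
  let cO : O := -(2 * (ℓ : O)) * ((u⁻¹ : Oˣ) : O)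
  have hcres : residue O cO = 0 := by
    simp only [cO, map_mul, map_neg, map_ofNat, map_natCast, CharP.cast_eq_zero, mul_zero,
      neg_zero, zero_mul]
  have hc : ι cO * eisConst ℓ ψ = 1 := by
    have h1 : ι ((u⁻¹ : Oˣ) : O) * ι S₀ = 1 := by rw [← map_mul, ← hu, Units.inv_mul, map_one]
    have hℓC : (ℓ : ℂ) ≠ 0 := Nat.cast_ne_zero.mpr hℓ.ne_zero
    rw [eisConst, ← hιS]
    simp only [cO, map_mul, map_neg, map_ofNat, map_natCast]
    field_simp
    linear_combination h1
  -- the coefficient series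
  choose b hb using fun n => hcoef n
  let F₀ : PowerSeries O := PowerSeries.mk b
  let E : PowerSeries O := PowerSeries.mk fun n =>
    if n = 0 then 1 else cO * ∑ d ∈ n.divisors, ψO (d : ZMod ℓ)
  let G' : ModularForm (Gamma1 (N * ℓ)) 1 := ι cO • restrictModular (dvd_mul_left ℓ N) G
  let F : CuspForm (Gamma1 (N * ℓ)) 2 :=
    CuspForm.mcast (by norm_num)
      (CuspForm.mulModularForm (restrictCusp (dvd_mul_right N ℓ) f₀) G')
  have hFcoe : ⇑F = ⇑(restrictCusp (dvd_mul_right N ℓ) f₀) * ⇑G' := rfl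
  have hE : qExpansion 1 ⇑G' = E.map ι := by
    rw [show ⇑G' = ι cO • ⇑(restrictModular (dvd_mul_left ℓ N) G) from rfl,
      ModularForm.qExpansion_smul one_pos (one_mem_strictPeriods_gamma1 (N * ℓ)),
      coe_restrictModular]
    refine PowerSeries.ext fun n => ?_
    rw [map_smul, smul_eq_mul, PowerSeries.coeff_map, PowerSeries.coeff_mk]
    show ι cO * qCoeff (⇑G) n = _
    rcases Nat.eq_zero_or_pos n with rfl | hn
    · rw [if_pos rfl, hG0, hc, map_one]
    · rw [if_neg hn.ne', hGn n hn]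
      simp only [eisCoeff, map_mul, map_sum, hψO]
  have hF0 : qExpansion 1 ⇑(restrictCusp (dvd_mul_right N ℓ) f₀) = F₀.map ι := by
    refine PowerSeries.ext fun n => ?_
    rw [PowerSeries.coeff_map, PowerSeries.coeff_mk, hb]
    rfl
  have hF : qExpansion 1 ⇑F = (F₀ * E).map ι := by
    rw [hFcoe, ModularForm.qExpansion_mul_coe one_pos (one_mem_strictPeriods_gamma1 (N * ℓ)),
      hE, hF0, map_mul]
  have hred : ∀ n, residue O (PowerSeries.coeff n (F₀ * E)) = residue O (b n) := by
    have hE1 : E.map (residue O) = 1 := PowerSeries.ext fun n => by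
      rw [PowerSeries.coeff_map, PowerSeries.coeff_mk, PowerSeries.coeff_one]
      split_ifs with h
      · rw [map_one]
      · rw [map_mul, hcres, zero_mul]
    intro n
    rw [← PowerSeries.coeff_map, map_mul, hE1, mul_one, PowerSeries.coeff_map, PowerSeries.coeff_mk]
  -- the reduction map on the coefficient ring
  let e : O ≃+* ι.range := RingEquiv.ofBijective ι.rangeRestrict
    ⟨fun x y h => hι (congrArg Subtype.val h), ι.rangeRestrict_surjective⟩
  let φ : ι.range →+* ResidueField O := (residue O).comp (e.symm : ι.range →+* O)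
  have hφ : ∀ (y : ι.range) (x : O), ι x = (y : ℂ) → φ y = residue O x := fun y x hx => by
    have : e.symm y = x := e.injective (by rw [e.apply_symm_apply]; exact Subtype.ext hx.symm)
    show residue O (e.symm y) = _
    rw [this]
  let χ : DirichletCharacter ℂ (N * ℓ) :=
    DirichletCharacter.changeLevel (dvd_mul_right N ℓ) ε *
      DirichletCharacter.changeLevel (dvd_mul_left ℓ N) ψ
  choose εO hεO using fun x : ZMod N => hεr x
  have hχ : ∀ m : ℕ, ∃ y : O, ι y = χ (m : ZMod (N * ℓ)) ∧ (IsUnit (m : ZMod (N * ℓ)) →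
      y = εO (m : ZMod N) * ψO (m : ZMod ℓ)) := by
    intro m
    by_cases h : IsUnit (m : ZMod (N * ℓ))
    · exact ⟨_, by rw [map_mul, hεO, hψO, MulChar.mul_apply, changeLevel_natCast _ _ h,
        changeLevel_natCast _ _ h], fun _ => rfl⟩
    · exact ⟨0, by rw [map_zero, MulChar.map_nonunit χ h], fun h' => absurd h' h⟩
  choose χO hχO hχO' using hχ
  have hneb2 : DS.HasNebentypus 2 χ ⇑F := by
    intro γ hγ
    have hγN : γ ∈ Gamma0 N := by
      rw [Gamma0_mem] at hγ ⊢
      simpa using congrArg (ZMod.castHom (dvd_mul_right N ℓ) (ZMod N)) hγ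
    have hγℓ : γ ∈ Gamma0 ℓ := by
      rw [Gamma0_mem] at hγ ⊢
      simpa using congrArg (ZMod.castHom (dvd_mul_left ℓ N) (ZMod ℓ)) hγ
    have hd := isUnit_lowerRight hγ
    rw [hFcoe, show (2 : ℤ) = 1 + 1 by norm_num, ModularForm.mul_slash_SL2,
      show ⇑G' = ι cO • ⇑G from rfl, coe_restrictCusp, ModularForm.SL_smul_slash, hneb γ hγN,
      hG γ hγℓ, MulChar.mul_apply, changeLevel_intCast _ _ hd, changeLevel_intCast _ _ hd]
    ext τ
    simp only [Pi.mul_apply, Pi.smul_apply, smul_eq_mul]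
    ring
  -- congruences
  have hrelO : ∀ p : ℕ, p.Prime → ¬ p ∣ N → ∀ n : ℕ,
      b (p * n) + εO (p : ZMod N) * (if p ∣ n then b (n / p) else 0) = b p * b n := by
    intro p hp hpN n
    refine hι ?_
    have h := hrel p hp hpN n
    have h1 := hrel p hp hpN 1
    simp only [if_neg hp.not_dvd_one, mul_zero, add_zero, mul_one, hf₁] at h1
    rw [map_add, map_mul, map_mul, hεO, apply_ite ι, map_zero, hb, hb, hb, hb]
    simp only at h h1
    rw [h, h1]
  let A : ℕ → ι.range := fun n => ⟨qCoeff F n,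
    ⟨PowerSeries.coeff n (F₀ * E), (PowerSeries.coeff_map ι n _).symm.trans
      (congrArg (PowerSeries.coeff n) hF).symm⟩⟩
  have hA : ∀ n, φ (A n) = residue O (b n) := fun n => by
    refine (hφ (A n) (PowerSeries.coeff n (F₀ * E)) ?_).trans (hred n)
    exact (PowerSeries.coeff_map ι n _).symm.trans (congrArg (PowerSeries.coeff n) hF).symm
  let χR : ℕ → ι.range := fun m => ⟨χ (m : ZMod (N * ℓ)), χO m, hχO m⟩
  have hpe : ∀ p : ℕ, p.Prime → ¬ p ∣ N * ℓ →
      φ (χR p) * (p : ResidueField O) = residue O (εO (p : ZMod N)) := by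
    intro p hp hpM
    have hu : IsUnit (p : ZMod (N * ℓ)) := by
      rw [ZMod.isUnit_iff_coprime, hp.coprime_iff_not_dvd]
      exact hpM
    have huℓ : IsUnit (p : ZMod ℓ) := by
      rw [ZMod.isUnit_iff_coprime, hp.coprime_iff_not_dvd]
      exact fun hd => hpM (hd.trans (dvd_mul_left ℓ N))
    rw [hφ (χR p) (χO p) (hχO p), hχO' p hu, map_mul, mul_assoc]
    have h1 := hψres huℓ.unit
    rw [IsUnit.unit_spec, ZMod.val_natCast] at h1
    have h2 : (p : ResidueField O) = ((p % ℓ : ℕ) : ResidueField O) := by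
      conv_lhs => rw [← Nat.mod_add_div p ℓ]
      rw [Nat.cast_add, Nat.cast_mul, CharP.cast_eq_zero (ResidueField O) ℓ, zero_mul, add_zero]
    rw [h2, h1, mul_one]
  have hA1 : φ (A 1) = 1 := by
    rw [hA, ← map_one (residue O)]
    exact congrArg _ (hι (by rw [hb, map_one]; exact hf₁))
  obtain ⟨ρ, hρ, hss, hfrob⟩ := Gamma1.exists_residualRep hℓ2 (dvd_mul_left ℓ N) ι.range φ χ χR
    (fun m => rfl) F hneb2 A (fun n => rfl) hA1 (fun p => residue O (b p))
    fun p hp hpM n => by
      have h := congrArg (residue O)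
        (hrelO p hp (fun hd => hpM (hd.trans (dvd_mul_right N ℓ))) n)
      rw [hpe p hp hpM]
      by_cases hpn : p ∣ n
      · rw [if_pos hpn, map_add, map_mul, map_mul] at h
        rw [if_pos hpn, hA, hA, hA]
        exact h
      · rw [if_neg hpn, mul_zero, add_zero, map_mul] at h
        rw [if_neg hpn, mul_zero, add_zero, hA, hA]
        exact h
  refine ⟨ρ, hρ, hss, fun p hp hpM P hP => ⟨(hfrob p hp hpM P hP).1, fun σ hσ x e hx he => ?_⟩⟩
  obtain ⟨ht, hd⟩ := (hfrob p hp hpM P hP).2 σ hσ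
  have h1 := hrel p hp (fun hd => hpM (hd.trans (dvd_mul_right N ℓ))) 1
  simp only [if_neg hp.not_dvd_one, mul_zero, add_zero, mul_one, hf₁] at h1
  refine ⟨ht.trans (congrArg _ (hι ?_)), hd.trans ?_⟩
  · rw [hb, hx]
    exact h1
  · rw [hpe p hp hpM]
    exact congrArg _ (hι ((hεO _).trans he.symm))

end FLTAgent.WeightOne
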