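import Fermat.Agent.WeightOne.Image
import Fermat.Agent.WeightOne.Residual
import Fermat.Agent.WeightOne.EmbedO
import Fermat.Agent.WeightOne.LiftRep
import Fermat.Agent.Density.Main
import Fermat.Prelude.Def_Deformations_MatrixRepresentation

/-!
# The Deligne–Serre theorem

`exists_galoisRep_weightOne`: a normalised cusp form of weight one on `Γ₁(N)` with the Hecke
relations at `p ∤ N` has an irreducible complex Galois representation with finite image,
unramified outside `N`, with trace `a_p` and determinant `ε(p)` at Frobenius elements.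

For large `ℓ` the residual representation has small image and lifts (`Model.exists_isLiftAt`);
two such lifts at large primes agree exactly with the eigen system and with each other
(`Model.exists_galoisRep`); a stable line contradicts Rankin's bound (`no_stable_line`).
-/

set_option autoImplicit false
set_option linter.style.haveILetI false

noncomputable section

open CongruenceSubgroup
open scoped MatrixGroups Matrix
open IsLocalRing (maximalIdeal ResidueField residue)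

local notation "ℚ̄" => AlgebraicClosure ℚ
local notation "Γℚ" => (AlgebraicClosure ℚ ≃ₐ[ℚ] AlgebraicClosure ℚ)

namespace FLTAgent.WeightOne

open ModularFormClass (qCoeff)

/-- The constant coefficient of the minimal polynomial, as a natural number. -/
def constTerm (z : ℂ) : ℕ := ((minpoly ℤ z).coeff 0).natAbs

theorem constTerm_pos {z : ℂ} (hz : IsIntegral ℤ z) (h0 : z ≠ 0) : 0 < constTerm z := by
  rw [constTerm, Int.natAbs_pos]
  intro h
  refine minpoly.coeff_zero_ne_zero (A := ℚ) hz.tower_top h0 ?_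
  rw [minpoly.isIntegrallyClosed_eq_field_fractions' ℚ hz, Polynomial.coeff_map, h, map_zero]

/-- An algebraic integer that vanishes modulo `ℓ` has constant term divisible by `ℓ`. -/
theorem dvd_constTerm {O : Type} [CommRing O] [IsLocalRing O] {ℓ : ℕ} (hℓ : ℓ.Prime)
    (ι : O →+* ℂ) (hι : Function.Injective ι) (hℓO : (ℓ : O) ∈ maximalIdeal O) {t : O}
    (ht : residue O t = 0) : ℓ ∣ constTerm (ι t) := by
  haveI : CharP (ResidueField O) ℓ := (CharP.charP_iff_prime_eq_zero hℓ).mpr (by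
    rw [← map_natCast (residue O), IsLocalRing.residue_eq_zero_iff]; exact hℓO)
  rw [constTerm, ← Int.natCast_dvd, ← CharP.intCast_eq_zero_iff (ResidueField O) ℓ]
  have h1 : Polynomial.eval₂ (Int.castRingHom O) t (minpoly ℤ (ι t)) = 0 := by
    refine hι ?_
    rw [map_zero, Polynomial.hom_eval₂,
      RingHom.ext_int (ι.comp (Int.castRingHom O)) (algebraMap ℤ ℂ), ← Polynomial.aeval_def,
      minpoly.aeval]
  have h2 := congrArg (residue O) h1
  rw [map_zero, Polynomial.hom_eval₂, ht, Polynomial.eval₂_at_zero] at h2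
  simpa using h2

variable {N : ℕ} [NeZero N] {ε : DirichletCharacter ℂ N} {a : ℕ → ℂ}

/-- The properties of the lift of a residual representation at `ℓ`. -/
def IsLiftAt (N : ℕ) (ε : DirichletCharacter ℂ N) (a : ℕ → ℂ) (n ℓ : ℕ)
    (ρ : Γℚ →* GL (Fin 2) ℂ) : Prop :=
  GaloisFactorsThroughFiniteLevel ρ ∧ Finite ρ.range ∧
    (∀ g, ((ρ g : GL (Fin 2) ℂ) : Matrix (Fin 2) (Fin 2) ℂ) ^ n = 1) ∧
    ∀ p : ℕ, p.Prime → ¬ p ∣ N * ℓ →
      ∀ P : ValuationSubring ℚ̄, P.LiesOverPrime p →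
        (∀ σ ∈ P.inertiaSubgroupIn ℚ, ρ σ = 1) ∧
        ∀ σ : Γℚ, P.IsFrobeniusAt σ p →
          ℓ ∣ constTerm (((ρ σ : GL (Fin 2) ℂ) : Matrix (Fin 2) (Fin 2) ℂ).trace - a p) ∧
          ℓ ∣ constTerm (((ρ σ : GL (Fin 2) ℂ) : Matrix (Fin 2) (Fin 2) ℂ).det -
            ε (p : ZMod N))

/-- For almost all `ℓ` there is a lift of the residual representation. -/
theorem Model.exists_isLiftAt (M : Model N ε a) :
    ∃ n : ℕ, n ≠ 0 ∧ ∃ A : ℕ, N ≤ A ∧ ∀ ℓ : ℕ, ℓ.Prime → A < ℓ →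
      ∃ ρ : Γℚ →* GL (Fin 2) ℂ, IsLiftAt N ε a n ℓ ρ := by
  classical
  obtain ⟨A, hNA, hDA, h2A, hA⟩ := M.exists_image_bound
  refine ⟨A.factorial, A.factorial_ne_zero, A, hNA, fun ℓ hℓp hℓ => ?_⟩
  haveI : Fact ℓ.Prime := ⟨hℓp⟩
  haveI := M.finite
  obtain ⟨O, _, _, _, _, _, _, ι, hι, hℓO, hint, hroots⟩ := exists_coeff_embedding M.K ℓ
  have hunit : ∀ k : ℕ, 0 < k → k < ℓ → IsUnit (k : O) := fun k hk hkℓ => by
    haveI : CharP (ResidueField O) ℓ := (CharP.charP_iff_prime_eq_zero hℓp).mpr (by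
      rw [← map_natCast (residue O), IsLocalRing.residue_eq_zero_iff]; exact hℓO)
    rw [← IsLocalRing.residue_ne_zero_iff_isUnit, map_natCast, Ne,
      CharP.cast_eq_zero_iff (ResidueField O) ℓ]
    exact Nat.not_dvd_of_pos_of_lt hk hkℓ
  have hcoef : ∀ n, qCoeff M.form n ∈ ι.range := fun n => by
    obtain ⟨h1, h2⟩ := M.coeff n
    obtain ⟨o, ho⟩ := hint _ (mul_mem (IntermediateField.natCast_mem M.K M.D) h1) h2
    obtain ⟨u, hu⟩ := hunit M.D M.D_pos (lt_of_le_of_lt hDA hℓ)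
    refine ⟨↑u⁻¹ * o, ?_⟩
    have h3 : ι (↑u⁻¹) * (M.D : ℂ) = 1 := by
      rw [← map_natCast ι, ← hu, ← map_mul, Units.inv_mul, map_one]
    rw [map_mul, ho, ← mul_assoc, h3, one_mul]
  have hεr : ∀ x, ε x ∈ ι.range := fun x => hint _ (M.eps_mem x) (isIntegral_eps ε x)
  have hℓN : ¬ ℓ ∣ N :=
    Nat.not_dvd_of_pos_of_lt (Nat.pos_of_ne_zero (NeZero.ne N)) (lt_of_le_of_lt hNA hℓ)
  obtain ⟨ρb, hL, hss, hfrob⟩ := exists_residual ι M.one M.neb M.rel
    (ℓ := ℓ) (by omega) hℓN hι hℓO hcoef hεr hroots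
  have hcard := hA ℓ hℓ O ι hι hℓO hint ρb ⟨hL, hss, hfrob⟩
  haveI : Finite (GL (Fin 2) (ResidueField O)) :=
    Finite.of_injective _ (Units.val_injective (α := Matrix (Fin 2) (Fin 2) (ResidueField O)))
  obtain ⟨ρ', hρ'⟩ := exists_lift_of_coprime
    (hunit (Nat.card ρb.range) Nat.card_pos (lt_of_le_of_lt hcard hℓ)) ρb.range.subtype
  let ρC : Γℚ →* GL (Fin 2) ℂ :=
    (Matrix.GeneralLinearGroup.map ι).comp (ρ'.comp ρb.rangeRestrict)
  refine ⟨ρC, ?_, ?_, fun g => ?_, fun p hp hpℓ P hP => ?_⟩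
  · obtain ⟨L, hLf, hL1⟩ := hL
    refine ⟨L, hLf, fun σ hσ => ?_⟩
    have : ρb.rangeRestrict σ = 1 := Subtype.ext (hL1 σ hσ)
    simp [ρC, this]
  · refine Finite.Set.subset (Set.range ((Matrix.GeneralLinearGroup.map ι).comp ρ')) ?_
    rintro _ ⟨σ, rfl⟩
    exact ⟨ρb.rangeRestrict σ, rfl⟩
  · obtain ⟨m, hm⟩ := Nat.dvd_factorial (Nat.card_pos (α := ρb.range)) hcard
    rw [← Units.val_pow_eq_pow_val, ← map_pow, hm]
    show (((Matrix.GeneralLinearGroup.map ι).comp ρ') (ρb.rangeRestrict (g ^ _))).val = 1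
    rw [map_pow, pow_mul, pow_card_eq_one', one_pow, map_one, Units.val_one]
  · obtain ⟨hI, hF⟩ := hfrob p hp hpℓ P hP
    refine ⟨fun σ hσ => ?_, fun σ hσ => ?_⟩
    · have : ρb.rangeRestrict σ = 1 := Subtype.ext (hI σ hσ)
      simp [ρC, this]
    · have hpN : ¬ p ∣ N := fun h => hpℓ (h.trans (dvd_mul_right N ℓ))
      obtain ⟨x, hx⟩ := hint _ (M.a_mem hp hpN) (M.eig p hp hpN).2
      obtain ⟨e, he⟩ := hεr (p : ZMod N)
      obtain ⟨htr, hdet⟩ := hF σ hσ x e hx he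
      set m : Matrix (Fin 2) (Fin 2) O := (ρ' (ρb.rangeRestrict σ)).val
      have hval : ((ρC σ : GL (Fin 2) ℂ) : Matrix (Fin 2) (Fin 2) ℂ) = m.map ι := rfl
      have hres : m.map (residue O) =
          ((ρb σ : GL (Fin 2) (ResidueField O)) : Matrix (Fin 2) (Fin 2) (ResidueField O)) :=
        congrArg Units.val (DFunLike.congr_fun hρ' (ρb.rangeRestrict σ))
      rw [hval, ← hx, ← he]
      constructor
      · have h5 : (m.map ι).trace = ι m.trace := (AddMonoidHom.map_trace ι.toAddMonoidHom m).symm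
        rw [h5, ← map_sub]
        refine dvd_constTerm hℓp ι hι hℓO ?_
        rw [map_sub, sub_eq_zero, ← htr, ← hres]
        exact AddMonoidHom.map_trace (residue O).toAddMonoidHom m
      · rw [← RingHom.mapMatrix_apply, ← RingHom.map_det, ← map_sub]
        refine dvd_constTerm hℓp ι hι hℓO ?_
        rw [map_sub, sub_eq_zero, ← hdet, ← hres, RingHom.map_det, RingHom.mapMatrix_apply]

/-- The powers of two matrices with the same trace and determinant have the same trace. -/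
theorem trace_pow_eq {m m' : Matrix (Fin 2) (Fin 2) ℂ} (ht : m.trace = m'.trace)
    (hd : m.det = m'.det) (k : ℕ) : (m ^ k).trace = (m' ^ k).trace := by
  induction k using Nat.strong_induction_on with
  | _ k ih =>
    rcases k with _ | _ | k
    · simp
    · simpa using ht
    · have key : ∀ M : Matrix (Fin 2) (Fin 2) ℂ,
          (M ^ (k + 2)).trace = M.trace * (M ^ (k + 1)).trace - M.det * (M ^ k).trace := by
        intro M
        have h := congrArg (fun X : Matrix (Fin 2) (Fin 2) ℂ => (M ^ k * X).trace)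
          (charpoly_apply_self M)
        simp only [mul_add, mul_sub, Matrix.mul_smul, mul_one, mul_zero, ← mul_assoc, ← pow_succ,
          Matrix.trace_add, Matrix.trace_sub, Matrix.trace_smul, Matrix.trace_zero,
          smul_eq_mul] at h
        linear_combination h
      rw [key, key, ht, hd, ih (k + 1) (by omega), ih k (by omega)]

theorem two_mul_det (m : Matrix (Fin 2) (Fin 2) ℂ) :
    2 * m.det = m.trace ^ 2 - (m ^ 2).trace := by
  simp [Matrix.trace_fin_two, Matrix.det_fin_two, pow_two, Matrix.mul_apply, Fin.sum_univ_two]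
  ring

/-- A representation in the shape of the theorem, before irreducibility. -/
theorem Model.exists_galoisRep (M : Model N ε a) :
    ∃ ρ : Γℚ →* GL (Fin 2) ℂ, GaloisFactorsThroughFiniteLevel ρ ∧ Finite ρ.range ∧
      ∀ p : ℕ, p.Prime → ¬ p ∣ N →
        ∀ P : ValuationSubring ℚ̄, P.LiesOverPrime p →
          (∀ σ ∈ P.inertiaSubgroupIn ℚ, ρ σ = 1) ∧
          ∀ σ : Γℚ, P.IsFrobeniusAt σ p →
            ((ρ σ : GL (Fin 2) ℂ) : Matrix (Fin 2) (Fin 2) ℂ).trace = a p ∧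
            ((ρ σ : GL (Fin 2) ℂ) : Matrix (Fin 2) (Fin 2) ℂ).det = ε (p : ZMod N) := by
  classical
  obtain ⟨n, hn, A, hNA, hlift⟩ := M.exists_isLiftAt
  let μ : Finset ℂ := (Polynomial.nthRoots n (1 : ℂ)).toFinset
  let E : Finset ℂ := Finset.univ.image fun x : ZMod N => ε x
  let U : Finset ℂ := (μ ×ˢ μ).image (fun w => w.1 + w.2) ∪
    (μ ×ˢ μ).image (fun w => w.1 * w.2) ∪ E
  have hμ : ∀ z, z ^ n = 1 → z ∈ μ := fun z hz => by
    simp [μ, Polynomial.mem_nthRoots (Nat.pos_of_ne_zero hn), hz]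
  have hμint : ∀ z ∈ μ, IsIntegral ℤ z := fun z hz => by
    simp only [μ, Multiset.mem_toFinset, Polynomial.mem_nthRoots (Nat.pos_of_ne_zero hn)] at hz
    exact IsIntegral.of_pow (Nat.pos_of_ne_zero hn) (hz ▸ isIntegral_one)
  have hUint : ∀ u ∈ U, IsIntegral ℤ u := by
    intro u hu
    simp only [U, E, Finset.mem_union, Finset.mem_image, Finset.mem_product, Prod.exists] at hu
    rcases hu with (⟨x, y, ⟨hx, hy⟩, rfl⟩ | ⟨x, y, ⟨hx, hy⟩, rfl⟩) | ⟨x, -, rfl⟩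
    · exact (hμint _ hx).add (hμint _ hy)
    · exact (hμint _ hx).mul (hμint _ hy)
    · exact isIntegral_eps ε x
  have hmU : ∀ {m : Matrix (Fin 2) (Fin 2) ℂ}, m ^ n = 1 → m.trace ∈ U ∧ m.det ∈ U := by
    intro m hm
    obtain ⟨x, y, hx, hy, h1, h2⟩ := exists_eigen_pair hm
    simp only [U, Finset.mem_union, Finset.mem_image, Finset.mem_product, Prod.exists]
    exact ⟨Or.inl (Or.inl ⟨x, y, ⟨hμ x hx, hμ y hy⟩, h1.symm⟩),
      Or.inl (Or.inr ⟨x, y, ⟨hμ x hx, hμ y hy⟩, h2.symm⟩)⟩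
  have hex : ∀ (Z : Finset ℂ) (b : ℕ), (∀ z ∈ Z, IsIntegral ℤ z) →
      ∃ ℓ : ℕ, ℓ.Prime ∧ b < ℓ ∧ A < ℓ ∧ ∀ z ∈ Z, ℓ ∣ constTerm z → z = 0 := by
    intro Z b hZ
    obtain ⟨ℓ, hle, hℓ⟩ := Nat.exists_infinite_primes (b + A + ∑ z ∈ Z, constTerm z + 1)
    refine ⟨ℓ, hℓ, by omega, by omega, fun z hz hd => ?_⟩
    by_contra h0
    have := Nat.le_of_dvd (constTerm_pos (hZ z hz) h0) hd
    have := Finset.single_le_sum (f := constTerm) (fun _ _ => Nat.zero_le _) hz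
    omega
  have haU : ∀ p : ℕ, p.Prime → ¬ p ∣ N → a p ∈ U := by
    intro p hp hpN
    by_contra hnot
    obtain ⟨ℓ, hℓ, hpl, hAℓ, hZ⟩ := hex (U.image fun u => u - a p) p fun z hz => by
      obtain ⟨u, hu, rfl⟩ := Finset.mem_image.mp hz
      exact (hUint u hu).sub (M.eig p hp hpN).2
    obtain ⟨ρ, -, -, hpow, hρ⟩ := hlift ℓ hℓ hAℓ
    obtain ⟨P, hP, σ, hσ⟩ := GalCommon.exists_place_frobenius hp
    have hpℓ : ¬ p ∣ N * ℓ := fun h => (hp.dvd_mul.mp h).elim hpN fun h' =>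
      hpl.ne ((Nat.prime_dvd_prime_iff_eq hp hℓ).mp h')
    have ht := (hmU (hpow σ)).1
    exact hnot (sub_eq_zero.mp
      (hZ _ (Finset.mem_image_of_mem _ ht) ((hρ p hp hpℓ P hP).2 σ hσ).1) ▸ ht)
  let Z : Finset ℂ := (U ×ˢ U).image fun w => w.1 - w.2
  have hZint : ∀ z ∈ Z, IsIntegral ℤ z := fun z hz => by
    obtain ⟨⟨u, v⟩, huv, rfl⟩ := Finset.mem_image.mp hz
    exact (hUint _ (Finset.mem_product.mp huv).1).sub (hUint _ (Finset.mem_product.mp huv).2)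
  have hexact : ∀ ℓ : ℕ, ℓ.Prime → A < ℓ → (∀ z ∈ Z, ℓ ∣ constTerm z → z = 0) →
      ∀ ρ : Γℚ →* GL (Fin 2) ℂ, IsLiftAt N ε a n ℓ ρ →
      ∀ p : ℕ, p.Prime → ¬ p ∣ N → p ≠ ℓ → ∀ P : ValuationSubring ℚ̄, P.LiesOverPrime p →
        (∀ σ ∈ P.inertiaSubgroupIn ℚ, ρ σ = 1) ∧
        ∀ σ : Γℚ, P.IsFrobeniusAt σ p →
          ((ρ σ : GL (Fin 2) ℂ) : Matrix (Fin 2) (Fin 2) ℂ).trace = a p ∧
          ((ρ σ : GL (Fin 2) ℂ) : Matrix (Fin 2) (Fin 2) ℂ).det = ε (p : ZMod N) := by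
    rintro ℓ hℓ hAℓ hZ ρ ⟨-, -, hpow, hρ⟩ p hp hpN hne P hP
    have hpℓ : ¬ p ∣ N * ℓ := fun h => (hp.dvd_mul.mp h).elim hpN fun h' =>
      hne ((Nat.prime_dvd_prime_iff_eq hp hℓ).mp h')
    obtain ⟨hI, hF⟩ := hρ p hp hpℓ P hP
    refine ⟨hI, fun σ hσ => ⟨sub_eq_zero.mp (hZ _ ?_ (hF σ hσ).1),
      sub_eq_zero.mp (hZ _ ?_ (hF σ hσ).2)⟩⟩
    · exact Finset.mem_image.mpr
        ⟨(_, _), Finset.mem_product.mpr ⟨(hmU (hpow σ)).1, haU p hp hpN⟩, rfl⟩
    · refine Finset.mem_image.mpr ⟨(_, _), Finset.mem_product.mpr ⟨(hmU (hpow σ)).2, ?_⟩, rfl⟩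
      exact Finset.mem_union_right _ (Finset.mem_image_of_mem _ (Finset.mem_univ _))
  obtain ⟨ℓ₀, hℓ₀, -, hA₀, hZ₀⟩ := hex Z 0 hZint
  obtain ⟨ℓ₁, hℓ₁, hlt, hA₁, hZ₁⟩ := hex Z ℓ₀ hZint
  obtain ⟨ρ₀, hρ₀⟩ := hlift ℓ₀ hℓ₀ hA₀
  obtain ⟨ρ₁, hρ₁⟩ := hlift ℓ₁ hℓ₁ hA₁
  have h₀ := hexact ℓ₀ hℓ₀ hA₀ hZ₀ ρ₀ hρ₀
  have h₁ := hexact ℓ₁ hℓ₁ hA₁ hZ₁ ρ₁ hρ₁
  obtain ⟨hL₀, hfin₀, hpow₀, -⟩ := hρ₀
  obtain ⟨hL₁, -, hpow₁, -⟩ := hρ₁
  have hall : ∀ (g : Γℚ) (k : ℕ),
      ((ρ₀ (g ^ k) : GL (Fin 2) ℂ) : Matrix (Fin 2) (Fin 2) ℂ).trace =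
        ((ρ₁ (g ^ k) : GL (Fin 2) ℂ) : Matrix (Fin 2) (Fin 2) ℂ).trace := by
    obtain ⟨L₀, hf₀, hl₀⟩ := hL₀
    obtain ⟨L₁, hf₁, hl₁⟩ := hL₁
    haveI := hf₀
    haveI := hf₁
    intro g
    refine Density.forall_of_forall_isFrobeniusAt
      (P := fun g => ∀ k : ℕ, ((ρ₀ (g ^ k) : GL (Fin 2) ℂ) : Matrix (Fin 2) (Fin 2) ℂ).trace =
        ((ρ₁ (g ^ k) : GL (Fin 2) ℂ) : Matrix (Fin 2) (Fin 2) ℂ).trace)
      (ρ₀.ker ⊓ ρ₁.ker)
      (Subgroup.isOpen_mono
        (le_inf (fun σ hσ => hl₀ σ fun x hx => (L₀ ⊔ L₁).mem_fixingSubgroup_iff σ |>.mp hσ x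
          ((le_sup_left : L₀ ≤ L₀ ⊔ L₁) hx))
          (fun σ hσ => hl₁ σ fun x hx => (L₀ ⊔ L₁).mem_fixingSubgroup_iff σ |>.mp hσ x
          ((le_sup_right : L₁ ≤ L₀ ⊔ L₁) hx)))
        (L₀ ⊔ L₁).fixingSubgroup_isOpen)
      ({ℓ₀, ℓ₁} ∪ N.primeFactors) ?_ ?_ ?_ g
    · intro g u hu hg k
      simp only [map_pow, map_mul, MonoidHom.mem_ker.mp hu.1, MonoidHom.mem_ker.mp hu.2, mul_one]
      simpa only [map_pow] using hg k
    · intro g k hg j
      rw [← pow_mul]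
      exact hg _
    · intro p hp hpS P hP σ hσ k
      simp only [Finset.mem_union, Finset.mem_insert, Finset.mem_singleton, not_or] at hpS
      have hpN : ¬ p ∣ N := fun h => hpS.2 (Nat.mem_primeFactors.mpr ⟨hp, h, NeZero.ne N⟩)
      obtain ⟨ht₀, hd₀⟩ := (h₀ p hp hpN hpS.1.1 P hP).2 σ hσ
      obtain ⟨ht₁, hd₁⟩ := (h₁ p hp hpN hpS.1.2 P hP).2 σ hσ
      simp only [map_pow, Units.val_pow_eq_pow_val]
      exact trace_pow_eq (ht₀.trans ht₁.symm) (hd₀.trans hd₁.symm) k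
  have hker : ∀ g, ρ₁ g = 1 → ρ₀ g = 1 := fun g hg => by
    refine Units.ext (eq_one_of_trace_eq_two hn (hpow₀ g) ?_)
    have h := hall g 1
    rw [pow_one, hg, Units.val_one, Matrix.trace_one, Fintype.card_fin] at h
    rw [h, Nat.cast_ofNat]
  refine ⟨ρ₀, hL₀, hfin₀, fun p hp hpN P hP => ?_⟩
  by_cases hpl : p = ℓ₀
  · subst hpl
    obtain ⟨hI, hF⟩ := h₁ p hp hpN hlt.ne P hP
    refine ⟨fun σ hσ => hker σ (hI σ hσ), fun σ hσ => ?_⟩
    obtain ⟨ht, hd⟩ := hF σ hσ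
    have h1 := hall σ 1
    have h2 := hall σ 2
    rw [pow_one] at h1
    rw [map_pow, map_pow, Units.val_pow_eq_pow_val, Units.val_pow_eq_pow_val] at h2
    refine ⟨h1.trans ht, ?_⟩
    rw [← hd]
    refine mul_left_cancel₀ (two_ne_zero' ℂ) ?_
    rw [two_mul_det, two_mul_det, h1, h2]
  · exact h₀ p hp hpN hpl P hP

/-- The mean square of the trace forbids a stable line. -/
theorem no_stable_line {f : CuspForm (Gamma1 N) 1} (hf₁ : qCoeff f 1 = 1)
    (hrel : EigenRel N (fun p => ε (p : ZMod N)) (fun p => qCoeff f p) (fun n => qCoeff f n))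
    {ρ : Γℚ →* GL (Fin 2) ℂ} (hL : GaloisFactorsThroughFiniteLevel ρ) [Finite ρ.range]
    (hρ : ∀ p : ℕ, p.Prime → ¬ p ∣ N → ∀ P : ValuationSubring ℚ̄, P.LiesOverPrime p →
      ∀ σ : Γℚ, P.IsFrobeniusAt σ p →
        ((ρ σ : GL (Fin 2) ℂ) : Matrix (Fin 2) (Fin 2) ℂ).trace = qCoeff f p)
    (v : Fin 2 → ℂ) (hv : v ≠ 0)
    (hline : ∀ g, ∃ c : ℂ, ((ρ g : GL (Fin 2) ℂ) : Matrix (Fin 2) (Fin 2) ℂ) *ᵥ v = c • v) :
    False := by
  classical
  haveI := Fintype.ofFinite ρ.range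
  let G := ρ.range
  let j : G →* GL (Fin 2) ℂ := G.subtype
  let F : G → ℝ := fun g => ‖((j g : GL (Fin 2) ℂ) : Matrix (Fin 2) (Fin 2) ℂ).trace‖ ^ 2
  have hF4 : ∀ g, F g ≤ 4 := fun g => by
    have hpow : ((j g : GL (Fin 2) ℂ) : Matrix (Fin 2) (Fin 2) ℂ) ^ Fintype.card G = 1 := by
      rw [← Units.val_pow_eq_pow_val, ← map_pow, pow_card_eq_one, map_one, Units.val_one]
    obtain ⟨x, y, hx, hy, h, -⟩ := exists_eigen_pair hpow
    have := norm_add_le x y
    rw [Complex.norm_eq_one_of_pow_eq_one hx Fintype.card_ne_zero,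
      Complex.norm_eq_one_of_pow_eq_one hy Fintype.card_ne_zero] at this
    show ‖_‖ ^ 2 ≤ 4
    rw [h]
    nlinarith [norm_nonneg (x + y)]
  have hconj : ∀ g h : G, F (h * g * h⁻¹) = F g := fun g h => by
    show ‖_‖ ^ 2 = ‖_‖ ^ 2
    rw [map_mul, map_mul, map_inv, Units.val_mul, Units.val_mul, Matrix.trace_units_conj]
  have hinv : ∀ g : G, F g⁻¹ = F g := fun g => by
    show ‖_‖ ^ 2 = ‖_‖ ^ 2
    rw [trace_inv_eq_conj j g, Complex.norm_conj]
  have havg : 2 * (Fintype.card G : ℝ) ≤ ∑ g, F g := two_card_le_sum_norm_sq_trace j v hv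
    (fun g => by obtain ⟨σ, hσ⟩ := g.2; simpa [j, ← hσ] using hline σ)
  have hπ : GaloisFactorsThroughFiniteLevel ρ.rangeRestrict := by
    obtain ⟨L, hf, hl⟩ := hL
    exact ⟨L, hf, fun σ hσ => Subtype.ext (hl σ hσ)⟩
  let V : Finset ℝ := Finset.univ.image F
  have hV : ∀ w ∈ V, 0 ≤ w := fun w hw => by
    obtain ⟨g, -, rfl⟩ := Finset.mem_image.mp hw
    exact sq_nonneg _
  let δ : ℝ := 1 / (2 * ((∑ w ∈ V, w) + 1))
  have hsumV : 0 ≤ ∑ w ∈ V, w := Finset.sum_nonneg hV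
  have hδ : 0 < δ := by positivity
  choose B hB using fun w : ℝ => exists_lower_density ρ.rangeRestrict hπ
    ρ.rangeRestrict_surjective {g | F g = w} (fun g h hg => (hconj g h).trans hg)
    (fun g hg => (hinv g).trans hg) N.primeFactors hδ
  obtain ⟨BR, hBR⟩ := exists_primeSum_bound N ε f hf₁ hrel 4 (by norm_num)
  let T : ℝ → Set Nat.Primes := fun w => frobSet ρ.rangeRestrict {g | F g = w} N.primeFactors
  have hTN : ∀ w, ∀ p ∈ T w, ¬ (p : ℕ) ∣ N ∧ w = min (‖qCoeff f p‖ ^ 2) 4 := by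
    rintro w p ⟨hpS, hp⟩
    have hpN : ¬ (p : ℕ) ∣ N := fun h => hpS (Nat.mem_primeFactors.mpr ⟨p.2, h, NeZero.ne N⟩)
    obtain ⟨P, hP, σ, hσ⟩ := GalCommon.exists_place_frobenius p.2
    have h1 : F (ρ.rangeRestrict σ) = w := hp P σ hP hσ
    have h2 : F (ρ.rangeRestrict σ) = ‖qCoeff f p‖ ^ 2 := by
      show ‖_‖ ^ 2 = _
      rw [← hρ p p.2 hpN P hP σ hσ]
      rfl
    refine ⟨hpN, ?_⟩
    rw [min_eq_left (h2 ▸ hF4 _), ← h2, h1]
  have key : ∀ s : ℝ, 1 < s → s ≤ 2 →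
      ∑ w ∈ V, w * ∑' p : T w, ((p : Nat.Primes) : ℝ) ^ (-s) ≤ Real.log (1 / (s - 1)) + BR := by
    intro s hs hs2
    let S : Set Nat.Primes := {p | ¬ (p : ℕ) ∣ N}
    let g : Nat.Primes → ℝ := fun p => ((p : ℕ) : ℝ) ^ (-s)
    let h : Nat.Primes → ℝ := fun p => min (‖qCoeff f p‖ ^ 2) 4 * g p
    have hg : Summable g := Nat.Primes.summable_rpow.mpr (by linarith)
    have hh : Summable h := Summable.of_nonneg_of_le (fun p => by positivity)
      (fun p => mul_le_mul_of_nonneg_right (min_le_right _ _) (by positivity)) (hg.mul_left 4)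
    have hind : ∀ w, Summable ((T w).indicator g) := fun w => hg.indicator _
    calc ∑ w ∈ V, w * ∑' p : T w, ((p : Nat.Primes) : ℝ) ^ (-s)
        = ∑ w ∈ V, ∑' p : Nat.Primes, w * (T w).indicator g p := by
          refine Finset.sum_congr rfl fun w _ => ?_
          rw [tsum_mul_left, ← tsum_subtype (T w) g]
      _ = ∑' p : Nat.Primes, ∑ w ∈ V, w * (T w).indicator g p :=
          (Summable.tsum_finsetSum fun w _ => (hind w).mul_left w).symm
      _ ≤ ∑' p : Nat.Primes, S.indicator h p := by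
          refine Summable.tsum_le_tsum (fun p => ?_)
            (summable_sum fun w _ => (hind w).mul_left w) (hh.indicator _)
          by_cases hex' : ∃ w ∈ V, p ∈ T w
          · obtain ⟨w, hw, hpw⟩ := hex'
            obtain ⟨hpN, hwv⟩ := hTN w p hpw
            rw [Finset.sum_eq_single w (fun b _ hb => ?_) (fun h' => absurd hw h'),
              Set.indicator_of_mem hpw, Set.indicator_of_mem (show p ∈ S from hpN), hwv]
            rw [Set.indicator_of_notMem (fun hb' => hb ((hTN b p hb').2.trans hwv.symm)), mul_zero]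
          · push Not at hex'
            rw [Finset.sum_eq_zero fun w hw => by
              rw [Set.indicator_of_notMem (hex' w hw), mul_zero]]
            exact Set.indicator_nonneg (fun p _ => by positivity) p
      _ = ∑' p : S, h p := (tsum_subtype S h).symm
      _ ≤ _ := hBR s hs hs2
  have hr : (∑ w ∈ V, w * ((Nat.card {g : G | F g = w} : ℝ) / Nat.card G - δ)) ≤ 1 := by
    refine le_of_forall_log_le (B := ∑ w ∈ V, w * B w) (B' := BR) fun s hs hs2 => ?_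
    rw [one_mul, Finset.sum_mul, ← Finset.sum_sub_distrib]
    refine le_trans (Finset.sum_le_sum fun w hw => ?_) (key s hs hs2)
    rw [mul_assoc, ← mul_sub]
    exact mul_le_mul_of_nonneg_left (hB w s hs hs2) (hV w hw)
  have hcardG : (0 : ℝ) < Fintype.card G := by exact_mod_cast Fintype.card_pos
  have hfib : ∑ w ∈ V, w * (Nat.card {g : G | F g = w} : ℝ) = ∑ g, F g := by
    rw [← Finset.sum_fiberwise_of_maps_to (t := V) (g := F) (f := F)
      fun g hg => Finset.mem_image_of_mem F hg]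
    refine Finset.sum_congr rfl fun w _ => ?_
    rw [Finset.sum_congr rfl fun g hg => (Finset.mem_filter.mp hg).2, Finset.sum_const,
      nsmul_eq_mul, mul_comm, Nat.card_eq_fintype_card]
    congr 2
    exact Fintype.card_subtype _
  simp only [mul_sub, Finset.sum_sub_distrib, ← mul_div_assoc, ← Finset.sum_div, ← Finset.sum_mul,
    hfib, Nat.card_eq_fintype_card (α := G)] at hr
  have h2 : 2 ≤ (∑ g, F g) / (Fintype.card G : ℝ) := (le_div_iff₀ hcardG).mpr havg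
  have hδ2 : (∑ w ∈ V, w) * δ ≤ 1 / 2 := by
    simp only [δ]
    rw [mul_one_div, div_le_iff₀ (by positivity)]
    linarith
  linarith

/-- **Deligne–Serre.** -/
theorem exists_galoisRep_weightOne (N : ℕ) [NeZero N] (ε : DirichletCharacter ℂ N)
    (f : CuspForm (Gamma1 N) 1) (hf₁ : qCoeff f 1 = 1)
    (hrel : EigenRel N (fun p => ε (p : ZMod N)) (fun p => qCoeff f p) (fun n => qCoeff f n)) :
    ∃ ρ : Γℚ →* GL (Fin 2) ℂ, GaloisFactorsThroughFiniteLevel ρ ∧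
      (Deformation.matrixRepresentation ρ).IsIrreducible ∧
      ∀ p : ℕ, p.Prime → ¬ p ∣ N →
        ∀ A : ValuationSubring ℚ̄, A.LiesOverPrime p →
          (∀ σ ∈ A.inertiaSubgroupIn ℚ, ρ σ = 1) ∧
          ∀ σ : Γℚ, A.IsFrobeniusAt σ p →
            ((ρ σ : GL (Fin 2) ℂ) : Matrix (Fin 2) (Fin 2) ℂ).trace = qCoeff f p ∧
            ((ρ σ : GL (Fin 2) ℂ) : Matrix (Fin 2) (Fin 2) ℂ).det = ε (p : ZMod N) := by
  obtain ⟨K, hK, f₀, D, hD, h1, hneb, hcoef, heig, hεK, hrel₀, hσ⟩ :=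
    exists_algebraic_form N ε f hf₁ hrel
  obtain ⟨ρ, hL, hfin, hρ⟩ :=
    (Model.mk K hK f₀ D hD h1 hneb hcoef heig hεK hrel₀ hσ :
      Model N ε fun p => qCoeff f p).exists_galoisRep
  haveI := hfin
  refine ⟨ρ, hL, ?_, hρ⟩
  have hno := no_stable_line hf₁ hrel hL fun p hp hpN P hP σ h => ((hρ p hp hpN P hP).2 σ h).1
  haveI : Nontrivial (Subrepresentation (Deformation.matrixRepresentation ρ)) := by
    refine ⟨⊥, ⊤, fun h => ?_⟩
    have : (fun _ => 1 : Fin 2 → ℂ) ∈ (⊥ : Subrepresentation (Deformation.matrixRepresentation ρ)) :=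
      h ▸ trivial
    exact one_ne_zero (congrFun ((Submodule.mem_bot ℂ).mp this) 0)
  refine ⟨fun W => or_iff_not_and_not.mpr fun ⟨hbot, htop⟩ => ?_⟩
  obtain ⟨v, hv, hv0⟩ := W.toSubmodule.ne_bot_iff.mp fun h =>
    hbot (Subrepresentation.toSubmodule_injective h)
  refine hno v hv0 fun g => ?_
  have hspan : ℂ ∙ v = W.toSubmodule := by
    refine Submodule.eq_of_le_of_finrank_le ((Submodule.span_singleton_le_iff_mem _ _).mpr hv) ?_
    have := Submodule.finrank_lt (s := W.toSubmodule) fun h =>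
      htop (Subrepresentation.toSubmodule_injective h)
    rw [Module.finrank_fin_fun] at this
    rw [finrank_span_singleton hv0]
    omega
  have hgv := W.apply_mem_toSubmodule g hv
  rw [← hspan, Submodule.mem_span_singleton] at hgv
  obtain ⟨c, hc⟩ := hgv
  exact ⟨c, by simpa [Deformation.matrixRepresentation_apply] using hc.symm⟩

end FLTAgent.WeightOne
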