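import Fermat.Agent.WeightOne.Defs
import Fermat.Agent.WeightOne.ChebAux.Count
import Fermat.Agent.Density.Main

/-!
# Chebotarev, lower bound

`exists_lower_density`: for a finite quotient `G` of the absolute Galois group of `ℚ`, a subset
`C` stable under conjugation and inversion and `δ > 0`, the primes with Frobenius in `C` satisfy
`∑ p^(-s) ≥ (|C|/|G| - δ) log (1/(s-1)) - O(1)`. The field is crossed with `ℚ(ζ_q)` for a prime
`q ≡ 1` modulo a high power of `2|G|`; all but a fraction `δ` of the elements then satisfy the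
hypotheses of `exists_class_bound`, which replaces the analytic theory of Artin L-functions.
-/

set_option autoImplicit false
set_option linter.style.haveILetI false

noncomputable section

open NumberField Filter
open scoped Topology Pointwise IntermediateField
open FLTAgent.Density

local notation "ℚ̄" => AlgebraicClosure ℚ
local notation "Γℚ" => (AlgebraicClosure ℚ ≃ₐ[ℚ] AlgebraicClosure ℚ)

namespace FLTAgent.WeightOne

/-- The primes outside `S` all of whose Frobenius elements map into `C`. -/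
def frobSet {G : Type} [Group G] (π : Γℚ →* G) (C : Set G) (S : Finset ℕ) : Set Nat.Primes :=
  {p | (p : ℕ) ∉ S ∧ ∀ (A : ValuationSubring ℚ̄) (σ : Γℚ), A.LiesOverPrime (p : ℕ) →
    A.IsFrobeniusAt σ (p : ℕ) → π σ ∈ C}

namespace ChebAux

attribute [local instance] GalCommon.normal_Qbar

/-- The restriction of a Frobenius element is a Frobenius element. -/
theorem isFrobMod_restrict (L : IntermediateField ℚ ℚ̄) [FiniteDimensional ℚ L] [Normal ℚ L]
    [NumberField L] {p : ℕ} {A : ValuationSubring ℚ̄} {τ : Γℚ} (hτ : A.IsFrobeniusAt τ p) :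
    IsFrobMod p (AlgEquiv.restrictNormalHom L τ) (placePrime L A) := fun y => by
  rw [mem_placePrime_iff]
  have := (GalCommon.isFrobeniusAt_iff.1 hτ).2 _
    (GalCommon.mem_of_isIntegral A (isIntegral_coe L y))
  simpa [coe_restrictNormalHom_smul] using this

/-- An element whose order avoids a prime power is killed by a small exponent. -/
theorem pow_small_eq_one {G : Type*} [Monoid G] {x : G} {q N n t : ℕ}
    (hx : x ^ (q - 1) = 1) (hq : 1 < q) (hN : N ^ (t + 1) ∣ q - 1) (hn : n ∣ N) (hN0 : N ≠ 0)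
    (hbad : ¬ n ∣ orderOf x) :
    ∃ ℓ ∈ N.primeFactors, ∃ e : ℕ, 0 < e ∧ ℓ ^ t * e = q - 1 ∧ x ^ e = 1 := by
  obtain ⟨ℓ, k, hℓ, hdvd, hnd⟩ : ∃ ℓ k, Nat.Prime ℓ ∧ ℓ ^ k ∣ n ∧ ¬ ℓ ^ k ∣ orderOf x := by
    by_contra h
    push Not at h
    exact hbad ((Nat.dvd_iff_prime_pow_dvd_dvd _ _).mpr fun p k hp hpk => h p k hp hpk)
  have hk : k ≠ 0 := by rintro rfl; exact hnd (by simp)
  have hℓN : ℓ ∣ N := ((dvd_pow_self ℓ hk).trans hdvd).trans hn
  have hℓt : ℓ ^ t ∣ q - 1 :=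
    ((pow_dvd_pow_of_dvd hℓN t).trans (pow_dvd_pow N (Nat.le_succ t))).trans hN
  obtain ⟨e, he⟩ := hℓt
  have he0 : 0 < e := Nat.pos_of_ne_zero fun h => by rw [h, mul_zero] at he; omega
  refine ⟨ℓ, Nat.mem_primeFactors.mpr ⟨hℓ, hℓN, hN0⟩, e, he0, he.symm, ?_⟩
  have hd : orderOf x ∣ q - 1 := orderOf_dvd_of_pow_eq_one hx
  obtain ⟨i, d', hd', hi⟩ := Nat.exists_eq_pow_mul_and_not_dvd (n := orderOf x) (fun h0 => by
    rw [h0, Nat.zero_dvd] at hd; omega) ℓ hℓ.ne_one
  have hik : i < k := by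
    by_contra hle
    exact hnd ((pow_dvd_pow ℓ (not_lt.mp hle)).trans ⟨d', hi⟩)
  refine orderOf_dvd_iff_pow_eq_one.mp (hi ▸ ?_)
  have hco : Nat.Coprime d' (ℓ ^ t) := Nat.Coprime.pow_right _ (hℓ.coprime_iff_not_dvd.mpr hd').symm
  refine Nat.Coprime.mul_dvd_of_dvd_of_dvd
    (Nat.Coprime.pow_left _ (hℓ.coprime_iff_not_dvd.mpr hd')) ?_
    (hco.dvd_of_dvd_mul_left (he ▸ (Dvd.intro_left _ hi.symm).trans hd))
  have hkN : ℓ ^ i ∣ N := (pow_dvd_pow ℓ hik.le).trans (hdvd.trans hn)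
  have h1 : ℓ ^ t * ℓ ^ i ∣ q - 1 := by
    refine dvd_trans ?_ hN
    rw [pow_succ]
    exact mul_dvd_mul (pow_dvd_pow_of_dvd hℓN t) hkN
  rw [he] at h1
  exact Nat.dvd_of_mul_dvd_mul_left (pow_pos hℓ.pos t) h1

/-- Elements whose order is not divisible by `n` are rare. -/
theorem card_bad_mul_le {q N t : ℕ} [Fact q.Prime] (hN : N ^ (t + 1) ∣ q - 1) (hN0 : N ≠ 0) :
    Nat.card {x : (ZMod q)ˣ // ∃ n, n ∣ N ∧ ¬ n ∣ orderOf x} * 2 ^ t ≤ N * (q - 1) := by
  classical
  have hq : q.Prime := Fact.out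
  let B : ℕ → Finset (ZMod q)ˣ := fun ℓ =>
    Finset.univ.filter fun x => x ^ ((q - 1) / ℓ ^ t) = 1
  have hsub : (Finset.univ.filter fun x : (ZMod q)ˣ => ∃ n, n ∣ N ∧ ¬ n ∣ orderOf x) ⊆
      N.primeFactors.biUnion B := by
    intro x hx
    obtain ⟨n, hn, hbad⟩ := (Finset.mem_filter.mp hx).2
    obtain ⟨ℓ, hℓ, e, -, he, hxe⟩ := pow_small_eq_one
      (ZMod.units_pow_card_sub_one_eq_one q x) hq.one_lt hN hn hN0 hbad
    refine Finset.mem_biUnion.mpr ⟨ℓ, hℓ, Finset.mem_filter.mpr ⟨Finset.mem_univ _, ?_⟩⟩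
    rw [← he, Nat.mul_div_cancel_left _ (pow_pos (Nat.prime_of_mem_primeFactors hℓ).pos t), hxe]
  have hB : ∀ ℓ ∈ N.primeFactors, (B ℓ).card * 2 ^ t ≤ q - 1 := by
    intro ℓ hℓ
    have hp := Nat.prime_of_mem_primeFactors hℓ
    have hdvd : ℓ ^ t ∣ q - 1 := ((pow_dvd_pow_of_dvd (Nat.dvd_of_mem_primeFactors hℓ) t).trans
      (pow_dvd_pow N (Nat.le_succ t))).trans hN
    have hpos : 0 < (q - 1) / ℓ ^ t :=
      Nat.div_pos (Nat.le_of_dvd (Nat.sub_pos_of_lt hq.one_lt) hdvd) (pow_pos hp.pos t)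
    calc (B ℓ).card * 2 ^ t ≤ (q - 1) / ℓ ^ t * ℓ ^ t :=
          Nat.mul_le_mul (IsCyclic.card_pow_eq_one_le hpos) (Nat.pow_le_pow_left hp.two_le t)
      _ = q - 1 := Nat.div_mul_cancel hdvd
  have hfac : N.primeFactors.card ≤ N := by
    refine le_trans (Finset.card_le_card fun p hp => Finset.mem_Icc.mpr
      ⟨(Nat.prime_of_mem_primeFactors hp).one_le,
        Nat.le_of_dvd (Nat.pos_of_ne_zero hN0) (Nat.dvd_of_mem_primeFactors hp)⟩ :
      N.primeFactors.card ≤ (Finset.Icc 1 N).card) ?_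
    simp
  rw [Nat.card_eq_fintype_card, Fintype.card_subtype]
  refine (Nat.mul_le_mul_right _ ((Finset.card_le_card hsub).trans Finset.card_biUnion_le)).trans ?_
  rw [Finset.sum_mul]
  refine (Finset.sum_le_card_nsmul _ _ _ hB).trans ?_
  rw [smul_eq_mul]
  exact Nat.mul_le_mul_right _ hfac

/-- A cyclic subgroup on which `i` forces the right parity has totally complex fixed field. -/
theorem isTotallyComplex_fixedField {M : Type} [Field M] [NumberField M] [IsGalois ℚ M] {j : M}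
    (hj : j ^ 2 = -1) (σ : M ≃ₐ[ℚ] M) (h : ∀ c ∈ Subgroup.zpowers σ, c ^ 2 = 1 → c j = j) :
    IsTotallyComplex (IntermediateField.fixedField (Subgroup.zpowers σ)) := by
  set H := Subgroup.zpowers σ
  set K := IntermediateField.fixedField H
  refine ⟨fun v => ?_⟩
  rw [← InfinitePlace.not_isReal_iff_isComplex, InfinitePlace.isReal_iff]
  intro hreal
  set φ := v.embedding
  have hφ : ∀ x : K, (starRingEnd ℂ) (φ x) = φ x := fun x => RingHom.congr_fun hreal x
  set ψ := ComplexEmbedding.lift M φ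
  have hψ : ∀ x : K, ψ (algebraMap K M x) = φ x :=
    RingHom.congr_fun (ComplexEmbedding.lift_comp_algebraMap (K := M) φ)
  obtain ⟨c, hc⟩ := ComplexEmbedding.exists_comp_symm_eq_of_comp_eq (k := K) ψ
    (ComplexEmbedding.conjugate ψ) (RingHom.ext fun x => by
      show ψ (algebraMap K M x) = (starRingEnd ℂ) (ψ (algebraMap K M x))
      rw [show ψ (algebraMap K M x) = φ x from hψ x, hφ])
  have hcx : ∀ x, ψ (c.symm x) = (starRingEnd ℂ) (ψ x) := fun x => RingHom.congr_fun hc x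
  let c' : M ≃ₐ[ℚ] M := c.symm.restrictScalars ℚ
  have hcH : c' ∈ H := by
    rw [← IntermediateField.fixingSubgroup_fixedField H, IntermediateField.mem_fixingSubgroup_iff]
    intro x hx
    exact c.symm.commutes ⟨x, hx⟩
  have hinv : c' ^ 2 = 1 := AlgEquiv.ext fun x => ψ.injective (by
    show ψ (c.symm (c.symm x)) = ψ x
    rw [hcx, hcx, Complex.conj_conj])
  have h1 : (starRingEnd ℂ) (ψ j) = ψ j := by
    rw [← hcx]
    exact congrArg ψ (h c' hcH hinv)
  have h2 : (ψ j) ^ 2 = -1 := by rw [← map_pow, hj, map_neg, map_one]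
  have h3 := congrArg Complex.re h2
  rw [Complex.conj_eq_iff_im] at h1
  rw [pow_two, Complex.mul_re, h1, Complex.neg_re, Complex.one_re] at h3
  nlinarith

/-- The bound close to `1`. -/
theorem exists_eventually_lower {G : Type} [Group G] [Finite G] (π : Γℚ →* G)
    (hπ : GaloisFactorsThroughFiniteLevel π) (hsurj : Function.Surjective π) (C : Set G)
    (hconj : ∀ g h : G, g ∈ C → h * g * h⁻¹ ∈ C) (hinv : ∀ g : G, g ∈ C → g⁻¹ ∈ C)
    (S : Finset ℕ) {δ : ℝ} (hδ : 0 < δ) :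
    LeO (fun s => ((Nat.card C : ℝ) / Nat.card G - δ) * Real.log (1 / (s - 1)))
      (fun s => ∑' p : frobSet π C S, ((p : Nat.Primes) : ℝ) ^ (-s)) := by
  classical
  haveI := GalCommon.isGalois_Qbar
  obtain ⟨L₀, hL₀, hL₀π⟩ := hπ
  haveI := hL₀
  -- a finite Galois field through which `π` factors, containing `i`
  obtain ⟨I₀, hI₀⟩ := IsAlgClosed.exists_pow_nat_eq (-1 : ℚ̄) two_pos
  haveI : FiniteDimensional ℚ ℚ⟮I₀⟯ :=
    IntermediateField.adjoin.finiteDimensional (Algebra.IsIntegral.isIntegral I₀)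
  let E : IntermediateField ℚ ℚ̄ := IntermediateField.normalClosure ℚ (L₀ ⊔ ℚ⟮I₀⟯ : IntermediateField ℚ ℚ̄) ℚ̄
  have hEle : L₀ ⊔ ℚ⟮I₀⟯ ≤ E := IntermediateField.le_normalClosure _
  have hI₀E : I₀ ∈ E :=
    hEle ((le_sup_right : ℚ⟮I₀⟯ ≤ L₀ ⊔ ℚ⟮I₀⟯) (IntermediateField.mem_adjoin_simple_self ℚ I₀))
  haveI : Normal ℚ E := normalClosure.normal ℚ (L₀ ⊔ ℚ⟮I₀⟯ : IntermediateField ℚ ℚ̄) ℚ̄
  haveI : IsGalois ℚ E := ⟨⟩
  let resE := AlgEquiv.restrictNormalHom (F := ℚ) (K₁ := ℚ̄) E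
  have hresE : Function.Surjective resE := AlgEquiv.restrictNormalHom_surjective ℚ̄
  have hker : resE.ker ≤ π.ker := fun τ hτ => hL₀π τ fun x hx =>
    (IntermediateField.mem_fixingSubgroup_iff _ _).mp
      (mem_fixingSubgroup_of_restrict_eq_one (L := E) hτ) x
      (hEle ((le_sup_left : L₀ ≤ L₀ ⊔ ℚ⟮I₀⟯) hx))
  let πE : (E ≃ₐ[ℚ] E) →* G := resE.liftOfSurjective hresE ⟨π, hker⟩
  have hπE : ∀ τ, πE (resE τ) = π τ := fun τ =>
    MonoidHom.liftOfRightInverse_comp_apply _ _ (Function.rightInverse_surjInv hresE) ⟨π, hker⟩ τ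
  -- the auxiliary prime
  set n0 := Nat.card (E ≃ₐ[ℚ] E) with hn0
  have hn00 : 0 < n0 := Nat.card_pos
  set N := 2 * n0 with hN
  obtain ⟨t, ht⟩ := pow_unbounded_of_one_lt ((n0 * N : ℕ) / δ : ℝ) one_lt_two
  obtain ⟨q, hq, hqlt, hqmod⟩ := Nat.exists_prime_gt_modEq_one (k := N ^ (t + 1)) 2
    (pow_ne_zero _ (by omega))
  haveI : Fact q.Prime := ⟨hq⟩
  have hNq : N ^ (t + 1) ∣ q - 1 := (Nat.modEq_iff_dvd' hq.one_lt.le).mp hqmod.symm
  -- the crossed field
  obtain ⟨ζ, hζ⟩ := HasEnoughRootsOfUnity.exists_primitiveRoot ℚ̄ q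
  haveI : FiniteDimensional ℚ ℚ⟮ζ⟯ :=
    IntermediateField.adjoin.finiteDimensional (Algebra.IsIntegral.isIntegral ζ)
  let E2 : IntermediateField ℚ ℚ̄ := E ⊔ ℚ⟮ζ⟯
  haveI : Normal ℚ E2 := by
    refine IntermediateField.normal_iff_forall_map_le.mpr fun g => ?_
    rw [IntermediateField.map_sup, IntermediateField.normal_iff_forall_map_eq.mp inferInstance g]
    refine sup_le le_sup_left (le_trans ?_ le_sup_right)
    rw [IntermediateField.adjoin_map, Set.image_singleton, IntermediateField.adjoin_simple_le_iff]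
    obtain ⟨i, -, hi⟩ := hζ.eq_pow_of_pow_eq_one
      (show g ζ ^ q = 1 by rw [← map_pow, hζ.pow_eq_one, map_one])
    exact hi ▸ pow_mem (IntermediateField.mem_adjoin_simple_self ℚ ζ) i
  haveI : IsGalois ℚ E2 := ⟨⟩
  haveI : NumberField E2 := { }
  let M : Type := E2
  let res2 := AlgEquiv.restrictNormalHom (F := ℚ) (K₁ := ℚ̄) E2
  have hres2 : Function.Surjective res2 := AlgEquiv.restrictNormalHom_surjective ℚ̄
  have hker2 : res2.ker ≤ resE.ker := fun τ hτ => MonoidHom.mem_ker.mpr (AlgEquiv.ext fun x =>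
    Subtype.ext (by
      rw [show ((resE τ x : E) : ℚ̄) = τ x from AlgEquiv.restrictNormal_commutes τ E x]
      exact (IntermediateField.mem_fixingSubgroup_iff _ _).mp
        (mem_fixingSubgroup_of_restrict_eq_one (L := E2) hτ) x
        ((le_sup_left : E ≤ E2) x.2)))
  let rho : (E2 ≃ₐ[ℚ] E2) →* (E ≃ₐ[ℚ] E) := res2.liftOfSurjective hres2 ⟨resE, hker2⟩
  have hrho : ∀ τ, rho (res2 τ) = resE τ := fun τ =>
    MonoidHom.liftOfRightInverse_comp_apply _ _ (Function.rightInverse_surjInv hres2) ⟨resE, hker2⟩ τ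
  let π2 : (E2 ≃ₐ[ℚ] E2) →* G := πE.comp rho
  have hπ2 : ∀ τ, π2 (res2 τ) = π τ := fun τ => by
    rw [MonoidHom.comp_apply, hrho, hπE]
  let ζ2 : E2 := ⟨ζ, (le_sup_right : ℚ⟮ζ⟯ ≤ E2) (IntermediateField.mem_adjoin_simple_self ℚ ζ)⟩
  have hζ2 : IsPrimitiveRoot ζ2 q :=
    IsPrimitiveRoot.of_map_of_injective (f := algebraMap E2 ℚ̄) hζ Subtype.val_injective
  set κ := hζ2.autToPow ℚ with hκ
  -- the Frobenius elements
  choose A hA τ hτ using fun p : Nat.Primes => GalCommon.exists_place_frobenius p.2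
  let F : Nat.Primes → (E2 ≃ₐ[ℚ] E2) := fun p => res2 (τ p)
  set S' : Finset ℕ := S ∪ ({q} ∪ (badNat E2).primeFactors) with hS'
  have hqS : q ∈ S' := by simp [hS']
  have hbadS : ∀ p : Nat.Primes, (p : ℕ) ∣ badNat E2 → (p : ℕ) ∈ S' := fun p h =>
    Finset.mem_union_right _ (Finset.mem_union_right _
      (Nat.mem_primeFactors.mpr ⟨p.2, h, badNat_ne_zero⟩))
  have hF : ∀ p : Nat.Primes, (p : ℕ) ∉ S' → ∃ Q : Ideal (𝓞 E2), Q.IsMaximal ∧
      ((p : ℕ) : 𝓞 E2) ∈ Q ∧ IsFrobMod (p : ℕ) (F p) Q := fun p _ =>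
    ⟨placePrime E2 (A p), placePrime_isMaximal E2 p.2 (hA p), natCast_mem_placePrime (hA p),
      isFrobMod_restrict E2 (hτ p)⟩
  have hκsurj : Function.Surjective κ := by
    intro x
    obtain ⟨p, hpgt, hp, hpx⟩ := Nat.forall_exists_prime_gt_and_eq_mod x.isUnit (q + badNat E2)
    haveI := placePrime_isMaximal E2 hp (hA ⟨p, hp⟩)
    exact ⟨F ⟨p, hp⟩, Units.ext ((autToPow_frobenius hζ2 hp (by omega)
      (natCast_mem_placePrime (hA ⟨p, hp⟩)) (isFrobMod_restrict E2 (hτ ⟨p, hp⟩))).trans hpx)⟩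
  -- an element killed by both maps is trivial
  have hjoint : ∀ g : E2 ≃ₐ[ℚ] E2, rho g = 1 → κ g = 1 → g = 1 := by
    intro g h1 h2
    obtain ⟨γ, rfl⟩ := hres2 g
    have hζfix : γ ζ = ζ := by
      have := hζ2.autToPow_spec ℚ (res2 γ)
      rw [← hκ, h2, Units.val_one, ZMod.val_one, pow_one] at this
      have h3 := congrArg (fun z : E2 => (z : ℚ̄)) this
      rw [show ((res2 γ ζ2 : E2) : ℚ̄) = γ ζ from AlgEquiv.restrictNormal_commutes γ E2 ζ2] at h3
      exact h3.symm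
    rw [hrho] at h1
    have hle : E2 ≤ IntermediateField.fixedField (Subgroup.zpowers γ) := by
      refine sup_le (fun x hx => ?_) (IntermediateField.adjoin_simple_le_iff.mpr ?_)
      · intro g'
        exact (IntermediateField.mem_fixingSubgroup_iff _ _).mp (Subgroup.zpowers_le.mpr
          (mem_fixingSubgroup_of_restrict_eq_one (L := E) h1) g'.2) x hx
      · intro g'
        have : Subgroup.zpowers γ ≤ MulAction.stabilizer Γℚ ζ :=
          Subgroup.zpowers_le.mpr (MulAction.mem_stabilizer_iff.mpr hζfix)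
        exact MulAction.mem_stabilizer_iff.mp (this g'.2)
    refine AlgEquiv.ext fun x => Subtype.ext ?_
    rw [show ((res2 γ x : E2) : ℚ̄) = γ x from AlgEquiv.restrictNormal_commutes γ E2 x]
    exact hle x.2 ⟨γ, Subgroup.mem_zpowers γ⟩
  -- the good elements
  let C' : Finset (E2 ≃ₐ[ℚ] E2) := Finset.univ.filter fun σ => π2 σ ∈ C
  let Good : Finset (E2 ≃ₐ[ℚ] E2) := C'.filter fun σ => 2 * orderOf (rho σ) ∣ orderOf (κ σ)
  have hgood : ∀ σ ∈ Good, LeO (fun s => Real.log (1 / (s - 1))) (fun s => ∑' p : Nat.Primes,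
      (if (p : ℕ) ∈ S' then 0 else
        ((Nat.card {x : E2 ≃ₐ[ℚ] E2 // x * F p * x⁻¹ = σ} : ℝ) +
          Nat.card {x : E2 ≃ₐ[ℚ] E2 // x * F p * x⁻¹ = σ⁻¹}) / 2) * (p : ℝ) ^ (-s)) := by
    intro σ hσ
    have h2n := (Finset.mem_filter.mp hσ).2
    have hj0 : ((⟨I₀, (le_sup_left : E ≤ E2) hI₀E⟩ : E2)) ^ 2 = -1 := Subtype.ext (by simpa using hI₀)
    haveI := isTotallyComplex_fixedField hj0 σ fun c hc hc2 => by
      obtain ⟨k, rfl⟩ := (isOfFinOrder_of_finite σ).mem_powers_iff_mem_zpowers.mpr hc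
      have h1 : orderOf (κ σ) ∣ k * 2 := orderOf_dvd_of_pow_eq_one (by
        rw [← map_pow, pow_mul]
        show κ ((σ ^ k) ^ 2) = 1
        rw [hc2, map_one])
      have h3 : rho (σ ^ k) = 1 := by
        rw [map_pow, ← orderOf_dvd_iff_pow_eq_one]
        have := h2n.trans h1
        rw [mul_comm k 2] at this
        exact Nat.dvd_of_mul_dvd_mul_left two_pos this
      show (σ ^ k) _ = _
      obtain ⟨γ, hγ⟩ := hres2 (σ ^ k)
      rw [← hγ, hrho] at h3
      rw [← hγ]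
      refine Subtype.ext ?_
      rw [show ((res2 γ ⟨I₀, _⟩ : E2) : ℚ̄) = γ I₀ from AlgEquiv.restrictNormal_commutes γ E2 _]
      exact (IntermediateField.mem_fixingSubgroup_iff _ _).mp
        (mem_fixingSubgroup_of_restrict_eq_one (L := E) h3) _ hI₀E
    refine exists_class_bound hζ2 σ (fun h hh h1 => ?_) S' hqS hbadS F hF
    obtain ⟨k, rfl⟩ := (isOfFinOrder_of_finite σ).mem_powers_iff_mem_zpowers.mpr hh
    refine hjoint _ ?_ h1
    change κ (σ ^ k) = 1 at h1
    rw [map_pow, ← orderOf_dvd_iff_pow_eq_one] at h1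
    show rho (σ ^ k) = 1
    rw [map_pow, ← orderOf_dvd_iff_pow_eq_one]
    exact ((dvd_mul_left _ 2).trans h2n).trans h1
  -- counting
  set m := Nat.card (E2 ≃ₐ[ℚ] E2) with hm
  have hm0 : (0 : ℝ) < m := Nat.cast_pos.mpr Nat.card_pos
  have hqm : q - 1 ≤ m := by
    have h := Nat.card_le_card_of_surjective κ hκsurj
    rwa [Nat.card_eq_fintype_card, ZMod.card_units] at h
  have hC' : (C'.card : ℝ) / m = (Nat.card C : ℝ) / Nat.card G := by
    have hsurj2 : Function.Surjective π2 := fun g => by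
      obtain ⟨γ, hγ⟩ := hsurj g
      exact ⟨res2 γ, (hπ2 γ).trans hγ⟩
    haveI := Fintype.ofFinite G
    have hfib : ∀ g : G, (Finset.univ.filter fun σ => π2 σ = g).card =
        (Finset.univ.filter fun σ => π2 σ = 1).card := fun g =>
      MonoidHom.card_fiber_eq_of_mem_range π2 (MonoidHom.mem_range.mpr (hsurj2 g))
        (MonoidHom.mem_range.mpr (hsurj2 1))
    set c := (Finset.univ.filter fun σ => π2 σ = 1).card
    have e1 : ∀ T : Finset G, (Finset.univ.filter fun σ => π2 σ ∈ T).card = T.card * c := by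
      intro T
      rw [Finset.card_eq_sum_card_fiberwise (f := π2) (s := Finset.univ.filter fun σ => π2 σ ∈ T) (t := T)
        (fun σ hσ => (Finset.mem_filter.mp hσ).2), ← smul_eq_mul, ← Finset.sum_const]
      refine Finset.sum_congr rfl fun g hg => ?_
      rw [← hfib g, Finset.filter_filter]
      congr 1
      ext σ
      simp only [Finset.mem_filter, Finset.mem_univ, true_and, and_iff_right_iff_imp]
      exact fun h => h ▸ hg
    have hc : (c : ℝ) ≠ 0 := by
      exact_mod_cast (Finset.card_pos.mpr ⟨1, by simp⟩).ne'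
    have h1 : C'.card = Nat.card C * c := by
      rw [Nat.card_eq_fintype_card, ← Set.toFinset_card]
      refine Eq.trans ?_ (e1 C.toFinset)
      congr 1
      ext σ
      simp [C']
    have h2 : m = Nat.card G * c := by
      rw [hm, Nat.card_eq_fintype_card, Nat.card_eq_fintype_card]
      have := e1 Finset.univ
      simpa using this
    rw [h1, h2]
    push_cast
    rw [mul_div_mul_right _ _ hc]
  have hbad : ((C'.card : ℝ) / m - δ) ≤ (Good.card : ℝ) / m := by
    let Bad : Finset (E2 ≃ₐ[ℚ] E2) := C'.filter fun σ => ¬ 2 * orderOf (rho σ) ∣ orderOf (κ σ)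
    have hcard : C'.card = Good.card + Bad.card :=
      (Finset.card_filter_add_card_filter_not (s := C') _).symm
    have hinj : Bad.card ≤ n0 * Nat.card {x : (ZMod q)ˣ // ∃ n, n ∣ N ∧ ¬ n ∣ orderOf x} := by
      rw [hn0, ← Nat.card_prod, ← Nat.card_eq_finsetCard]
      refine Nat.card_le_card_of_injective (fun σ => (rho σ.1, ⟨κ σ.1, 2 * orderOf (rho σ.1), ?_,
        (Finset.mem_filter.mp σ.2).2⟩)) fun a b hab => ?_
      · exact mul_dvd_mul_left 2 (orderOf_dvd_natCard _)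
      · simp only [Prod.mk.injEq, Subtype.mk.injEq] at hab
        refine Subtype.ext (inv_mul_eq_one.mp (hjoint _ ?_ ?_))
        · rw [map_mul, map_inv, hab.1, inv_mul_cancel]
        · rw [map_mul, map_inv, hab.2, inv_mul_cancel]
    have h3 : Bad.card * 2 ^ t ≤ n0 * N * m := by
      calc Bad.card * 2 ^ t
          ≤ n0 * Nat.card {x : (ZMod q)ˣ // ∃ n, n ∣ N ∧ ¬ n ∣ orderOf x} * 2 ^ t :=
            Nat.mul_le_mul_right _ hinj
        _ ≤ n0 * (N * (q - 1)) := by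
            rw [mul_assoc]
            exact Nat.mul_le_mul_left _ (card_bad_mul_le hNq (by omega))
        _ ≤ n0 * N * m := by
            rw [← mul_assoc]
            exact Nat.mul_le_mul_left _ hqm
    have h4 : (Bad.card : ℝ) ≤ δ * m := by
      have h3' : (Bad.card : ℝ) * 2 ^ t ≤ ((n0 * N : ℕ) : ℝ) * m := by exact_mod_cast h3
      rw [div_lt_iff₀ hδ] at ht
      have h2t : (0 : ℝ) < 2 ^ t := by positivity
      nlinarith [mul_le_mul_of_nonneg_right ht.le hm0.le]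
    rw [hcard]
    push_cast
    rw [add_div]
    have := (div_le_iff₀ hm0).mpr h4
    linarith
  -- the sum over the good elements
  obtain ⟨B, hB⟩ := leO_sum Good hgood
  refine ⟨|B| / m, ?_⟩
  filter_upwards [hB, Ioo_mem_nhdsGT (show (1 : ℝ) < 2 by norm_num)] with s hs hs12
  have hlog : 0 ≤ Real.log (1 / (s - 1)) :=
    Real.log_nonneg ((le_div_iff₀ (by linarith [hs12.1])).mpr (by linarith [hs12.2]))
  have hsum1 : Summable fun p : Nat.Primes => (p : ℝ) ^ (-s) :=
    Nat.Primes.summable_rpow.mpr (by linarith [hs12.1] : -s < -1)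
  set wgt : (E2 ≃ₐ[ℚ] E2) → Nat.Primes → ℝ := fun σ p => if (p : ℕ) ∈ S' then 0 else
        ((Nat.card {x : E2 ≃ₐ[ℚ] E2 // x * F p * x⁻¹ = σ} : ℝ) +
          Nat.card {x : E2 ≃ₐ[ℚ] E2 // x * F p * x⁻¹ = σ⁻¹}) / 2 with hwgt
  have hle1 : ∀ σ (p : Nat.Primes),
      (Nat.card {x : E2 ≃ₐ[ℚ] E2 // x * F p * x⁻¹ = σ} : ℝ) ≤ m := fun σ p => by
    exact_mod_cast Nat.card_le_card_of_injective _ Subtype.val_injective
  have hw0 : ∀ σ p, 0 ≤ wgt σ p := fun σ p => by simp only [hwgt]; split_ifs <;> positivity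
  have hwle : ∀ σ p, wgt σ p ≤ m := fun σ p => by
    simp only [hwgt]
    split_ifs
    · exact hm0.le
    · linarith [hle1 σ p, hle1 σ⁻¹ p]
  have hsum : ∀ σ, Summable fun p : Nat.Primes => wgt σ p * (p : ℝ) ^ (-s) := fun σ =>
    Summable.of_nonneg_of_le (fun p => mul_nonneg (hw0 σ p) (by positivity))
      (fun p => mul_le_mul_of_nonneg_right (hwle σ p) (by positivity)) (hsum1.mul_left (m : ℝ))
  have hpt : ∀ p : Nat.Primes, ∑ σ ∈ Good, wgt σ p ≤ (frobSet π C S).indicator (fun _ => (m : ℝ)) p := by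
    intro p
    by_cases hp : (p : ℕ) ∈ S'
    · simp only [hwgt, if_pos hp, Finset.sum_const_zero]
      exact Set.indicator_nonneg (fun _ _ => hm0.le) p
    have hpS : (p : ℕ) ∉ S := fun h => hp (Finset.mem_union_left _ h)
    by_cases hpf : p ∈ frobSet π C S
    · rw [Set.indicator_of_mem hpf]
      simp only [hwgt, if_neg hp, ← Finset.sum_div, Finset.sum_add_distrib]
      have key : ∀ f : (E2 ≃ₐ[ℚ] E2) → (E2 ≃ₐ[ℚ] E2), Function.Injective f →
          ∑ σ ∈ Good, (Nat.card {x : E2 ≃ₐ[ℚ] E2 // x * F p * x⁻¹ = f σ} : ℝ) ≤ m := by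
        intro f hf
        rw [← Nat.cast_sum, Nat.cast_le, ← Finset.sum_image (f := fun τ' =>
          Nat.card {x : E2 ≃ₐ[ℚ] E2 // x * F p * x⁻¹ = τ'}) hf.injOn]
        refine (Finset.sum_le_univ_sum_of_nonneg fun _ => Nat.zero_le _).trans (le_of_eq ?_)
        rw [hm, ← Nat.card_sigma]
        exact Nat.card_congr (Equiv.sigmaFiberEquiv fun x => x * F p * x⁻¹)
      have k1 := key id Function.injective_id
      have k2 := key (·⁻¹) inv_injective
      simp only [id] at k1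
      linarith [k1, k2]
    · rw [Set.indicator_of_notMem hpf]
      refine le_of_eq (Finset.sum_eq_zero fun σ hσ => ?_)
      have hσC : π2 σ ∈ C := (Finset.mem_filter.mp (Finset.mem_filter.mp hσ).1).2
      have hFC : π2 (F p) ∉ C := by
        intro hFC
        refine hpf ⟨hpS, fun A' τ' hA' hτ' => ?_⟩
        obtain ⟨g, hg⟩ := GalCommon.exists_smul_eq_of_liesOverPrime p.2 (hA p) hA'
        have hfr : (A').IsFrobeniusAt (g * τ p * g⁻¹) p := hg ▸ GalCommon.isFrobeniusAt_conj (hτ p) g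
        haveI := placePrime_isMaximal E2 p.2 hA'
        have heq : res2 (g * τ p * g⁻¹) = res2 τ' :=
          IsFrobMod.eq p.2 (natCast_mem_placePrime hA') (fun h => hp (hbadS p h))
            (isFrobMod_restrict E2 hfr) (isFrobMod_restrict E2 hτ')
        rw [← hπ2 τ', ← heq, hπ2, map_mul, map_mul, map_inv, ← hπ2 (τ p)]
        exact hconj _ _ hFC
      have hzero : ∀ τ', π2 τ' ∈ C → Nat.card {x : E2 ≃ₐ[ℚ] E2 // x * F p * x⁻¹ = τ'} = 0 := by
        intro τ' hτ'
        haveI : IsEmpty {x : E2 ≃ₐ[ℚ] E2 // x * F p * x⁻¹ = τ'} := ⟨fun x => hFC (by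
          have h := hconj _ (π2 x.1)⁻¹ (by rw [x.2]; exact hτ' : π2 (x.1 * F p * x.1⁻¹) ∈ C)
          rw [inv_inv, map_mul, map_mul, map_inv] at h
          simpa [mul_assoc] using h)⟩
        exact Nat.card_of_isEmpty
      simp only [hwgt]
      rw [if_neg hp, hzero σ hσC, hzero σ⁻¹ (by rw [map_inv]; exact hinv _ hσC)]
      simp
  have hmain : (Good.card : ℝ) * Real.log (1 / (s - 1)) ≤
      (m : ℝ) * (∑' p : frobSet π C S, ((p : Nat.Primes) : ℝ) ^ (-s)) + B := by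
    rw [Finset.sum_const, nsmul_eq_mul] at hs
    refine hs.trans (add_le_add ?_ le_rfl)
    rw [← Summable.tsum_finsetSum fun σ _ => hsum σ]
    rw [tsum_subtype (frobSet π C S) fun p : Nat.Primes => (p : ℝ) ^ (-s), ← tsum_mul_left]
    refine (summable_sum fun σ _ => hsum σ).tsum_le_tsum (fun p => ?_)
      ((hsum1.indicator _).mul_left _)
    rw [← Finset.sum_mul]
    refine (mul_le_mul_of_nonneg_right (hpt p) (by positivity)).trans (le_of_eq ?_)
    by_cases hpf : p ∈ frobSet π C S <;> simp [hpf]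
  have h5 := mul_le_mul_of_nonneg_right hbad hlog
  rw [hC'] at h5
  refine h5.trans ?_
  rw [div_mul_eq_mul_div, div_le_iff₀ hm0, add_mul, div_mul_cancel₀ _ hm0.ne', mul_comm _ (m : ℝ)]
  linarith [le_abs_self B]

end ChebAux

/-- **Chebotarev, lower bound**, for a set stable under conjugation and inversion. -/
theorem exists_lower_density {G : Type} [Group G] [Finite G] (π : Γℚ →* G)
    (hπ : GaloisFactorsThroughFiniteLevel π) (hsurj : Function.Surjective π) (C : Set G)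
    (hconj : ∀ g h : G, g ∈ C → h * g * h⁻¹ ∈ C) (hinv : ∀ g : G, g ∈ C → g⁻¹ ∈ C)
    (S : Finset ℕ) {δ : ℝ} (hδ : 0 < δ) :
    ∃ B : ℝ, ∀ s : ℝ, 1 < s → s ≤ 2 →
      ((Nat.card C : ℝ) / Nat.card G - δ) * Real.log (1 / (s - 1)) - B ≤
        ∑' p : frobSet π C S, ((p : Nat.Primes) : ℝ) ^ (-s) := by
  obtain ⟨B, hB⟩ := ChebAux.exists_eventually_lower π hπ hsurj C hconj hinv S hδ
  obtain ⟨u, hu, hsub⟩ := mem_nhdsGT_iff_exists_Ioo_subset.mp hB
  set r := (Nat.card C : ℝ) / Nat.card G - δ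
  have hu1 : (1 : ℝ) < u := hu
  refine ⟨|B| + |r| * |Real.log (1 / (u - 1))|, fun s hs hs2 => ?_⟩
  have h0 : 0 ≤ |r| * |Real.log (1 / (u - 1))| := by positivity
  by_cases hsu : s < u
  · have h : r * Real.log (1 / (s - 1)) ≤
        (∑' p : frobSet π C S, ((p : Nat.Primes) : ℝ) ^ (-s)) + B := hsub ⟨hs, hsu⟩
    linarith [le_abs_self B]
  · have hpos : 0 ≤ ∑' p : frobSet π C S, ((p : Nat.Primes) : ℝ) ^ (-s) :=
      tsum_nonneg fun p => by positivity
    have h1 : Real.log (1 / (s - 1)) ≤ |Real.log (1 / (u - 1))| :=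
      (Real.log_le_log (one_div_pos.mpr (by linarith))
        (one_div_le_one_div_of_le (by linarith) (by linarith [not_lt.mp hsu]))).trans (le_abs_self _)
    have h2 : 0 ≤ Real.log (1 / (s - 1)) :=
      Real.log_nonneg ((le_div_iff₀ (by linarith)).mpr (by linarith))
    have h3 : r * Real.log (1 / (s - 1)) ≤ |r| * |Real.log (1 / (u - 1))| :=
      mul_le_mul (le_abs_self r) h1 h2 (abs_nonneg r)
    linarith [abs_nonneg B]

end FLTAgent.WeightOne
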