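import Mathlib
import Fermat.Agent.DS.Defs
import Fermat.Prelude.Def_FLTPrelim_Modularity
import Fermat.Prelude.Def_GaloisRep_Residual

/-!
# Weight one eigen systems: the Hecke relations

`EigenRel N e a b` says that a sequence `b` satisfies, at every prime `p ∤ N`, the weight one
relation `b (p n) + e p * b (n / p) = a p * b n`. It is the form in which the eigenvalues `a` and
the character values `e` are carried through the Deligne–Serre argument (statement S48).
-/

set_option autoImplicit false

noncomputable section

open CongruenceSubgroup
open scoped MatrixGroups

namespace FLTAgent.WeightOne

/-- The coefficients `b` satisfy the relations of a weight one eigenform of level `N` with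
eigenvalues `a` and character values `e` at the primes not dividing `N`. -/
def EigenRel {A : Type*} [CommRing A] (N : ℕ) (e a b : ℕ → A) : Prop :=
  ∀ p : ℕ, p.Prime → ¬ p ∣ N → ∀ n : ℕ,
    b (p * n) + e p * (if p ∣ n then b (n / p) else 0) = a p * b n

end FLTAgent.WeightOne
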