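import Mathlib

/-!
# The function `ζ(z) - z G₂` at the points of the torus `ℂ/(ℤτ + ℤ)`

For the Weierstrass zeta function `weierZeta` we define `zFun z τ = (ζ(z) - z G₂(τ)) / 2πi` and
`zShift x τ`, its value at `x₀ τ + x₁` corrected by `x₀`. Main results: the weight one
transformation `zShift_smul` under `SL₂(ℤ)`, periodicity in `x` (`zShift_periodic`), the expansion
`zShift_eq_tsum` and boundedness at infinity `isBoundedAtImInfty_zShift`. The series are summed by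
rows, using the partial fractions of the cotangent and the transformation law of `G₂`.
-/

set_option autoImplicit false

noncomputable section

open UpperHalfPlane hiding I
open Complex Filter Topology EisensteinSeries
open scoped Real MatrixGroups ModularForm

namespace FLTAgent.WeightOne

/-! ### The cotangent and its symmetric partial fractions -/

/-- `π cot (π w)`. -/
def piCot (w : ℂ) : ℂ := π * Complex.cot (π * w)

/-- `e(w) / (1 - e(w))`, the sum of `e(d w)` over `d ≥ 1`. -/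
def geomE (w : ℂ) : ℂ := cexp (2 * π * I * w) / (1 - cexp (2 * π * I * w))

theorem piCot_zero : piCot 0 = 0 := by simp [piCot, Complex.cot]

theorem piCot_neg (w : ℂ) : piCot (-w) = -piCot w := by
  simp only [piCot, Complex.cot, mul_neg, Complex.sin_neg, Complex.cos_neg, div_neg]

theorem piCot_add_intCast (w : ℂ) (n : ℤ) : piCot (w + n) = piCot w := by
  rw [piCot, piCot, Complex.cot_pi_eq_exp_ratio, Complex.cot_pi_eq_exp_ratio, mul_add, Complex.exp_add,
    show 2 * (π : ℂ) * I * (n : ℂ) = (n : ℂ) * (2 * π * I) by ring,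
    Complex.exp_int_mul_two_pi_mul_I, mul_one]

theorem norm_e (w : ℂ) : ‖cexp (2 * π * I * w)‖ = Real.exp (-2 * π * w.im) := by
  rw [Complex.norm_exp]; simp

theorem e_ne_one {w : ℂ} (hw : 0 < w.im) : cexp (2 * π * I * w) ≠ 1 := by
  intro h
  have := congrArg (‖·‖) h
  simp only [norm_e, norm_one, Real.exp_eq_one_iff] at this
  nlinarith [Real.pi_pos, mul_pos Real.pi_pos hw]

theorem piCot_eq_geomE {w : ℂ} (hw : 0 < w.im) : piCot w = -(π * I) * (1 + 2 * geomE w) := by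
  have h1 : 1 - cexp (2 * π * I * w) ≠ 0 := sub_ne_zero.mpr (e_ne_one hw).symm
  rw [piCot, Complex.cot_pi_eq_exp_ratio, geomE]
  generalize cexp (2 * π * I * w) = u at h1 ⊢
  field_simp
  rw [Complex.I_sq]
  ring

theorem sum_Icc_succ_int {M : Type*} [AddCommMonoid M] (f : ℤ → M) (N : ℕ) :
    ∑ n ∈ Finset.Icc (-((N + 1 : ℕ) : ℤ)) ((N + 1 : ℕ) : ℤ), f n =
      (f (-((N + 1 : ℕ) : ℤ)) + f ((N + 1 : ℕ) : ℤ)) + ∑ n ∈ Finset.Icc (-(N : ℤ)) N, f n := by
  have h : Finset.Icc (-((N + 1 : ℕ) : ℤ)) ((N + 1 : ℕ) : ℤ) =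
      insert (-((N + 1 : ℕ) : ℤ)) (insert ((N + 1 : ℕ) : ℤ) (Finset.Icc (-(N : ℤ)) N)) := by
    ext x; simp; omega
  rw [h, Finset.sum_insert (by simp; omega), Finset.sum_insert (by simp), add_assoc]

theorem sum_Icc_symm {M : Type*} [AddCommMonoid M] (f : ℤ → M) (N : ℕ) :
    ∑ n ∈ Finset.Icc (-(N : ℤ)) N, f n =
      f 0 + ∑ k ∈ Finset.range N, (f (-((k + 1 : ℕ) : ℤ)) + f ((k + 1 : ℕ) : ℤ)) := by
  induction N with
  | zero => simp
  | succ N ih => rw [sum_Icc_succ_int, ih, Finset.sum_range_succ]; abel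

/-- Symmetric partial fractions of `π cot (π x)`. -/
theorem tendsto_sub_inv {x : ℂ} (hx : x = 0 ∨ x ∈ Complex.integerComplement) :
    Tendsto (fun N : ℕ => ∑ n ∈ Finset.Icc (-(N : ℤ)) N, (x - n)⁻¹) atTop (𝓝 (piCot x)) := by
  simp only [sum_Icc_symm]
  rcases hx with rfl | hx
  · simp only [piCot_zero]
    refine tendsto_const_nhds.congr fun N => ?_
    rw [Int.cast_zero, sub_zero, inv_zero, zero_add, eq_comm]
    refine Finset.sum_eq_zero fun k _ => ?_
    push_cast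
    rw [zero_sub, zero_sub, neg_neg, inv_neg, add_neg_cancel]
  · have h := (tendsto_logDeriv_euler_cot_sub hx).const_add (1 / x)
    rw [add_sub_cancel] at h
    refine h.congr fun N => ?_
    simp only [Int.cast_zero, sub_zero, one_div, cotTerm]
    congr 1
    refine Finset.sum_congr rfl fun k _ => ?_
    push_cast
    ring

theorem tendsto_add_inv {x : ℂ} (hx : x = 0 ∨ x ∈ Complex.integerComplement) :
    Tendsto (fun N : ℕ => ∑ n ∈ Finset.Icc (-(N : ℤ)) N, (x + n)⁻¹) atTop (𝓝 (piCot x)) := by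
  have h' : -x = 0 ∨ -x ∈ Complex.integerComplement := by
    rcases hx with rfl | hx
    · left; simp
    · right
      rintro ⟨n, hn⟩
      exact hx ⟨-n, by push_cast; rw [hn, neg_neg]⟩
  have h := (tendsto_sub_inv h').neg
  rw [piCot_neg, neg_neg] at h
  refine h.congr fun N => ?_
  rw [← Finset.sum_neg_distrib]
  refine Finset.sum_congr rfl fun n _ => ?_
  rw [← inv_neg]; ring_nf

theorem tendsto_Icc_finset :
    Tendsto (fun N : ℕ => Finset.Icc (-(N : ℤ)) N) atTop atTop := by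
  refine tendsto_atTop_finset_of_monotone (fun a b hab => Finset.Icc_subset_Icc (by omega) (by omega)) ?_
  exact fun x => ⟨x.natAbs, Finset.mem_Icc.mpr (by omega)⟩

/-! ### The series -/

/-- The linear form `v₀ τ + v₁`. -/
def latPt (τ : ℍ) (v : Fin 2 → ℤ) : ℂ := v 0 * (τ : ℂ) + v 1

/-- The summand of the Weierstrass zeta function; at `v = 0` it is `z⁻¹`. -/
def zetaTerm (z : ℂ) (τ : ℍ) (v : Fin 2 → ℤ) : ℂ :=
  (z - latPt τ v)⁻¹ + (latPt τ v)⁻¹ + z * (latPt τ v ^ 2)⁻¹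

/-- The Weierstrass zeta function of the lattice `ℤτ + ℤ`. -/
def weierZeta (z : ℂ) (τ : ℍ) : ℂ := ∑' v, zetaTerm z τ v

/-- `(ζ(z) - z G₂(τ)) / 2πi`. -/
def zFun (z : ℂ) (τ : ℍ) : ℂ := (weierZeta z τ - z * G2 τ) / (2 * π * I)

/-- The value at the point `x₀ τ + x₁`, corrected by `x₀`. -/
def zShift (x : Fin 2 → ℝ) (τ : ℍ) : ℂ := zFun (x 0 * τ + x 1) τ + x 0

theorem summable_zetaTerm (z : ℂ) (τ : ℍ) : Summable (zetaTerm z τ) := by
  refine Summable.of_norm_bounded_eventually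
    ((summable_one_div_norm_rpow (k := 3) (by norm_num)).mul_left
      (2 * ‖z‖ ^ 2 * ((r τ) ^ 3)⁻¹)) ?_
  have hfin : ∀ᶠ v : Fin 2 → ℤ in cofinite, (2 * ‖z‖ + 1) / r τ ≤ ‖v‖ := by
    rw [← Filter.cocompact_eq_cofinite]
    exact tendsto_norm_cocompact_atTop.eventually_ge_atTop _
  filter_upwards [hfin] with v hv
  have hr := r_pos τ
  rw [div_le_iff₀' hr] at hv
  have hv0 : v ≠ 0 := by
    rintro rfl
    rw [norm_zero, mul_zero] at hv
    linarith [norm_nonneg z]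
  have hw : r τ * ‖v‖ ≤ ‖latPt τ v‖ := r_mul_max_le τ hv0
  have hvpos : 0 < ‖v‖ := norm_pos_iff.mpr hv0
  have hsub : ‖latPt τ v‖ / 2 ≤ ‖z - latPt τ v‖ := by
    have := norm_sub_norm_le (latPt τ v) z
    rw [norm_sub_rev] at this
    linarith
  have hw0 : latPt τ v ≠ 0 := norm_pos_iff.mp (by nlinarith)
  have hz0 : z - latPt τ v ≠ 0 := norm_pos_iff.mp (by nlinarith)
  have he : zetaTerm z τ v = z ^ 2 / (latPt τ v ^ 2 * (z - latPt τ v)) := by
    rw [zetaTerm]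
    field_simp
    ring
  rw [he, norm_div, norm_mul, norm_pow, norm_pow, show (-3 : ℝ) = -((3 : ℕ) : ℝ) by norm_num,
    Real.rpow_neg (norm_nonneg v), Real.rpow_natCast]
  calc ‖z‖ ^ 2 / (‖latPt τ v‖ ^ 2 * ‖z - latPt τ v‖)
      ≤ ‖z‖ ^ 2 / ((r τ * ‖v‖) ^ 2 * ((r τ * ‖v‖) / 2)) := by
        gcongr
        linarith
    _ = 2 * ‖z‖ ^ 2 * ((r τ) ^ 3)⁻¹ * (‖v‖ ^ 3)⁻¹ := by field_simp

/-! ### Transformation under `SL₂(ℤ)` -/

/-- Right multiplication of row vectors. -/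
def rowEquiv (γ : SL(2, ℤ)) : (Fin 2 → ℤ) ≃ (Fin 2 → ℤ) where
  toFun v := Matrix.vecMul v (γ : Matrix (Fin 2) (Fin 2) ℤ)
  invFun v := Matrix.vecMul v ((γ⁻¹ : SL(2, ℤ)) : Matrix (Fin 2) (Fin 2) ℤ)
  left_inv v := by
    dsimp only
    rw [Matrix.vecMul_vecMul, ← Matrix.SpecialLinearGroup.coe_mul, mul_inv_cancel,
      Matrix.SpecialLinearGroup.coe_one, Matrix.vecMul_one]
  right_inv v := by
    dsimp only
    rw [Matrix.vecMul_vecMul, ← Matrix.SpecialLinearGroup.coe_mul, inv_mul_cancel,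
      Matrix.SpecialLinearGroup.coe_one, Matrix.vecMul_one]

/-- `c τ + d`. -/
def jFac (γ : SL(2, ℤ)) (τ : ℍ) : ℂ := ((γ 1 0 : ℤ) : ℂ) * τ + ((γ 1 1 : ℤ) : ℂ)

theorem denom_eq_jFac (γ : SL(2, ℤ)) (τ : ℍ) : denom γ τ = jFac γ τ := by
  simp [ModularGroup.denom_apply, jFac]

theorem jFac_ne_zero (γ : SL(2, ℤ)) (τ : ℍ) : jFac γ τ ≠ 0 := by
  rw [← denom_eq_jFac]; exact denom_ne_zero _ τ

theorem coe_smul_SL (γ : SL(2, ℤ)) (τ : ℍ) :
    ((γ • τ : ℍ) : ℂ) = (((γ 0 0 : ℤ) : ℂ) * τ + ((γ 0 1 : ℤ) : ℂ)) / jFac γ τ := by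
  rw [coe_specialLinearGroup_apply]
  simp [jFac]

theorem latPt_smul (γ : SL(2, ℤ)) (τ : ℍ) (v : Fin 2 → ℤ) :
    latPt (γ • τ) v = latPt τ (rowEquiv γ v) / jFac γ τ := by
  have hj := jFac_ne_zero γ τ
  simp only [latPt, rowEquiv, Equiv.coe_fn_mk, Matrix.vecMul, dotProduct, Fin.sum_univ_two,
    coe_smul_SL]
  field_simp
  simp only [jFac]
  push_cast
  ring

theorem zetaTerm_smul (γ : SL(2, ℤ)) (z : ℂ) (τ : ℍ) (v : Fin 2 → ℤ) :
    zetaTerm (z / jFac γ τ) (γ • τ) v = jFac γ τ * zetaTerm z τ (rowEquiv γ v) := by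
  have hj := jFac_ne_zero γ τ
  rw [zetaTerm, zetaTerm, latPt_smul, div_sub_div_same, inv_div, inv_div, div_pow, inv_div]
  field_simp

theorem weierZeta_smul (γ : SL(2, ℤ)) (z : ℂ) (τ : ℍ) :
    weierZeta (z / jFac γ τ) (γ • τ) = jFac γ τ * weierZeta z τ := by
  simp only [weierZeta, zetaTerm_smul, tsum_mul_left]
  rw [(rowEquiv γ).tsum_eq fun v => zetaTerm z τ v]

theorem G2_smul (γ : SL(2, ℤ)) (τ : ℍ) :
    G2 (γ • τ) = jFac γ τ ^ 2 * G2 τ - 2 * π * I * ((γ 1 0 : ℤ) : ℂ) * jFac γ τ := by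
  have h := congrFun (G2_slash_action γ) τ
  have hj := jFac_ne_zero γ τ
  rw [ModularForm.SL_slash_apply, Pi.sub_apply, D2, denom_eq_jFac] at h
  rw [zpow_neg, ← div_eq_mul_inv, div_eq_iff (zpow_ne_zero _ hj)] at h
  rw [h, zpow_ofNat]
  field_simp

theorem zFun_smul (γ : SL(2, ℤ)) (z : ℂ) (τ : ℍ) :
    zFun (z / jFac γ τ) (γ • τ) = jFac γ τ * zFun z τ + ((γ 1 0 : ℤ) : ℂ) * z := by
  have hj := jFac_ne_zero γ τ
  have hpi : (2 * π * I : ℂ) ≠ 0 := Complex.two_pi_I_ne_zero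
  rw [zFun, zFun, weierZeta_smul, G2_smul]
  field_simp
  ring

/-- The right action on the torsion point. -/
def rowR (x : Fin 2 → ℝ) (γ : SL(2, ℤ)) : Fin 2 → ℝ :=
  ![x 0 * (γ 0 0 : ℤ) + x 1 * (γ 1 0 : ℤ), x 0 * (γ 0 1 : ℤ) + x 1 * (γ 1 1 : ℤ)]

/-- Transformation of weight one under `SL₂(ℤ)`. -/
theorem zShift_smul (γ : SL(2, ℤ)) (x : Fin 2 → ℝ) (τ : ℍ) :
    zShift x (γ • τ) = jFac γ τ * zShift (rowR x γ) τ := by
  have hdet : (γ 0 0 : ℤ) * γ 1 1 - γ 0 1 * γ 1 0 = 1 := by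
    have := γ.2
    rwa [Matrix.det_fin_two] at this
  have hdetC : ((γ 0 0 : ℤ) : ℂ) * (γ 1 1 : ℤ) - ((γ 0 1 : ℤ) : ℂ) * (γ 1 0 : ℤ) = 1 := by
    exact_mod_cast hdet
  have hj := jFac_ne_zero γ τ
  have he : (x 0 : ℂ) * ((γ • τ : ℍ) : ℂ) + x 1 =
      ((rowR x γ 0 : ℂ) * τ + rowR x γ 1) / jFac γ τ := by
    rw [coe_smul_SL, eq_div_iff hj, add_mul, mul_assoc, div_mul_cancel₀ _ hj]
    simp [rowR, jFac]
    ring
  rw [zShift, zShift, he, zFun_smul]
  simp [rowR, jFac]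
  linear_combination -(x 0 : ℂ) * hdetC

/-! ### Summation by rows -/

/-- `z` is not in the lattice `ℤτ + ℤ`. -/
def OffLattice (z : ℂ) (τ : ℍ) : Prop := ∀ v : Fin 2 → ℤ, z ≠ latPt τ v

theorem sub_mem_integerComplement {z : ℂ} {τ : ℍ} (hz : OffLattice z τ) (m : ℤ) :
    z - m * τ ∈ Complex.integerComplement := by
  rintro ⟨n, hn⟩
  exact hz ![m, n] (by simp [latPt, hn])

theorem mul_tau_eq_zero_or (τ : ℍ) (m : ℤ) :
    (m * τ : ℂ) = 0 ∨ (m * τ : ℂ) ∈ Complex.integerComplement := by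
  rcases eq_or_ne m 0 with rfl | hm
  · left; simp
  · right
    rintro ⟨n, hn⟩
    have h := congrArg Complex.im hn
    simp [τ.im_ne_zero, hm] at h

theorem tsum_row {z : ℂ} {τ : ℍ} (hz : OffLattice z τ) (m : ℤ) :
    ∑' n : ℤ, zetaTerm z τ ![m, n] =
      piCot (z - m * τ) + piCot (m * τ) + z * e2Summand m τ := by
  have hs : Summable fun n : ℤ => zetaTerm z τ ![m, n] := by
    refine (summable_zetaTerm z τ).comp_injective (i := fun n : ℤ => ![m, n]) ?_
    exact fun a b h => by simpa using congrFun h 1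
  have h1 : Tendsto (fun N : ℕ => ∑ n ∈ Finset.Icc (-(N : ℤ)) N, zetaTerm z τ ![m, n]) atTop
      (𝓝 (∑' n : ℤ, zetaTerm z τ ![m, n])) := hs.hasSum.comp tendsto_Icc_finset
  have h2 : Tendsto (fun N : ℕ => ∑ n ∈ Finset.Icc (-(N : ℤ)) N,
      (((m : ℂ) * τ + n) ^ 2)⁻¹) atTop (𝓝 (e2Summand m τ)) := by
    refine ((e2Summand_summable m τ).hasSum.comp tendsto_Icc_finset).congr fun N => ?_
    simp [eisSummand, zpow_ofNat]
  refine tendsto_nhds_unique h1 ?_
  refine (((tendsto_sub_inv (Or.inr (sub_mem_integerComplement hz m))).add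
    (tendsto_add_inv (mul_tau_eq_zero_or τ m))).add (h2.const_mul z)).congr fun N => ?_
  simp only [Finset.mul_sum, ← Finset.sum_add_distrib]
  refine Finset.sum_congr rfl fun n _ => ?_
  simp [zetaTerm, latPt, sub_sub]

theorem sum_piCot_mul_eq_zero (τ : ℍ) (N : ℕ) :
    ∑ m ∈ Finset.Icc (-(N : ℤ)) N, piCot (m * τ) = 0 := by
  rw [sum_Icc_symm]
  rw [Int.cast_zero, zero_mul, piCot_zero, zero_add]
  refine Finset.sum_eq_zero fun k _ => ?_
  rw [Int.cast_neg, neg_mul, piCot_neg, neg_add_cancel]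

/-- The series by rows. -/
theorem tendsto_zFun {z : ℂ} {τ : ℍ} (hz : OffLattice z τ) :
    Tendsto (fun N : ℕ => ∑ m ∈ Finset.Icc (-(N : ℤ)) N, piCot (z - m * τ)) atTop
      (𝓝 (2 * π * I * zFun z τ)) := by
  have hprod : HasSum (fun p : ℤ × ℤ => zetaTerm z τ ![p.1, p.2]) (weierZeta z τ) :=
    (finTwoArrowEquiv ℤ).symm.hasSum_iff.mpr (summable_zetaTerm z τ).hasSum
  have hrow := hprod.prod_fiberwise fun m => (hprod.summable.prod_factor m).hasSum
  have h1 : Tendsto (fun N : ℕ => ∑ m ∈ Finset.Icc (-(N : ℤ)) N, ∑' n, zetaTerm z τ ![m, n])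
      atTop (𝓝 (weierZeta z τ)) := hrow.comp tendsto_Icc_finset
  have h2 : Tendsto (fun N : ℕ => ∑ m ∈ Finset.Icc (-(N : ℤ)) N, e2Summand m τ) atTop
      (𝓝 (G2 τ)) := by
    have h : HasSum (e2Summand · τ) (G2 τ) (SummationFilter.symmetricIcc ℤ) :=
      (summable_e2Summand_symmetricIcc τ).hasSum
    simpa [HasSum, -SummationFilter.symmetricIcc_filter,
      SummationFilter.symmetricIcc_eq_map_Icc_nat, Function.comp_def] using h
  have hpi : (2 * π * I : ℂ) ≠ 0 := Complex.two_pi_I_ne_zero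
  rw [zFun, mul_div_cancel₀ _ hpi]
  refine (h1.sub (h2.const_mul z)).congr fun N => ?_
  simp only [tsum_row hz, Finset.sum_add_distrib, sum_piCot_mul_eq_zero, ← Finset.mul_sum]
  ring

/-! ### Periodicity -/

/-- The point is not integral. -/
def NotInt (x : Fin 2 → ℝ) : Prop := ∀ a b : ℤ, x 0 ≠ a ∨ x 1 ≠ b

theorem offLattice_of_notInt {x : Fin 2 → ℝ} (hx : NotInt x) (τ : ℍ) :
    OffLattice (x 0 * τ + x 1) τ := by
  intro v h
  simp only [latPt] at h
  have him := congrArg Complex.im h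
  have hre := congrArg Complex.re h
  simp at him hre
  have h0 : x 0 = v 0 := him.resolve_right τ.im_ne_zero
  rw [h0, add_right_inj] at hre
  exact (hx (v 0) (v 1)).elim (fun e => e h0) (fun e => e hre)

theorem zShift_snd {x : Fin 2 → ℝ} (hx : NotInt x) (b : ℤ) (τ : ℍ) :
    zShift ![x 0, x 1 + b] τ = zShift x τ := by
  have hx' : NotInt ![x 0, x 1 + b] := fun a c => (hx a (c - b)).imp (by simp) fun h e => h (by
    simp at e; push_cast; linarith)
  have h1 := tendsto_zFun (offLattice_of_notInt hx τ)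
  have h2 := tendsto_zFun (offLattice_of_notInt hx' τ)
  have h : 2 * π * I * zFun ((![x 0, x 1 + b] 0 : ℝ) * τ + (![x 0, x 1 + b] 1 : ℝ)) τ =
      2 * π * I * zFun (x 0 * τ + x 1) τ := by
    refine tendsto_nhds_unique h2 (h1.congr fun N => Finset.sum_congr rfl fun m _ => ?_)
    rw [← piCot_add_intCast _ b]
    simp
    ring_nf
  have := mul_left_cancel₀ Complex.two_pi_I_ne_zero h
  simp only [zShift]
  rw [this]
  simp

theorem rowR_S (x : Fin 2 → ℝ) : rowR x ModularGroup.S = ![x 1, -x 0] := by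
  simp [rowR, ModularGroup.coe_S]

/-- Periodicity in both variables. -/
theorem zShift_periodic {x x' : Fin 2 → ℝ} (hx : NotInt x) (a b : ℤ) (h0 : x' 0 = x 0 + a)
    (h1 : x' 1 = x 1 + b) : zShift x' = zShift x := by
  funext τ
  have hy : NotInt ![x 0 + a, x 1] := fun c d => (hx (c - a) d).imp (fun h e => h (by
    simp at e; push_cast; linarith)) (by simp)
  rw [show x' = ![(![x 0 + a, x 1] : Fin 2 → ℝ) 0, (![x 0 + a, x 1] : Fin 2 → ℝ) 1 + b] by
    ext i; fin_cases i <;> simp [h0, h1], zShift_snd hy b τ]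
  obtain ⟨u, rfl⟩ : ∃ u, ModularGroup.S • u = τ := ⟨ModularGroup.S⁻¹ • τ, smul_inv_smul _ τ⟩
  rw [zShift_smul, zShift_smul, rowR_S, rowR_S]
  congr 1
  have hz : NotInt ![x 1, -x 0] := fun c d => (hx (-d) c).symm.imp (by simp) fun h e => h (by
    simp at e; push_cast; linarith)
  have := zShift_snd hz (-a) u
  convert this using 3 <;> simp
  ring

/-! ### Expansion at infinity -/

/-- `e(w₊)`-type summand of the expansion. -/
def expTerm (x : Fin 2 → ℝ) (τ : ℍ) (k : ℕ) : ℂ :=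
  geomE (((k + 1 : ℕ) : ℂ) * τ + (x 0 * τ + x 1)) -
    geomE (((k + 1 : ℕ) : ℂ) * τ - (x 0 * τ + x 1))

theorem norm_geomE_le {w : ℂ} {r : ℝ} (hr : r < 1) (hw : Real.exp (-2 * π * w.im) ≤ r) :
    ‖geomE w‖ ≤ Real.exp (-2 * π * w.im) / (1 - r) := by
  rw [geomE, norm_div, norm_e]
  refine div_le_div_of_nonneg_left (Real.exp_pos _).le (by linarith) ?_
  have := norm_sub_norm_le (1 : ℂ) (cexp (2 * π * I * w))
  rw [norm_one, norm_e] at this
  linarith

theorem norm_expTerm_le {x : Fin 2 → ℝ} (hx0 : 0 ≤ x 0) (hx1 : x 0 < 1) (τ : ℍ) (k : ℕ) :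
    ‖expTerm x τ k‖ ≤
      2 * (Real.exp (-2 * π * (1 - x 0) * τ.im) / (1 - Real.exp (-2 * π * (1 - x 0) * τ.im))) *
        Real.exp (-2 * π * τ.im) ^ k := by
  set s := Real.exp (-2 * π * (1 - x 0) * τ.im) with hs
  have hs1 : s < 1 := by
    rw [hs, Real.exp_lt_one_iff]
    have := mul_pos (mul_pos Real.pi_pos (by linarith : (0 : ℝ) < 1 - x 0)) τ.im_pos
    linarith
  have key : ∀ w : ℂ, ((k : ℝ) + (1 - x 0)) * τ.im ≤ w.im →
      ‖geomE w‖ ≤ s / (1 - s) * Real.exp (-2 * π * τ.im) ^ k := by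
    intro w hw
    have hle : Real.exp (-2 * π * w.im) ≤ s * Real.exp (-2 * π * τ.im) ^ k := by
      rw [hs, ← Real.exp_nat_mul, ← Real.exp_add, Real.exp_le_exp]
      nlinarith [Real.pi_pos]
    have hk : Real.exp (-2 * π * τ.im) ^ k ≤ 1 := pow_le_one₀ (Real.exp_pos _).le (by
      rw [Real.exp_le_one_iff]; nlinarith [Real.pi_pos, τ.im_pos])
    refine (norm_geomE_le hs1 (hle.trans (mul_le_of_le_one_right (Real.exp_pos _).le hk))).trans ?_
    rw [div_mul_eq_mul_div]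
    exact div_le_div_of_nonneg_right hle (by linarith)
  refine (norm_sub_le _ _).trans ?_
  have h1 := key (((k + 1 : ℕ) : ℂ) * τ + (x 0 * τ + x 1)) (by
    simp; nlinarith [τ.im_pos])
  have h2 := key (((k + 1 : ℕ) : ℂ) * τ - (x 0 * τ + x 1)) (by
    simp; nlinarith [τ.im_pos])
  linarith

theorem summable_expTerm {x : Fin 2 → ℝ} (hx0 : 0 ≤ x 0) (hx1 : x 0 < 1) (τ : ℍ) :
    Summable (expTerm x τ) :=
  Summable.of_norm_bounded ((summable_geometric_of_lt_one (Real.exp_pos _).le (by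
    rw [Real.exp_lt_one_iff]; nlinarith [Real.pi_pos, τ.im_pos])).mul_left _)
    (norm_expTerm_le hx0 hx1 τ)

/-- The expansion at infinity, for `0 ≤ x₀ < 1`. -/
theorem zShift_eq_tsum {x : Fin 2 → ℝ} (hx : NotInt x) (hx0 : 0 ≤ x 0) (hx1 : x 0 < 1) (τ : ℍ) :
    zShift x τ = piCot (x 0 * τ + x 1) / (2 * π * I) + x 0 - ∑' k, expTerm x τ k := by
  set z : ℂ := x 0 * τ + x 1 with hz
  have hpi : (2 * π * I : ℂ) ≠ 0 := Complex.two_pi_I_ne_zero
  have hlim : Tendsto (fun N : ℕ => piCot z - 2 * π * I * ∑ k ∈ Finset.range N, expTerm x τ k)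
      atTop (𝓝 (piCot z - 2 * π * I * ∑' k, expTerm x τ k)) :=
    ((summable_expTerm hx0 hx1 τ).hasSum.tendsto_sum_nat.const_mul _).const_sub _
  have h := tendsto_nhds_unique (tendsto_zFun (offLattice_of_notInt hx τ))
    (hlim.congr fun N => ?_)
  · rw [zShift, ← hz]
    rw [← hz] at h
    field_simp
    linear_combination h
  · rw [sum_Icc_symm, Finset.mul_sum, ← hz, Int.cast_zero, zero_mul, sub_zero, sub_eq_add_neg,
      ← Finset.sum_neg_distrib]
    congr 1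
    refine Finset.sum_congr rfl fun k _ => ?_
    have him : z.im = x 0 * τ.im := by simp [hz]
    have hp : 0 < (((k + 1 : ℕ) : ℂ) * τ + z).im := by
      simp [him]; nlinarith [τ.im_pos, (Nat.cast_nonneg k : (0 : ℝ) ≤ k)]
    have hm : 0 < (((k + 1 : ℕ) : ℂ) * τ - z).im := by
      simp [him]; nlinarith [τ.im_pos, (Nat.cast_nonneg k : (0 : ℝ) ≤ k)]
    rw [Int.cast_neg, neg_mul, sub_neg_eq_add, Int.cast_natCast,
      show z + ((k + 1 : ℕ) : ℂ) * τ = ((k + 1 : ℕ) : ℂ) * τ + z by ring,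
      show z - ((k + 1 : ℕ) : ℂ) * τ = -(((k + 1 : ℕ) : ℂ) * τ - z) by ring, piCot_neg,
      piCot_eq_geomE hp, piCot_eq_geomE hm, expTerm, ← hz]
    ring

theorem piCot_div_eq {w : ℂ} (hw : 0 < w.im) :
    piCot w / (2 * π * I) = -(1 / 2) - geomE w := by
  have hpi : (2 * π * I : ℂ) ≠ 0 := Complex.two_pi_I_ne_zero
  rw [piCot_eq_geomE hw, div_eq_iff hpi]
  ring

/-- Boundedness at infinity. -/
theorem isBoundedAtImInfty_zShift {x : Fin 2 → ℝ} (hx : NotInt x) :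
    IsBoundedAtImInfty (zShift x) := by
  wlog hx0 : 0 ≤ x 0 ∧ x 0 < 1 generalizing x
  · have hy : NotInt ![Int.fract (x 0), x 1] := fun c d =>
      (hx (c + ⌊x 0⌋) d).imp (fun h e => h (by
        simp [← Int.self_sub_floor] at e; push_cast; linarith)) (by simp)
    rw [zShift_periodic hy ⌊x 0⌋ 0 (x' := x) (by simp [Int.fract_add_floor]) (by simp)]
    exact this hy ⟨by simp [Int.fract_nonneg], by simp [Int.fract_lt_one]⟩
  obtain ⟨hx0, hx1⟩ := hx0
  have hexp : ∀ c : ℝ, 0 < c → ∀ᶠ τ in atImInfty, Real.exp (-2 * π * c * (τ : ℍ).im) ≤ 1 / 2 := by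
    intro c hc
    have hlim : Tendsto (fun τ : ℍ => Real.exp (-2 * π * c * τ.im)) atImInfty (𝓝 0) :=
      Real.tendsto_exp_atBot.comp ((tendsto_comap : Tendsto UpperHalfPlane.im atImInfty atTop).const_mul_atTop_of_neg
        (by nlinarith [mul_pos Real.pi_pos hc]))
    exact hlim.eventually_le_const (by norm_num)
  have hA : ∀ᶠ τ in atImInfty, ‖piCot (x 0 * ((τ : ℍ) : ℂ) + x 1) / (2 * π * I)‖ ≤
      ‖piCot (x 1) / (2 * π * I)‖ + 3 / 2 := by
    rcases hx0.eq_or_lt with h | h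
    · exact Eventually.of_forall fun τ => by simp [← h]; norm_num
    · filter_upwards [hexp (x 0) h] with τ ht
      have him : (x 0 * (τ : ℂ) + x 1).im = x 0 * τ.im := by simp
      rw [piCot_div_eq (by rw [him]; exact mul_pos h τ.im_pos)]
      have hg := norm_geomE_le (w := x 0 * (τ : ℂ) + x 1) (r := 1 / 2) (by norm_num)
        (by rw [him, ← mul_assoc]; exact ht)
      rw [him, ← mul_assoc] at hg
      refine (norm_sub_le _ _).trans ?_
      have : Real.exp (-2 * π * x 0 * τ.im) / (1 - 1 / 2) ≤ 1 := by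
        rw [div_le_one (by norm_num)]; linarith
      have hn : ‖(-(1 / 2) : ℂ)‖ = 1 / 2 := by norm_num
      rw [hn]
      linarith [norm_nonneg (piCot (x 1) / (2 * π * I))]
  refine Asymptotics.IsBigO.of_bound (‖piCot (x 1) / (2 * π * I)‖ + 3 / 2 + x 0 + 4) ?_
  filter_upwards [hA, hexp (1 - x 0) (by linarith), hexp 1 one_pos] with τ hc hs hr
  simp only [mul_one] at hr
  have hr0 := Real.exp_pos (-2 * π * τ.im)
  have hs0 := Real.exp_pos (-2 * π * (1 - x 0) * τ.im)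
  have hsum : ‖∑' k, expTerm x τ k‖ ≤ 4 := by
    refine (tsum_of_norm_bounded ((hasSum_geometric_of_lt_one hr0.le (by linarith)).mul_left _)
      (norm_expTerm_le hx0 hx1 τ)).trans ?_
    calc 2 * (Real.exp (-2 * π * (1 - x 0) * τ.im) /
          (1 - Real.exp (-2 * π * (1 - x 0) * τ.im))) * (1 - Real.exp (-2 * π * τ.im))⁻¹
        ≤ 2 * 1 * 2 := by
          gcongr
          · exact inv_nonneg.mpr (by linarith)
          · rw [div_le_one (by linarith)]; linarith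
          · rw [inv_le_comm₀ (by linarith) two_pos]; linarith
      _ = 4 := by norm_num
  rw [zShift_eq_tsum hx hx0 hx1]
  simp only [Pi.one_apply, norm_one, mul_one]
  refine (norm_sub_le _ _).trans (add_le_add ((norm_add_le _ _).trans ?_) hsum)
  rw [Complex.norm_real, Real.norm_eq_abs, abs_of_nonneg hx0]
  linarith

end FLTAgent.WeightOne
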