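import Fermat.Agent.WeightOne.Defs
import Fermat.Agent.WeightOne.EisZeta
import Fermat.Agent.Eisen.Scale

/-!
# Weight one Eisenstein series with an odd character

`exists_eisenstein`: for an odd character `ψ` modulo `q` there is a modular form of weight one on
`Γ₁(q)` with Nebentypus `ψ`, constant term `eisConst q ψ` and `n`-th coefficient the divisor sum
`eisCoeff q ψ n`. It is the combination `-(1/2) ∑ₐ ψ(a) zShift (a/q, 0) (q τ)` of the torsion
values of `EisZeta`; the transformation under `Γ₀(q)` and boundedness at the cusps come from those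
of `zShift`.
-/

set_option autoImplicit false

noncomputable section

open CongruenceSubgroup Filter Topology Complex
open UpperHalfPlane hiding I
open scoped MatrixGroups ModularForm Manifold Real

namespace FLTAgent.WeightOne

open ModularFormClass (qCoeff)

/-- The constant term `L(0, ψ) / 2` of the Eisenstein series. -/
def eisConst (q : ℕ) (ψ : DirichletCharacter ℂ q) : ℂ :=
  -(∑ a ∈ Finset.range q, ψ (a : ZMod q) * (a : ℂ)) / (2 * (q : ℂ))

/-- The divisor sum of `ψ`. -/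
def eisCoeff (q : ℕ) (ψ : DirichletCharacter ℂ q) (n : ℕ) : ℂ :=
  ∑ d ∈ n.divisors, ψ (d : ZMod q)

section Construction

set_option linter.unusedSectionVars false

attribute [-simp] ZMod.natCast_val
attribute [local simp] ZMod.natCast_zmod_val

variable (q : ℕ) [NeZero q] (ψ : DirichletCharacter ℂ q)

/-- The point `(a/q, 0)`. -/
def eisPt (a : ZMod q) : Fin 2 → ℝ := ![(a.val : ℝ) / q, 0]

/-- `τ ↦ qτ`. -/
def eisArg (τ : ℍ) : ℍ := Eisen.scaleH q (Eisen.natCast_posR q) τ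

/-- The Eisenstein series as a combination of torsion values. -/
def eisFun (τ : ℍ) : ℂ := -(1 / 2) * ∑ a : ZMod q, ψ a * zShift (eisPt q a) (eisArg q τ)

/-- `ψ(n) rⁿ/(1 - rⁿ)` at `r = e(τ)`. -/
def lamTerm (τ : ℍ) (n : ℕ) : ℂ := ψ (n : ZMod q) * geomE ((n : ℂ) * τ)

variable {q ψ}

theorem nontrivial_of_odd (hψ : ψ (-1) = -1) : Nontrivial (ZMod q) := by
  by_contra h
  rw [not_nontrivial_iff_subsingleton] at h
  rw [Subsingleton.elim (-1 : ZMod q) 1, map_one] at hψ
  norm_num at hψ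

theorem chi_zero (hψ : ψ (-1) = -1) : ψ (0 : ZMod q) = 0 := by
  have := nontrivial_of_odd hψ
  exact MulChar.map_zero ψ

theorem chi_neg (hψ : ψ (-1) = -1) (a : ZMod q) : ψ (-a) = -ψ a := by
  rw [← neg_one_mul, map_mul, hψ, neg_one_mul]

theorem sum_chi (hψ : ψ (-1) = -1) : ∑ a : ZMod q, ψ a = 0 := by
  have h := Equiv.sum_comp (Equiv.neg (ZMod q)) (fun a => ψ a)
  simp only [Equiv.neg_apply, chi_neg hψ, Finset.sum_neg_distrib] at h
  linear_combination (-(1 : ℂ) / 2) * h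

theorem notInt_div {k : ℤ} (hk : (k : ZMod q) ≠ 0) (t : ℝ) : NotInt ![(k : ℝ) / q, t] := by
  intro c d
  left
  intro e
  simp only [Matrix.cons_val_zero] at e
  rw [div_eq_iff (by simp [NeZero.ne q])] at e
  have e' : k = c * (q : ℤ) := by exact_mod_cast e
  exact hk (by simp [e'])

theorem notInt_eisPt {a : ZMod q} (ha : a ≠ 0) : NotInt (eisPt q a) := by
  have := notInt_div (q := q) (k := (a.val : ℤ)) (by simpa using ha) 0
  simpa [eisPt] using this

theorem eisPt_nonneg (a : ZMod q) : 0 ≤ eisPt q a 0 := by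
  simp only [eisPt, Matrix.cons_val_zero]
  positivity

theorem eisPt_lt_one (a : ZMod q) : eisPt q a 0 < 1 := by
  simp only [eisPt, Matrix.cons_val_zero]
  rw [div_lt_one (by exact_mod_cast NeZero.pos q)]
  exact_mod_cast ZMod.val_lt a

theorem eisPt_mul_arg (a : ZMod q) (τ : ℍ) :
    ((eisPt q a 0 : ℝ) : ℂ) * (eisArg q τ : ℂ) + ((eisPt q a 1 : ℝ) : ℂ) = (a.val : ℂ) * τ := by
  have : (q : ℂ) ≠ 0 := Nat.cast_ne_zero.mpr (NeZero.ne q)
  simp [eisPt, eisArg]
  field_simp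

variable (ψ) in
theorem norm_lamTerm_le (τ : ℍ) (n : ℕ) :
    ‖lamTerm q ψ τ n‖ ≤ Real.exp (-2 * π * τ.im) ^ n / (1 - Real.exp (-2 * π * τ.im)) := by
  have hr : Real.exp (-2 * π * τ.im) < 1 := by
    rw [Real.exp_lt_one_iff]; nlinarith [Real.pi_pos, τ.im_pos]
  have he : Real.exp (-2 * π * ((n : ℂ) * τ).im) = Real.exp (-2 * π * τ.im) ^ n := by
    rw [← Real.exp_nat_mul]; simp; ring_nf
  have h0 : 0 ≤ Real.exp (-2 * π * τ.im) ^ n / (1 - Real.exp (-2 * π * τ.im)) :=
    div_nonneg (by positivity) (by linarith)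
  rcases Nat.eq_zero_or_pos n with rfl | hn
  · simpa [lamTerm, geomE] using h0
  · rw [lamTerm, norm_mul]
    refine (mul_le_of_le_one_left (norm_nonneg _) (DirichletCharacter.norm_le_one ψ _)).trans ?_
    have := norm_geomE_le (w := (n : ℂ) * τ) hr (by
      rw [he]; exact pow_le_of_le_one (Real.exp_pos _).le hr.le (Nat.pos_iff_ne_zero.mp hn))
    rwa [he] at this

variable (ψ) in
theorem summable_lamTerm (τ : ℍ) : Summable (lamTerm q ψ τ) :=
  Summable.of_norm_bounded ((summable_geometric_of_lt_one (Real.exp_pos _).le (by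
    rw [Real.exp_lt_one_iff]; nlinarith [Real.pi_pos, τ.im_pos])).div_const _)
    (norm_lamTerm_le ψ τ)

/-- The classes `a` and `-a` give the two halves of the series. -/
theorem eisFun_eq (hψ : ψ (-1) = -1) (τ : ℍ) :
    eisFun q ψ τ = eisConst q ψ + ∑' n, lamTerm q ψ τ n := by
  have hq : (q : ℂ) ≠ 0 := Nat.cast_ne_zero.mpr (NeZero.ne q)
  set f := lamTerm q ψ τ with hf
  have hfs : Summable f := summable_lamTerm ψ τ
  have hinj : ∀ a : ZMod q, Function.Injective fun m : ℕ => a.val + q * m := fun a x y h => by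
    simpa [NeZero.ne q] using h
  have hterm : ∀ a : ZMod q, ψ a * zShift (eisPt q a) (eisArg q τ) =
      ψ a * (a.val : ℂ) / q - ψ a * (1 / 2) - ∑' m, f (a.val + q * m) -
        ∑' m, f ((-a).val + q * m) := by
    intro a
    by_cases ha : a = 0
    · subst ha
      simp [chi_zero hψ, f, lamTerm]
    have hv : ((eisPt q a 0 : ℝ) : ℂ) * (eisArg q τ : ℂ) + ((eisPt q a 1 : ℝ) : ℂ) =
        (a.val : ℂ) * τ := eisPt_mul_arg a τ
    have hapos : 0 < ((a.val : ℂ) * τ).im := by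
      simp
      exact mul_pos (Nat.cast_pos.mpr (Nat.pos_of_ne_zero ((ZMod.val_ne_zero a).mpr ha))) τ.im_pos
    have hs := summable_expTerm (eisPt_nonneg a) (eisPt_lt_one a) (eisArg q τ)
    rw [zShift_eq_tsum (notInt_eisPt ha) (eisPt_nonneg a) (eisPt_lt_one a), hv,
      piCot_div_eq hapos]
    have hneg : ((-a).val : ℂ) = q - a.val := by
      have : NeZero a := ⟨ha⟩
      rw [ZMod.val_neg_of_ne_zero, Nat.cast_sub (ZMod.val_lt a).le]
    have hcl : ∀ (b : ZMod q) (m : ℕ), ((b.val + q * m : ℕ) : ZMod q) = b := fun b m => by simp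
    have hfa : Summable fun m => f (a.val + q * m) := hfs.comp_injective (hinj a)
    have hfn : Summable fun m => f ((-a).val + q * m) := hfs.comp_injective (hinj (-a))
    have hexp : ψ a * ∑' k, expTerm (eisPt q a) (eisArg q τ) k =
        ∑' m, f (a.val + q * (m + 1)) + ∑' m, f ((-a).val + q * m) := by
      have hf1 : Summable fun m => f (a.val + q * (m + 1)) :=
        hfs.comp_injective ((hinj a).comp Nat.succ_injective)
      rw [← Summable.tsum_add hf1 hfn, ← tsum_mul_left]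
      refine tsum_congr fun k => ?_
      simp only [f, lamTerm, hcl, chi_neg hψ, expTerm, hv]
      push_cast
      rw [hneg, show (eisArg q τ : ℂ) = q * τ by simp [eisArg],
        show ((a.val : ℂ) + q * (k + 1)) * τ = (k + 1) * (q * τ) + a.val * τ by ring,
        show ((q : ℂ) - a.val + q * k) * τ = (k + 1) * (q * τ) - a.val * τ by ring]
      ring
    have hzero : ∑' m, f (a.val + q * m) = ψ a * geomE ((a.val : ℂ) * τ) +
        ∑' m, f (a.val + q * (m + 1)) := by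
      rw [hfa.tsum_eq_zero_add]
      simp [f, lamTerm]
    have hx : ((eisPt q a 0 : ℝ) : ℂ) = (a.val : ℂ) / q := by simp [eisPt]
    rw [hx]
    linear_combination -hexp + hzero
  have hnegsum : ∑ a : ZMod q, ∑' m, f ((-a).val + q * m) = ∑' n, f n :=
    (Equiv.sum_comp (Equiv.neg (ZMod q)) fun a => ∑' m, f (a.val + q * m)).trans
      (Nat.sumByResidueClasses hfs q).symm
  rw [eisFun, Finset.sum_congr rfl fun a _ => hterm a]
  simp only [Finset.sum_sub_distrib, ← Finset.sum_mul, sum_chi hψ, zero_mul, sub_zero]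
  rw [← Nat.sumByResidueClasses hfs q, hnegsum, eisConst]
  rw [← Finset.sum_div]
  have hsum : ∑ a : ZMod q, ψ a * (a.val : ℂ) = ∑ a ∈ Finset.range q, ψ (a : ZMod q) * a :=
    Finset.sum_nbij' (fun a => a.val) (fun a => (a : ZMod q))
      (fun a _ => Finset.mem_range.mpr (ZMod.val_lt a)) (fun a _ => Finset.mem_univ _)
      (fun a _ => ZMod.natCast_zmod_val a)
      (fun a ha => ZMod.val_natCast_of_lt (Finset.mem_range.mp ha)) (fun a _ => by simp)
  rw [hsum]
  field_simp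
  ring

theorem hasSum_eisCoeff (hψ : ψ (-1) = -1) (τ : ℍ) :
    HasSum (fun N : ℕ => eisCoeff q ψ N * cexp (2 * π * I * τ) ^ N) (∑' n, lamTerm q ψ τ n) := by
  set r := cexp (2 * π * I * τ) with hr
  have hr1 : ‖r‖ < 1 := UpperHalfPlane.norm_exp_two_pi_I_lt_one τ
  have hsum : Summable fun c : ℕ+ × ℕ+ => ψ ((c.1 : ℕ) : ZMod q) * r ^ ((c.1 : ℕ) * c.2) := by
    refine Summable.of_norm_bounded (summable_prod_mul_pow 0 hr1).norm fun c => ?_
    simp only [pow_zero, one_mul, norm_mul]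
    exact mul_le_of_le_one_left (norm_nonneg _) (DirichletCharacter.norm_le_one ψ _)
  have hrow : ∀ a : ℕ+, ∑' b : ℕ+, ψ ((a : ℕ) : ZMod q) * r ^ ((a : ℕ) * b) =
      lamTerm q ψ τ a := by
    intro a
    rw [tsum_mul_left, lamTerm, geomE]
    congr 1
    have ha : ‖r ^ (a : ℕ)‖ < 1 := by
      rw [norm_pow]; exact pow_lt_one₀ (norm_nonneg _) hr1 a.pos.ne'
    have he : cexp (2 * π * I * ((a : ℕ) * (τ : ℂ))) = r ^ (a : ℕ) := by
      rw [hr, ← Complex.exp_nat_mul]; ring_nf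
    rw [he, tsum_pnat_eq_tsum_succ (f := fun b => r ^ ((a : ℕ) * b))]
    simp only [pow_mul, pow_succ, tsum_mul_right, tsum_geometric_of_norm_lt_one ha]
    rw [inv_mul_eq_div]
  have htot : ∑' c : ℕ+ × ℕ+, ψ ((c.1 : ℕ) : ZMod q) * r ^ ((c.1 : ℕ) * c.2) =
      ∑' n, lamTerm q ψ τ n := by
    rw [hsum.tsum_prod, tsum_congr hrow, tsum_pnat_eq_tsum_succ (f := lamTerm q ψ τ),
      (summable_lamTerm ψ τ).tsum_eq_zero_add]
    simp [lamTerm, chi_zero hψ]
  have hS := (sigmaAntidiagonalEquivProd.hasSum_iff.mpr hsum.hasSum).sigma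
    fun n => hasSum_fintype _
  rw [htot] at hS
  have hcoef : ∀ n : ℕ+, (∑ x : (n : ℕ).divisorsAntidiagonal,
      ψ (((sigmaAntidiagonalEquivProd ⟨n, x⟩).1 : ℕ) : ZMod q) *
        r ^ (((sigmaAntidiagonalEquivProd ⟨n, x⟩).1 : ℕ) * (sigmaAntidiagonalEquivProd ⟨n, x⟩).2))
      = eisCoeff q ψ n * r ^ (n : ℕ) := by
    intro n
    simp only [sigmaAntidiagonalEquivProd, divisorsAntidiagonalFactors, PNat.mk_coe,
      Equiv.coe_fn_mk]
    rw [Finset.univ_eq_attach, (n : ℕ).divisorsAntidiagonal.sum_attach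
      fun x : ℕ × ℕ => ψ (x.1 : ZMod q) * r ^ (x.1 * x.2),
      Nat.sum_divisorsAntidiagonal fun x y => ψ (x : ZMod q) * r ^ (x * y), eisCoeff,
      Finset.sum_mul]
    refine Finset.sum_congr rfl fun i hi => ?_
    rw [Nat.mul_div_cancel' (Nat.dvd_of_mem_divisors hi)]
  have hN : HasSum (fun n : ℕ+ => eisCoeff q ψ n * r ^ (n : ℕ)) (∑' n, lamTerm q ψ τ n) :=
    hS.congr_fun fun n => (hcoef n).symm
  refine (PNat.coe_injective.hasSum_iff ?_).mp hN
  intro N hN'
  rcases Nat.eq_zero_or_pos N with rfl | h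
  · simp [eisCoeff]
  · exact absurd ⟨⟨N, h⟩, rfl⟩ hN'

/-- The expansion of the Eisenstein series. -/
theorem hasQ_eisFun (hψ : ψ (-1) = -1) :
    Eisen.HasQ 1 (eisFun q ψ)
      (PowerSeries.mk fun n => if n = 0 then eisConst q ψ else eisCoeff q ψ n) := by
  intro τ
  rw [eisFun_eq hψ]
  refine ((hasSum_ite_eq 0 (eisConst q ψ)).add (hasSum_eisCoeff hψ τ)).congr_fun fun n => ?_
  rw [PowerSeries.coeff_mk, show Function.Periodic.qParam (1 : ℝ) τ = cexp (2 * π * I * τ) by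
    simp [Function.Periodic.qParam]]
  rcases eq_or_ne n 0 with rfl | h
  · simp [eisCoeff]
  · simp [h]

/-- The transformation under `Γ₀(q)`, with character `ψ`. -/
theorem eisFun_slash_gamma0 (hψ : ψ (-1) = -1) {γ : SL(2, ℤ)} (hγ : γ ∈ Gamma0 q) :
    eisFun q ψ ∣[(1 : ℤ)] γ = ψ ((γ 1 1 : ℤ) : ZMod q) • eisFun q ψ := by
  have hq : (q : ℝ) ≠ 0 := Nat.cast_ne_zero.mpr (NeZero.ne q)
  obtain ⟨γ', h00, h01, h10, h11⟩ := Eisen.exists_scaled q hγ
  funext τ
  have hj := jFac_ne_zero γ τ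
  have hjj : jFac γ' (eisArg q τ) = jFac γ τ := by
    rw [← denom_eq_jFac, ← denom_eq_jFac]; exact Eisen.denom_scaleH q γ γ' h10 h11 τ
  have harg : eisArg q (γ • τ) = γ' • eisArg q τ := Eisen.smul_scaleH q γ γ' h00 h01 h10 h11 τ
  rw [ModularForm.SL_slash_apply, Pi.smul_apply, smul_eq_mul, denom_eq_jFac, eisFun, eisFun, harg]
  simp only [zShift_smul, hjj]
  set α : ZMod q := ((γ 0 0 : ℤ) : ZMod q) with hα
  have had : α * ((γ 1 1 : ℤ) : ZMod q) = 1 := by
    have := congrArg (Int.cast : ℤ → ZMod q) γ.2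
    rw [Matrix.det_fin_two] at this
    push_cast at this
    rw [Gamma0_mem.mp hγ, mul_zero, sub_zero] at this
    exact this
  have hu : IsUnit α := IsUnit.of_mul_eq_one _ had
  have hterm : ∀ a : ZMod q, ψ a * zShift (rowR (eisPt q a) γ') (eisArg q τ) =
      ψ ((γ 1 1 : ℤ) : ZMod q) * (ψ (a * α) * zShift (eisPt q (a * α)) (eisArg q τ)) := by
    intro a
    rcases eq_or_ne a 0 with rfl | ha
    · simp [chi_zero hψ]
    have hb : a * α ≠ 0 := fun h => ha (by rwa [hu.mul_left_eq_zero] at h)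
    obtain ⟨t, ht⟩ : (q : ℤ) ∣ (a.val : ℤ) * γ 0 0 - ((a * α).val : ℤ) := by
      rw [← ZMod.intCast_zmod_eq_zero_iff_dvd]
      push_cast
      simp [hα]
    rw [zShift_periodic (notInt_eisPt hb) t (a.val * γ 0 1) (x' := rowR (eisPt q a) γ') ?_ ?_,
      ← mul_assoc, ← map_mul]
    · congr 1
      rw [mul_comm a, ← mul_assoc, mul_comm _ α, had, one_mul]
    · simp [rowR, eisPt, h00]
      field_simp
      have ht' := congrArg (Int.cast : ℤ → ℝ) ht
      push_cast at ht'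
      linarith only [ht']
    · simp [rowR, eisPt, h01]
      field_simp
  have hsum : ∑ a : ZMod q, ψ a * zShift (rowR (eisPt q a) γ') (eisArg q τ) =
      ψ ((γ 1 1 : ℤ) : ZMod q) * ∑ a : ZMod q, ψ a * zShift (eisPt q a) (eisArg q τ) := by
    rw [Finset.mul_sum, Finset.sum_congr rfl fun a _ => hterm a]
    exact Fintype.sum_equiv (Units.mulRight hu.unit) _ _ fun a => by simp
  have hmul : ∑ a : ZMod q, ψ a * (jFac γ τ * zShift (rowR (eisPt q a) γ') (eisArg q τ)) =
      jFac γ τ * (ψ ((γ 1 1 : ℤ) : ZMod q) *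
        ∑ a : ZMod q, ψ a * zShift (eisPt q a) (eisArg q τ)) := by
    rw [← hsum, Finset.mul_sum]
    exact Finset.sum_congr rfl fun a _ => by ring
  rw [hmul, zpow_neg, zpow_one]
  field_simp

theorem exists_upper_decomp (q : ℕ) [NeZero q] (γ : SL(2, ℤ)) :
    ∃ (γ' : SL(2, ℤ)) (A B D : ℤ), 0 < A ∧ 0 < D ∧ (q : ℤ) * γ 0 0 = γ' 0 0 * A ∧
      γ 1 0 = γ' 1 0 * A ∧ (q : ℤ) * γ 0 1 = γ' 0 0 * B + γ' 0 1 * D ∧
      γ 1 1 = γ' 1 0 * B + γ' 1 1 * D := by
  have hdet := γ.2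
  rw [Matrix.det_fin_two] at hdet
  set g : ℤ := ((Int.gcd ((q : ℤ) * γ 0 0) (γ 1 0) : ℕ) : ℤ) with hg
  have hne : (q : ℤ) * γ 0 0 ≠ 0 ∨ γ 1 0 ≠ 0 := by
    by_contra h
    push Not at h
    rw [mul_eq_zero, or_iff_right (by exact_mod_cast NeZero.ne q)] at h
    rw [h.1, h.2] at hdet
    simp at hdet
  have hg0 : 0 < g := by
    rw [hg]; exact_mod_cast Int.gcd_pos_iff.mpr hne
  obtain ⟨a', ha'⟩ : g ∣ (q : ℤ) * γ 0 0 := Int.gcd_dvd_left _ _
  obtain ⟨c', hc'⟩ : g ∣ γ 1 0 := Int.gcd_dvd_right _ _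
  have hbez := Int.gcd_eq_gcd_ab ((q : ℤ) * γ 0 0) (γ 1 0)
  rw [← hg] at hbez
  set u := Int.gcdA ((q : ℤ) * γ 0 0) (γ 1 0)
  set v := Int.gcdB ((q : ℤ) * γ 0 0) (γ 1 0)
  have h1 : a' * u + c' * v = 1 := by
    refine mul_left_cancel₀ hg0.ne' ?_
    rw [mul_one]
    conv_rhs => rw [hbez, ha', hc']
    ring
  refine ⟨⟨!![a', -v; c', u], by rw [Matrix.det_fin_two_of]; linarith⟩, g,
    u * (q * γ 0 1) + v * γ 1 1, -c' * (q * γ 0 1) + a' * γ 1 1, hg0, ?_, ?_, ?_, ?_, ?_⟩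
  · have hD : g * (-c' * (q * γ 0 1) + a' * γ 1 1) = q := by
      linear_combination ((q : ℤ) * γ 0 1) * hc' - γ 1 1 * ha' + (q : ℤ) * hdet
    have hqpos : (0 : ℤ) < g * (-c' * (q * γ 0 1) + a' * γ 1 1) := by
      rw [hD]; exact_mod_cast NeZero.pos q
    exact (mul_pos_iff_of_pos_left hg0).mp hqpos
  all_goals simp
  · linear_combination ha'
  · linear_combination hc'
  · linear_combination -((q : ℤ) * γ 0 1) * h1
  · linear_combination -(γ 1 1) * h1

/-- Boundedness at all cusps. -/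
theorem isBoundedAtImInfty_eisFun_slash (hψ : ψ (-1) = -1) (γ : SL(2, ℤ)) :
    IsBoundedAtImInfty (eisFun q ψ ∣[(1 : ℤ)] γ) := by
  obtain ⟨γ', A, B, D, hA, hD, h00, h10, h01, h11⟩ := exists_upper_decomp q γ
  have hAR : (0 : ℝ) < (A : ℝ) / D := div_pos (Int.cast_pos.mpr hA) (Int.cast_pos.mpr hD)
  let w : ℍ → ℍ := fun τ => ⟨(((A : ℝ) / D : ℝ) : ℂ) * τ + (((B : ℝ) / D : ℝ) : ℂ), by
    rw [Complex.add_im, Complex.im_ofReal_mul, Complex.ofReal_im, add_zero]
    exact mul_pos hAR τ.im_pos⟩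
  have hw : Tendsto w atImInfty atImInfty := by
    refine tendsto_comap_iff.mpr ?_
    refine ((tendsto_comap : Tendsto UpperHalfPlane.im atImInfty atTop).const_mul_atTop hAR).congr
      fun τ => ?_
    show _ = ((((A : ℝ) / D : ℝ) : ℂ) * τ + (((B : ℝ) / D : ℝ) : ℂ)).im
    simp
  have hDC : (D : ℂ) ≠ 0 := Int.cast_ne_zero.mpr hD.ne'
  have hjf : ∀ τ, jFac γ' (w τ) = jFac γ τ / D := fun τ => by
    simp only [jFac, w, h10, h11]
    push_cast
    field_simp
    ring
  have harg : ∀ τ, eisArg q (γ • τ) = γ' • w τ := fun τ => by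
    apply UpperHalfPlane.ext
    rw [eisArg, Eisen.coe_scaleH, coe_smul_SL, coe_smul_SL, hjf]
    have hj := jFac_ne_zero γ τ
    have e00 := congrArg (Int.cast : ℤ → ℂ) h00
    have e01 := congrArg (Int.cast : ℤ → ℂ) h01
    simp only [w]
    push_cast at e00 e01 ⊢
    field_simp
    linear_combination (τ : ℂ) * e00 + e01
  have heq : eisFun q ψ ∣[(1 : ℤ)] γ = fun τ =>
      -(1 / 2) * (1 / (D : ℂ)) * ∑ a : ZMod q, ψ a * zShift (rowR (eisPt q a) γ') (w τ) := by
    funext τ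
    have hj := jFac_ne_zero γ τ
    rw [ModularForm.SL_slash_apply, denom_eq_jFac, eisFun, harg, zpow_neg, zpow_one]
    simp only [zShift_smul, hjf, Finset.mul_sum, Finset.sum_mul]
    refine Finset.sum_congr rfl fun a _ => ?_
    field_simp
  rw [heq]
  unfold IsBoundedAtImInfty BoundedAtFilter
  refine Asymptotics.IsBigO.const_mul_left ?_ _
  refine Asymptotics.IsBigO.fun_sum fun a _ => ?_
  rcases eq_or_ne a 0 with rfl | ha
  · simp [chi_zero hψ, Asymptotics.isBigO_zero]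
  refine Asymptotics.IsBigO.const_mul_left ?_ _
  have hni : NotInt (rowR (eisPt q a) γ') := by
    intro c d
    by_contra h
    push Not at h
    obtain ⟨hc, hd⟩ := h
    simp [rowR, eisPt] at hc hd
    rw [div_mul_eq_mul_div, div_eq_iff (by simp [NeZero.ne q])] at hc hd
    have hcZ : (a.val : ℤ) * γ' 0 0 = c * q := by exact_mod_cast hc
    have hdZ : (a.val : ℤ) * γ' 0 1 = d * q := by exact_mod_cast hd
    have hdet := γ'.2
    rw [Matrix.det_fin_two] at hdet
    have hdvd : (q : ℤ) ∣ a.val := ⟨c * γ' 1 1 - d * γ' 1 0, by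
      linear_combination γ' 1 1 * hcZ - γ' 1 0 * hdZ - (a.val : ℤ) * hdet⟩
    exact ha (by simpa using (ZMod.intCast_zmod_eq_zero_iff_dvd _ q).mpr hdvd)
  exact (isBoundedAtImInfty_zShift hni).comp_tendsto hw

end Construction

/-- The Eisenstein series of weight one attached to an odd character. -/
theorem exists_eisenstein (q : ℕ) [NeZero q] (ψ : DirichletCharacter ℂ q) (hψ : ψ (-1) = -1) :
    ∃ G : ModularForm (Gamma1 q) 1, DS.HasNebentypus 1 ψ ⇑G ∧ qCoeff G 0 = eisConst q ψ ∧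
      ∀ n : ℕ, 0 < n → qCoeff G n = eisCoeff q ψ n := by
  have hQ := hasQ_eisFun hψ
  let G : ModularForm (Gamma1 q) 1 :=
    { toFun := eisFun q ψ
      slash_action_eq' := by
        rintro _ ⟨γ, hγ, rfl⟩
        have h : ((γ 1 1 : ℤ) : ZMod q) = 1 := ((Gamma1_mem q γ).mp hγ).2.1
        have := eisFun_slash_gamma0 (q := q) hψ (Gamma1_in_Gamma0 q hγ)
        rwa [h, map_one, one_smul] at this
      holo' := hQ.mdiff one_pos
      bdd_at_cusps' := fun {c} hc => by
        rw [Subgroup.IsArithmetic.isCusp_iff_isCusp_SL2Z] at hc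
        rw [OnePoint.isBoundedAt_iff_forall_SL2Z hc]
        exact fun γ _ => isBoundedAtImInfty_eisFun_slash hψ γ }
  have hcoef : ∀ n, qCoeff G n = if n = 0 then eisConst q ψ else eisCoeff q ψ n := fun n => by
    show (qExpansion 1 (eisFun q ψ)).coeff n = _
    rw [hQ.qExpansion_eq one_pos, PowerSeries.coeff_mk]
  exact ⟨G, fun γ hγ => eisFun_slash_gamma0 hψ hγ, by simp [hcoef],
    fun n hn => by simp [hcoef, hn.ne']⟩

end FLTAgent.WeightOne
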