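import Mathlib

/-!
# Complex two by two matrices of finite order

`exists_eigen_pair` (trace and determinant from two roots of unity), `eq_one_of_trace_eq_two`,
`trace_inv_eq_conj`, and `two_card_le_sum_norm_sq_trace`: for a finite group of matrices with a
stable line the mean square of the absolute value of the trace is at least two.
-/

set_option autoImplicit false

noncomputable section

open Matrix

namespace FLTAgent.WeightOne

/-- The eigenvalues of a matrix of finite order are roots of unity. -/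
theorem exists_eigen_pair {m : Matrix (Fin 2) (Fin 2) ℂ} {n : ℕ} (h : m ^ n = 1) :
    ∃ a b : ℂ, a ^ n = 1 ∧ b ^ n = 1 ∧ m.trace = a + b ∧ m.det = a * b := by
  have hcard : m.charpoly.roots.card = 2 := by
    rw [(IsAlgClosed.splits m.charpoly).natDegree_eq_card_roots.symm,
      Matrix.charpoly_natDegree_eq_dim, Fintype.card_fin]
  obtain ⟨a, b, hab⟩ := Multiset.card_eq_two.mp hcard
  have hroot : ∀ μ ∈ m.charpoly.roots, μ ^ n = 1 := by
    intro μ hμ
    have h1 : μ ∈ spectrum ℂ m := Matrix.mem_spectrum_iff_isRoot_charpoly.mpr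
      ((Polynomial.mem_roots m.charpoly_monic.ne_zero).mp hμ)
    have h2 := spectrum.pow_mem_pow m n h1
    rw [h, spectrum.one_eq] at h2
    exact h2
  refine ⟨a, b, hroot a (by rw [hab]; simp), hroot b (by rw [hab]; simp), ?_, ?_⟩
  · rw [Matrix.trace_eq_sum_roots_charpoly, hab]
    simp
  · rw [Matrix.det_eq_prod_roots_charpoly, hab]
    simp

theorem charpoly_apply_self (m : Matrix (Fin 2) (Fin 2) ℂ) :
    m * m - m.trace • m + m.det • (1 : Matrix (Fin 2) (Fin 2) ℂ) = 0 := by
  ext i j
  fin_cases i <;> fin_cases j <;>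
    simp [Matrix.mul_apply, Fin.sum_univ_two, Matrix.trace_fin_two, Matrix.det_fin_two] <;> ring

/-- A matrix of finite order with trace two is the identity. -/
theorem eq_one_of_trace_eq_two {m : Matrix (Fin 2) (Fin 2) ℂ} {n : ℕ} (hn : n ≠ 0) (h : m ^ n = 1)
    (ht : m.trace = 2) : m = 1 := by
  obtain ⟨a, b, ha, hb, hab, hd⟩ := exists_eigen_pair h
  have hna : ‖a‖ = 1 := Complex.norm_eq_one_of_pow_eq_one ha hn
  have hnb : ‖b‖ = 1 := Complex.norm_eq_one_of_pow_eq_one hb hn
  have hre : a.re = 1 := by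
    have h1 := congrArg Complex.re (hab.symm.trans ht)
    have h2 := (Complex.re_le_norm a).trans hna.le
    have h3 := (Complex.re_le_norm b).trans hnb.le
    simp only [Complex.add_re, Complex.re_ofNat] at h1
    linarith
  have him : a.im = 0 := by
    have h1 : Complex.normSq a = 1 := by rw [Complex.normSq_eq_norm_sq, hna, one_pow]
    rw [Complex.normSq_apply, hre] at h1
    nlinarith
  have ha1 : a = 1 := Complex.ext hre him
  have hb1 : b = 1 := by linear_combination (hab.symm.trans ht) - ha1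
  rw [ha1, hb1, one_mul] at hd
  set N := m - 1 with hN
  have hN2 : N * N = 0 := by
    have h1 := charpoly_apply_self m
    rw [ht, hd, one_smul, two_smul] at h1
    rw [hN, sub_mul, mul_sub, one_mul, mul_one]
    exact (by abel : m * m - m - (m - 1) = m * m - (m + m) + 1).trans h1
  have hpow : ∀ k : ℕ, m ^ k = 1 + (k : ℂ) • N := by
    intro k
    induction k with
    | zero => simp
    | succ k ih =>
      rw [pow_succ, ih, show m = 1 + N by rw [hN]; abel, add_mul, one_mul, Matrix.smul_mul, mul_add,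
        mul_one, hN2, add_zero, Nat.cast_succ, add_smul, one_smul]
      abel
  have h2 : (n : ℂ) • N = 0 := by
    have := hpow n
    rw [h] at this
    simpa using this.symm
  have h3 : N = 0 := (smul_eq_zero.mp h2).resolve_left (Nat.cast_ne_zero.mpr hn)
  exact sub_eq_zero.mp (hN ▸ h3)

/-- The trace of the inverse is the conjugate of the trace. -/
theorem trace_inv_eq_conj {G : Type*} [Group G] [Finite G] (ρ : G →* GL (Fin 2) ℂ) (g : G) :
    ((ρ g⁻¹ : GL (Fin 2) ℂ) : Matrix (Fin 2) (Fin 2) ℂ).trace =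
      (starRingEnd ℂ) ((ρ g : GL (Fin 2) ℂ) : Matrix (Fin 2) (Fin 2) ℂ).trace := by
  set m := ((ρ g : GL (Fin 2) ℂ) : Matrix (Fin 2) (Fin 2) ℂ) with hm
  have hn : Nat.card G ≠ 0 := Nat.card_pos.ne'
  have hpow : m ^ Nat.card G = 1 := by
    rw [hm, ← Units.val_pow_eq_pow_val, ← map_pow, pow_card_eq_one', map_one, Units.val_one]
  obtain ⟨a, b, ha, hb, hab, hd⟩ := exists_eigen_pair hpow
  have hna : ‖a‖ = 1 := Complex.norm_eq_one_of_pow_eq_one ha hn
  have hnb : ‖b‖ = 1 := Complex.norm_eq_one_of_pow_eq_one hb hn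
  rw [map_inv, Matrix.coe_units_inv, ← hm, Matrix.inv_def, Matrix.trace_smul,
    Ring.inverse_eq_inv', Matrix.trace_fin_two, Matrix.adjugate_fin_two]
  have ht : m 1 1 + m 0 0 = a + b := by rw [add_comm, ← Matrix.trace_fin_two, hab]
  simp only [Matrix.of_apply, Matrix.cons_val', Matrix.cons_val_zero, Matrix.cons_val_one,
    Matrix.cons_val_fin_one, smul_eq_mul, hab, map_add]
  rw [ht, hd, ← Complex.inv_eq_conj hna, ← Complex.inv_eq_conj hnb]
  have h0 : a ≠ 0 := fun h => by rw [h, norm_zero] at hna; exact zero_ne_one hna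
  have h1 : b ≠ 0 := fun h => by rw [h, norm_zero] at hnb; exact zero_ne_one hnb
  field_simp
  ring

/-- With a stable line the mean square of the trace is at least two. -/
theorem two_card_le_sum_norm_sq_trace {G : Type*} [Group G] [Fintype G] (ρ : G →* GL (Fin 2) ℂ)
    (v : Fin 2 → ℂ) (hv : v ≠ 0)
    (hline : ∀ g, ∃ c : ℂ, ((ρ g : GL (Fin 2) ℂ) : Matrix (Fin 2) (Fin 2) ℂ) *ᵥ v = c • v) :
    2 * (Fintype.card G : ℝ) ≤
      ∑ g, ‖((ρ g : GL (Fin 2) ℂ) : Matrix (Fin 2) (Fin 2) ℂ).trace‖ ^ 2 := by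
  classical
  choose c hc using hline
  have hc1 : c 1 = 1 := by
    have h := hc 1
    rw [map_one, Units.val_one, Matrix.one_mulVec] at h
    exact (smul_left_injective ℂ hv (h.trans rfl |>.trans rfl |>.symm.trans (one_smul ℂ v).symm))
  have hcm : ∀ g h, c (g * h) = c g * c h := fun g h => by
    refine smul_left_injective ℂ hv ?_
    show c (g * h) • v = (c g * c h) • v
    rw [← hc, map_mul, Units.val_mul, ← Matrix.mulVec_mulVec, hc, Matrix.mulVec_smul, hc, smul_smul,
      mul_comm]
  let χ : G →* ℂ := { toFun := c, map_one' := hc1, map_mul' := hcm }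
  have hpow : ∀ g, χ g ^ Fintype.card G = 1 := fun g => by rw [← map_pow, pow_card_eq_one, map_one]
  let d : G →* ℂ :=
    { toFun := fun g => ((ρ g : GL (Fin 2) ℂ) : Matrix (Fin 2) (Fin 2) ℂ).det
      map_one' := by simp
      map_mul' := fun g h => by simp [Matrix.det_mul] }
  have hdpow : ∀ g, d g ^ Fintype.card G = 1 := fun g => by rw [← map_pow, pow_card_eq_one, map_one]
  have hnorm : ∀ g, ‖χ g‖ = 1 := fun g =>
    Complex.norm_eq_one_of_pow_eq_one (hpow g) Fintype.card_ne_zero
  have hdnorm : ∀ g, ‖d g‖ = 1 := fun g =>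
    Complex.norm_eq_one_of_pow_eq_one (hdpow g) Fintype.card_ne_zero
  have hχ0 : ∀ g, χ g ≠ 0 := fun g h => by simpa [h] using hnorm g
  let χ' : G →* ℂ :=
    { toFun := fun g => d g / χ g ^ 2
      map_one' := by simp
      map_mul' := fun g h => by rw [map_mul, map_mul, mul_pow, mul_div_mul_comm] }
  have htr : ∀ g, ((ρ g : GL (Fin 2) ℂ) : Matrix (Fin 2) (Fin 2) ℂ).trace =
      χ g * (1 + χ' g) := by
    intro g
    set m := ((ρ g : GL (Fin 2) ℂ) : Matrix (Fin 2) (Fin 2) ℂ)
    have h1 := congrArg (fun M : Matrix (Fin 2) (Fin 2) ℂ => M *ᵥ v) (charpoly_apply_self m)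
    simp only [Matrix.add_mulVec, Matrix.sub_mulVec, Matrix.smul_mulVec, ← Matrix.mulVec_mulVec,
      Matrix.one_mulVec, Matrix.zero_mulVec, show m *ᵥ v = χ g • v from hc g, Matrix.mulVec_smul,
      smul_smul, ← sub_smul, ← add_smul] at h1
    have h2 : χ g * χ g - m.trace * χ g + d g = 0 := (smul_eq_zero.mp h1).resolve_right hv
    show m.trace = χ g * (1 + d g / χ g ^ 2)
    field_simp [hχ0 g]
    linear_combination -h2
  have hsum : 0 ≤ (∑ g, χ' g).re := by
    by_cases h1 : χ' = 1
    · simp [h1]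
    · obtain ⟨g₀, hg₀⟩ : ∃ g₀, χ' g₀ ≠ 1 := by
        by_contra hh
        push Not at hh
        exact h1 (MonoidHom.ext hh)
      have h2 : (χ' g₀ - 1) * ∑ g, χ' g = 0 := by
        rw [sub_mul, one_mul, Finset.mul_sum, sub_eq_zero]
        exact Fintype.sum_equiv (Equiv.mulLeft g₀) _ _ fun g => (map_mul χ' g₀ g).symm
      rw [(mul_eq_zero.mp h2).resolve_left (sub_ne_zero.mpr hg₀), Complex.zero_re]
  have hterm : ∀ g, ‖((ρ g : GL (Fin 2) ℂ) : Matrix (Fin 2) (Fin 2) ℂ).trace‖ ^ 2 =
      2 + 2 * (χ' g).re := by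
    intro g
    have hn' : ‖χ' g‖ = 1 := by
      show ‖d g / χ g ^ 2‖ = 1
      rw [norm_div, norm_pow, hnorm, hdnorm, one_pow, div_one]
    rw [htr, norm_mul, hnorm, one_mul, Complex.sq_norm, Complex.normSq_apply]
    have h3 : (χ' g).re * (χ' g).re + (χ' g).im * (χ' g).im = 1 := by
      rw [← Complex.normSq_apply, ← Complex.sq_norm, hn', one_pow]
    simp only [Complex.add_re, Complex.one_re, Complex.add_im, Complex.one_im, zero_add]
    nlinarith
  rw [Finset.sum_congr rfl fun g _ => hterm g, Finset.sum_add_distrib, ← Finset.mul_sum,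
    ← Complex.re_sum, Finset.sum_const, Finset.card_univ, nsmul_eq_mul]
  linarith

end FLTAgent.WeightOne
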