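import Fermat.Statements.S48
import Mathlib

/-!
# Rankin's bound in weight one

`exists_sum_sq_le`: `∑_{n ≤ X} |a_n|² = O(X)` for a cusp form of weight one, by Bessel's
inequality on the horizontal line of height `1 / (X + 1)`. `exists_primeSum_bound`: for an
eigenform, `∑_p min (|a_p|², c) p^(-s) ≤ log (1 / (s - 1)) + O(1)` over `p ∤ N`, using
multiplicativity on squarefree products of good primes and a dyadic comparison.
-/

set_option autoImplicit false

noncomputable section

open CongruenceSubgroup UpperHalfPlane Complex MeasureTheory intervalIntegral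
open scoped MatrixGroups ComplexConjugate

namespace FLTAgent.WeightOne

open ModularFormClass (qCoeff)

/-- The exponential of period one. -/
def expChar1 (m : ℤ) (u : ℝ) : ℂ := Complex.exp (2 * Real.pi * Complex.I * m * u)

theorem continuous_expChar1 (m : ℤ) : Continuous (expChar1 m) := by
  unfold expChar1; fun_prop

theorem integral_expChar1 (m : ℤ) : ∫ u in (0 : ℝ)..1, expChar1 m u = if m = 0 then 1 else 0 := by
  rcases eq_or_ne m 0 with rfl | hm
  · simp [expChar1]
  · have hne : (2 * Real.pi * Complex.I * m : ℂ) ≠ 0 := by simp [Real.pi_ne_zero, hm]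
    have h1 : Complex.exp (2 * Real.pi * Complex.I * m) = 1 := by
      rw [show (2 * Real.pi * Complex.I * m : ℂ) = m * (2 * Real.pi * Complex.I) by ring]
      exact Complex.exp_int_mul_two_pi_mul_I m
    simp only [expChar1, integral_exp_mul_complex hne, if_neg hm]
    simp [h1]

theorem conj_expChar1 (m : ℤ) (u : ℝ) : conj (expChar1 m u) = expChar1 (-m) u := by
  simp [expChar1, ← Complex.exp_conj, Complex.conj_ofReal, map_ofNat]

theorem expChar1_mul (m m' : ℤ) (u : ℝ) : expChar1 m u * expChar1 m' u = expChar1 (m + m') u := by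
  rw [expChar1, expChar1, expChar1, ← Complex.exp_add]
  congr 1
  push_cast
  ring

/-- Bessel's inequality for a finite set of exponentials. -/
theorem sum_norm_sq_le_integral {g : ℝ → ℂ} (hg : Continuous g) (F : Finset ℕ) (c : ℕ → ℂ)
    (hc : ∀ n ∈ F, ∫ u in (0 : ℝ)..1, expChar1 (-(n : ℤ)) u * g u = c n) :
    ∑ n ∈ F, ‖c n‖ ^ 2 ≤ ∫ u in (0 : ℝ)..1, ‖g u‖ ^ 2 := by
  set P : ℝ → ℂ := fun u => ∑ n ∈ F, c n * expChar1 n u with hP
  have hPc : Continuous P := continuous_finsetSum _ fun n _ =>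
    continuous_const.mul (continuous_expChar1 _)
  have hconjP : ∀ u, conj (P u) = ∑ n ∈ F, conj (c n) * expChar1 (-(n : ℤ)) u := fun u => by
    simp [hP, map_sum, conj_expChar1]
  have h1 : ∫ u in (0 : ℝ)..1, conj (P u) * g u = ∑ n ∈ F, conj (c n) * c n := by
    simp only [hconjP, Finset.sum_mul, mul_assoc]
    rw [intervalIntegral.integral_finsetSum
      (f := fun n u => conj (c n) * (expChar1 (-(n : ℤ)) u * g u)) fun n _ =>
      Continuous.intervalIntegrable (continuous_const.mul ((continuous_expChar1 _).mul hg)) 0 1]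
    refine Finset.sum_congr rfl fun n hn => ?_
    rw [intervalIntegral.integral_const_mul, hc n hn]
  have h2 : ∫ u in (0 : ℝ)..1, conj (P u) * P u = ∑ n ∈ F, conj (c n) * c n := by
    simp only [hconjP, Finset.sum_mul, mul_assoc]
    rw [intervalIntegral.integral_finsetSum
      (f := fun n u => conj (c n) * (expChar1 (-(n : ℤ)) u * P u)) fun n _ =>
      Continuous.intervalIntegrable (continuous_const.mul ((continuous_expChar1 _).mul hPc)) 0 1]
    refine Finset.sum_congr rfl fun n hn => ?_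
    rw [intervalIntegral.integral_const_mul]
    congr 1
    simp only [hP, Finset.mul_sum]
    rw [intervalIntegral.integral_finsetSum
      (f := fun m u => expChar1 (-(n : ℤ)) u * (c m * expChar1 (m : ℤ) u)) fun m _ =>
      Continuous.intervalIntegrable
      ((continuous_expChar1 _).mul (continuous_const.mul (continuous_expChar1 _))) 0 1]
    rw [Finset.sum_eq_single n]
    · simp only [mul_left_comm (expChar1 _ _) (c n), intervalIntegral.integral_const_mul,
        expChar1_mul, integral_expChar1]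
      simp
    · intro m _ hm
      simp only [mul_left_comm (expChar1 _ _) (c m), intervalIntegral.integral_const_mul,
        expChar1_mul, integral_expChar1]
      rw [if_neg (by omega), mul_zero]
    · exact fun h => absurd hn h
  have hre : ∀ h : ℝ → ℂ, Continuous h →
      ∫ u in (0 : ℝ)..1, (h u).re = (∫ u in (0 : ℝ)..1, h u).re := fun h hh =>
    Complex.reCLM.intervalIntegral_comp_comm (hh.intervalIntegrable 0 1)
  have hS : (∑ n ∈ F, conj (c n) * c n).re = ∑ n ∈ F, ‖c n‖ ^ 2 := by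
    rw [Complex.re_sum]
    refine Finset.sum_congr rfl fun n _ => ?_
    rw [Complex.conj_mul', ← Complex.ofReal_pow, Complex.ofReal_re]
  have hpos : (0 : ℝ) ≤ ∫ u in (0 : ℝ)..1, ‖g u - P u‖ ^ 2 :=
    intervalIntegral.integral_nonneg zero_le_one fun u _ => sq_nonneg _
  have hexp : ∀ u, ‖g u - P u‖ ^ 2 =
      ‖g u‖ ^ 2 - 2 * (conj (P u) * g u).re + (conj (P u) * P u).re := fun u => by
    rw [← Complex.normSq_eq_norm_sq, ← Complex.normSq_eq_norm_sq, Complex.normSq_sub,
      Complex.normSq_eq_conj_mul_self (z := P u) |>.symm, Complex.ofReal_re,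
      mul_comm (g u) (conj (P u))]
    ring
  simp only [hexp] at hpos
  rw [intervalIntegral.integral_add (Continuous.intervalIntegrable (by fun_prop) 0 1)
      (Continuous.intervalIntegrable (by fun_prop) 0 1),
    intervalIntegral.integral_sub (Continuous.intervalIntegrable (by fun_prop) 0 1)
      (Continuous.intervalIntegrable (by fun_prop) 0 1),
    intervalIntegral.integral_const_mul, hre _ (by fun_prop), hre _ (by fun_prop), h1, h2, hS]
    at hpos
  linarith

variable {N : ℕ} [NeZero N]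

/-- **The coefficients of a weight one cusp form are bounded in mean square.** -/
theorem exists_sum_sq_le (f : CuspForm (Gamma1 N) 1) :
    ∃ K : ℝ, ∀ X : ℕ, ∑ n ∈ Finset.range (X + 1), ‖qCoeff f n‖ ^ 2 ≤ K * (X + 1) := by
  obtain ⟨C, hC⟩ := CuspFormClass.exists_bound f
  refine ⟨C ^ 2 * Real.exp (4 * Real.pi), fun X => ?_⟩
  set t : ℝ := 1 / ((X : ℝ) + 1) with ht
  have ht0 : 0 < t := by positivity
  set g : ℝ → ℂ := fun u => f ⟨u + t * Complex.I, by simpa using ht0⟩ with hg
  have hgc : Continuous g :=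
    (ModularFormClass.holo f).continuous.comp
      (Continuous.upperHalfPlaneMk (by fun_prop) fun u => by simpa using ht0)
  have hc : ∀ n ∈ Finset.range (X + 1), ∫ u in (0 : ℝ)..1, expChar1 (-(n : ℤ)) u * g u =
      qCoeff f n * Real.exp (-(2 * Real.pi * n * t)) := fun n _ => by
    have h := ModularFormClass.qExpansion_coeff_eq_intervalIntegral f (h := 1) one_pos
      (by simp [CongruenceSubgroup.strictPeriods_Gamma1]) n ht0
    rw [Complex.ofReal_one, div_one, one_mul] at h
    rw [show qCoeff (f : ℍ → ℂ) n = _ from h, ← intervalIntegral.integral_mul_const]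
    refine intervalIntegral.integral_congr fun u _ => ?_
    simp only [hg, expChar1, Function.Periodic.qParam, Complex.ofReal_exp, one_div,
      ← Complex.exp_nat_mul, ← Complex.exp_neg]
    rw [mul_right_comm (Complex.exp _) _ (Complex.exp _), ← Complex.exp_add]
    congr 2
    push_cast
    linear_combination (2 * Real.pi * t * n : ℂ) * Complex.I_sq
  have hb := sum_norm_sq_le_integral hgc _ _ hc
  have hint : ∫ u in (0 : ℝ)..1, ‖g u‖ ^ 2 ≤ C ^ 2 / t := by
    calc ∫ u in (0 : ℝ)..1, ‖g u‖ ^ 2 ≤ ∫ _u in (0 : ℝ)..1, C ^ 2 / t := by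
          refine intervalIntegral.integral_mono zero_le_one
            ((hgc.norm.pow 2).intervalIntegrable 0 1) (continuous_const.intervalIntegrable 0 1)
            fun u => ?_
          show ‖f _‖ ^ 2 ≤ _
          refine (pow_le_pow_left₀ (norm_nonneg _) (hC _) 2).trans (le_of_eq ?_)
          have him : (⟨u + t * Complex.I, by simpa using ht0⟩ : ℍ).im = t := by
            simp [← UpperHalfPlane.coe_im]
          rw [him, div_pow, show ((1 : ℤ) : ℝ) / 2 = 1 / 2 by norm_num, ← Real.sqrt_eq_rpow,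
            Real.sq_sqrt ht0.le]
      _ = _ := by simp
  have hlow : Real.exp (-(4 * Real.pi)) * ∑ n ∈ Finset.range (X + 1), ‖qCoeff f n‖ ^ 2 ≤
      ∑ n ∈ Finset.range (X + 1), ‖qCoeff f n * Real.exp (-(2 * Real.pi * n * t))‖ ^ 2 := by
    rw [Finset.mul_sum]
    refine Finset.sum_le_sum fun n hn => ?_
    rw [norm_mul, Complex.norm_real, Real.norm_of_nonneg (Real.exp_pos _).le, mul_pow, mul_comm,
      ← Real.exp_nat_mul]
    refine mul_le_mul_of_nonneg_left (Real.exp_le_exp.mpr ?_) (sq_nonneg _)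
    have hnt : (n : ℝ) * t ≤ 1 := by
      have := Finset.mem_range.mp hn
      rw [ht, mul_one_div, div_le_one (by positivity)]
      exact_mod_cast this.le
    push_cast
    nlinarith [Real.pi_pos]
  have h := (hlow.trans hb).trans hint
  rw [ht, div_div_eq_mul_div, div_one, Real.exp_neg, inv_mul_le_iff₀ (Real.exp_pos _)] at h
  calc _ ≤ Real.exp (4 * Real.pi) * (C ^ 2 * ((X : ℝ) + 1)) := h
    _ = _ := by ring

/-- A dyadic comparison: mean square bound to Dirichlet series. -/
theorem exists_dirichlet_bound {b : ℕ → ℝ} (hb : ∀ n, 0 ≤ b n) {K : ℝ}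
    (hK : ∀ X : ℕ, ∑ n ∈ Finset.range (X + 1), b n ≤ K * (X + 1)) :
    ∃ D : ℝ, 0 < D ∧ ∀ s : ℝ, 1 < s → s ≤ 2 → ∀ F : Finset ℕ, (∀ n ∈ F, 1 ≤ n) →
      ∑ n ∈ F, b n * (n : ℝ) ^ (-s) ≤ D / (s - 1) := by
  have hK0 : 0 ≤ K := by
    have h := hK 0
    have h0 : (0 : ℝ) ≤ ∑ n ∈ Finset.range (0 + 1), b n := Finset.sum_nonneg fun n _ => hb n
    simp at h h0
    linarith
  have hl2 : 0 < Real.log 2 := Real.log_pos one_lt_two
  refine ⟨4 * K / Real.log 2 + 1, by positivity, fun s hs hs2 F hF => ?_⟩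
  set r : ℝ := (2 : ℝ) ^ (1 - s) with hr
  have hr0 : 0 < r := by positivity
  have hr1 : r < 1 := Real.rpow_lt_one_of_one_lt_of_neg one_lt_two (by linarith)
  obtain ⟨J, hJ⟩ : ∃ J : ℕ, ∀ n ∈ F, Nat.log 2 n < J :=
    ⟨F.sup (fun n => Nat.log 2 n) + 1, fun n hn =>
      Nat.lt_succ_of_le (Finset.le_sup (f := fun n => Nat.log 2 n) hn)⟩
  have hmap : ∀ n ∈ F, Nat.log 2 n ∈ Finset.range J := fun n hn => Finset.mem_range.mpr (hJ n hn)
  rw [← Finset.sum_fiberwise_of_maps_to hmap]
  have hblock : ∀ j ∈ Finset.range J,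
      ∑ n ∈ F with Nat.log 2 n = j, b n * (n : ℝ) ^ (-s) ≤ 2 * K * r ^ j := by
    intro j _
    have hsub : F.filter (fun n => Nat.log 2 n = j) ⊆ Finset.range (2 ^ (j + 1) - 1 + 1) := by
      intro n hn
      rw [Finset.mem_filter] at hn
      rw [Finset.mem_range, Nat.sub_add_cancel (Nat.one_le_two_pow), ← hn.2]
      exact Nat.lt_pow_succ_log_self one_lt_two n
    calc ∑ n ∈ F with Nat.log 2 n = j, b n * (n : ℝ) ^ (-s)
        ≤ ∑ n ∈ F with Nat.log 2 n = j, b n * ((2 : ℝ) ^ j) ^ (-s) := by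
          refine Finset.sum_le_sum fun n hn => mul_le_mul_of_nonneg_left ?_ (hb n)
          rw [Finset.mem_filter] at hn
          have hn1 := hF n hn.1
          have h2 : (2 : ℝ) ^ j ≤ n := by
            rw [← hn.2]
            exact_mod_cast Nat.pow_log_le_self 2 (by omega)
          exact Real.rpow_le_rpow_of_nonpos (by positivity) h2 (by linarith)
      _ = (∑ n ∈ F with Nat.log 2 n = j, b n) * ((2 : ℝ) ^ j) ^ (-s) := by rw [Finset.sum_mul]
      _ ≤ (K * (((2 ^ (j + 1) - 1 : ℕ) : ℝ) + 1)) * ((2 : ℝ) ^ j) ^ (-s) :=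
          mul_le_mul_of_nonneg_right
            ((Finset.sum_le_sum_of_subset_of_nonneg hsub fun n _ _ => hb n).trans (hK _))
            (by positivity)
      _ = 2 * K * r ^ j := by
          rw [Nat.cast_sub Nat.one_le_two_pow, Nat.cast_one, sub_add_cancel, Nat.cast_pow,
            Nat.cast_ofNat, hr, ← Real.rpow_natCast, ← Real.rpow_natCast, ← Real.rpow_natCast,
            ← Real.rpow_mul two_pos.le, ← Real.rpow_mul two_pos.le, mul_assoc,
            ← Real.rpow_add two_pos]
          push_cast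
          rw [show ((j : ℝ) + 1 + j * -s) = (1 - s) * j + 1 by ring, Real.rpow_add two_pos,
            Real.rpow_one]
          ring
  refine (Finset.sum_le_sum hblock).trans ?_
  rw [← Finset.mul_sum]
  have hgeom : ∑ j ∈ Finset.range J, r ^ j ≤ (1 - r)⁻¹ := (geom_sum_Ico_le_of_lt_one (m := 0) hr0.le hr1 |>.trans' (by rw [Finset.range_eq_Ico]) |>.trans (by rw [pow_zero, one_div]))
  have hx : (s - 1) * Real.log 2 / 2 ≤ 1 - r := by
    set x := (s - 1) * Real.log 2 with hx
    have hx0 : 0 < x := mul_pos (by linarith) hl2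
    have hx1 : x ≤ 1 := by
      have := Real.log_two_lt_d9
      nlinarith
    have hre : r = (Real.exp x)⁻¹ := by
      rw [hr, Real.rpow_def_of_pos two_pos, ← Real.exp_neg, hx]
      congr 1
      ring
    have h1 := Real.add_one_le_exp x
    rw [hre, show (1 : ℝ) - (Real.exp x)⁻¹ = (Real.exp x - 1) / Real.exp x by field_simp,
      le_div_iff₀ (Real.exp_pos x)]
    nlinarith [Real.exp_pos x]
  have hinv : (1 - r)⁻¹ ≤ 2 / Real.log 2 / (s - 1) := by
    refine (inv_anti₀ (by positivity) hx).trans (le_of_eq ?_)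
    field_simp
  calc 2 * K * ∑ j ∈ Finset.range J, r ^ j ≤ 2 * K * (2 / Real.log 2 / (s - 1)) :=
        mul_le_mul_of_nonneg_left (hgeom.trans hinv) (by linarith)
    _ ≤ (4 * K / Real.log 2 + 1) / (s - 1) := by
        rw [show 2 * K * (2 / Real.log 2 / (s - 1)) = (4 * K / Real.log 2) / (s - 1) by ring]
        exact div_le_div_of_nonneg_right (le_add_of_nonneg_right zero_le_one) (by linarith)

/-- Coefficients are multiplicative on squarefree products of good primes. -/
theorem qCoeff_prod_primes (ε : DirichletCharacter ℂ N) (f : CuspForm (Gamma1 N) 1)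
    (hf₁ : qCoeff f 1 = 1)
    (hT : ∀ p : ℕ, p.Prime → ¬ p ∣ N → ∀ n : ℕ,
      qCoeff f (p * n) + ε (p : ZMod N) * (if p ∣ n then qCoeff f (n / p) else 0) =
        qCoeff f p * qCoeff f n)
    (T : Finset {p : Nat.Primes // ¬ (p : ℕ) ∣ N}) :
    qCoeff f (∏ p ∈ T, ((p : Nat.Primes) : ℕ)) = ∏ p ∈ T, qCoeff f ((p : Nat.Primes) : ℕ) := by
  classical
  induction T using Finset.induction_on with
  | empty => simpa using hf₁
  | insert a T ha ih =>
    have hnd : ¬ ((a : Nat.Primes) : ℕ) ∣ ∏ p ∈ T, ((p : Nat.Primes) : ℕ) := by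
      rw [(a.1.2.prime).dvd_finsetProd_iff]
      rintro ⟨b, hb, hab⟩
      have := (Nat.prime_dvd_prime_iff_eq a.1.2 b.1.2).mp hab
      exact ha ((Subtype.ext (Subtype.ext this) : a = b) ▸ hb)
    have h := hT _ a.1.2 a.2 (∏ p ∈ T, ((p : Nat.Primes) : ℕ))
    rw [if_neg hnd, mul_zero, add_zero, ih] at h
    rw [Finset.prod_insert ha, Finset.prod_insert ha, h]

/-- **Rankin's bound** for a weight one eigenform. -/
theorem exists_primeSum_bound (N : ℕ) [NeZero N] (ε : DirichletCharacter ℂ N)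
    (f : CuspForm (Gamma1 N) 1) (hf₁ : qCoeff f 1 = 1)
    (hT : ∀ p : ℕ, p.Prime → ¬ p ∣ N → ∀ n : ℕ,
      qCoeff f (p * n) + ε (p : ZMod N) * (if p ∣ n then qCoeff f (n / p) else 0) =
        qCoeff f p * qCoeff f n)
    (c : ℝ) (hc : 0 ≤ c) :
    ∃ B : ℝ, ∀ s : ℝ, 1 < s → s ≤ 2 →
      ∑' p : {p : Nat.Primes // ¬ (p : ℕ) ∣ N},
        min (‖qCoeff f (p : Nat.Primes)‖ ^ 2) c * ((p : Nat.Primes) : ℝ) ^ (-s) ≤
          Real.log (1 / (s - 1)) + B := by
  classical
  obtain ⟨K, hK⟩ := exists_sum_sq_le f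
  obtain ⟨D, hD, hsum⟩ := exists_dirichlet_bound (fun n => sq_nonneg ‖qCoeff f n‖) hK
  have hz : Summable fun n : ℕ => 1 / (n : ℝ) ^ 2 := Real.summable_one_div_nat_pow.mpr one_lt_two
  refine ⟨Real.log D + c ^ 2 / 2 * ∑' n : ℕ, 1 / (n : ℝ) ^ 2, fun s hs hs2 => ?_⟩
  set x : {p : Nat.Primes // ¬ (p : ℕ) ∣ N} → ℝ := fun p =>
    min (‖qCoeff f (p : Nat.Primes)‖ ^ 2) c * ((p : Nat.Primes) : ℝ) ^ (-s) with hx
  have hx0 : ∀ p, 0 ≤ x p := fun p => mul_nonneg (le_min (sq_nonneg _) hc) (by positivity)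
  have hfin : ∀ F : Finset {p : Nat.Primes // ¬ (p : ℕ) ∣ N},
      ∑ p ∈ F, x p ≤ Real.log (1 / (s - 1)) + (Real.log D + c ^ 2 / 2 * ∑' n : ℕ, 1 / (n : ℝ) ^ 2) := by
    intro F
    let P : Finset {p : Nat.Primes // ¬ (p : ℕ) ∣ N} → ℕ := fun T => ∏ p ∈ T, ((p : Nat.Primes) : ℕ)
    have hPinj : Function.Injective P := by
      intro T T' h
      have key : ∀ T : Finset {p : Nat.Primes // ¬ (p : ℕ) ∣ N}, ∀ a,
          a ∈ T ↔ ((a : Nat.Primes) : ℕ) ∣ P T := fun T a => by
        refine ⟨fun ha => Finset.dvd_prod_of_mem _ ha, fun ha => ?_⟩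
        obtain ⟨b, hb, hab⟩ := (a.1.2.prime.dvd_finsetProd_iff _).mp ha
        exact (Subtype.ext (Subtype.ext ((Nat.prime_dvd_prime_iff_eq a.1.2 b.1.2).mp hab)) :
          a = b) ▸ hb
      exact Finset.ext fun a => by rw [key, key, h]
    have hprod : ∏ p ∈ F, (1 + x p) ≤ D / (s - 1) := by
      rw [Finset.prod_one_add]
      calc ∑ T ∈ F.powerset, ∏ p ∈ T, x p
          ≤ ∑ T ∈ F.powerset, ‖qCoeff f (P T)‖ ^ 2 * ((P T : ℕ) : ℝ) ^ (-s) := by
            refine Finset.sum_le_sum fun T _ => ?_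
            rw [show P T = ∏ p ∈ T, ((p : Nat.Primes) : ℕ) from rfl,
              qCoeff_prod_primes ε f hf₁ hT T, norm_prod, ← Finset.prod_pow, Nat.cast_prod,
              ← Real.finsetProd_rpow _ _ (fun p _ => Nat.cast_nonneg _), ← Finset.prod_mul_distrib]
            exact Finset.prod_le_prod (fun p _ => hx0 p) fun p _ =>
              mul_le_mul_of_nonneg_right (min_le_left _ _) (by positivity)
        _ = ∑ n ∈ F.powerset.image P, ‖qCoeff f n‖ ^ 2 * (n : ℝ) ^ (-s) := by
            rw [Finset.sum_image (hPinj.injOn)]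
        _ ≤ D / (s - 1) := hsum s hs hs2 _ fun n hn => by
            obtain ⟨T, -, rfl⟩ := Finset.mem_image.mp hn
            exact Finset.prod_pos (fun (p : {p : Nat.Primes // ¬ (p : ℕ) ∣ N}) _ => p.1.2.pos)
    have hlog : ∑ p ∈ F, (x p - x p ^ 2 / 2) ≤ Real.log (D / (s - 1)) := by
      refine le_trans ?_ (Real.log_le_log (Finset.prod_pos fun p _ => by linarith [hx0 p]) hprod)
      rw [Real.log_prod fun p _ => by linarith [hx0 p]]
      refine Finset.sum_le_sum fun p _ => le_trans ?_ (Real.le_log_one_add_of_nonneg (hx0 p))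
      rw [le_div_iff₀ (by linarith [hx0 p])]
      nlinarith [hx0 p, sq_nonneg (x p)]
    have hsq : ∑ p ∈ F, x p ^ 2 / 2 ≤ c ^ 2 / 2 * ∑' n : ℕ, 1 / (n : ℝ) ^ 2 := by
      have hle : ∀ p ∈ F, x p ^ 2 / 2 ≤ c ^ 2 / 2 * (1 / (((p : Nat.Primes) : ℕ) : ℝ) ^ 2) := by
        intro p _
        have hp1 : (1 : ℝ) ≤ (((p : Nat.Primes) : ℕ) : ℝ) := by exact_mod_cast p.1.2.one_le
        have h1 : x p ≤ c * (1 / (((p : Nat.Primes) : ℕ) : ℝ)) := by
          refine mul_le_mul (min_le_right _ _) ?_ (by positivity) hc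
          rw [one_div, ← Real.rpow_neg_one]
          exact Real.rpow_le_rpow_of_exponent_le hp1 (by linarith)
        calc x p ^ 2 / 2 ≤ (c * (1 / (((p : Nat.Primes) : ℕ) : ℝ))) ^ 2 / 2 := by
              have := pow_le_pow_left₀ (hx0 p) h1 2
              linarith
          _ = _ := by ring
      refine (Finset.sum_le_sum hle).trans ?_
      rw [← Finset.mul_sum]
      refine mul_le_mul_of_nonneg_left ?_ (by positivity)
      rw [← Finset.sum_image (f := fun n : ℕ => 1 / (n : ℝ) ^ 2)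
        (g := fun p : {p : Nat.Primes // ¬ (p : ℕ) ∣ N} => ((p : Nat.Primes) : ℕ))
        (fun a _ b _ h => Subtype.ext (Subtype.ext h))]
      exact hz.sum_le_tsum _ fun n _ => by positivity
    rw [Finset.sum_sub_distrib, Real.log_div hD.ne' (by linarith)] at hlog
    rw [one_div, Real.log_inv]
    linarith
  exact Real.tsum_le_of_sum_le hx0 hfin

end FLTAgent.WeightOne
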