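import Fermat.Agent.WeightOne.Rational
import Fermat.Agent.WeightOne.Rankin
import Fermat.Agent.WeightOne.Cheb
import Fermat.Agent.WeightOne.Matrices
import Fermat.Agent.DS.GroupBoundMain
import Fermat.Agent.IntStr.FieldAut
import Fermat.Agent.GalCommon.Basic

/-!
# The residual images are bounded

`Model` packages an algebraic model of a weight one eigen system. `Model.exists_image_bound`: the
images of its residual representations have order bounded independently of `ℓ`. By Rankin's bound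
for the conjugate forms the primes with some large conjugate eigenvalue have small density
(`Model.exists_large_bound`); by Chebotarev's lower bound most of the image then has its trace and
determinant in a fixed finite set, and the group theoretic bound `DS.card_le_groupBound` applies.
-/

set_option autoImplicit false
set_option linter.style.haveILetI false

noncomputable section

open CongruenceSubgroup
open scoped MatrixGroups
open IsLocalRing (maximalIdeal ResidueField residue)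

local notation "ℚ̄" => AlgebraicClosure ℚ
local notation "Γℚ" => (AlgebraicClosure ℚ ≃ₐ[ℚ] AlgebraicClosure ℚ)

namespace FLTAgent.WeightOne

open ModularFormClass (qCoeff)

/-- An algebraic model of an eigen system of weight one. -/
structure Model (N : ℕ) [NeZero N] (ε : DirichletCharacter ℂ N) (a : ℕ → ℂ) where
  K : IntermediateField ℚ ℂ
  finite : FiniteDimensional ℚ K
  form : CuspForm (Gamma1 N) 1
  D : ℕ
  D_pos : 0 < D
  one : qCoeff form 1 = 1
  neb : DS.HasNebentypus 1 ε ⇑form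
  coeff : ∀ n : ℕ, qCoeff form n ∈ K ∧ IsIntegral ℤ ((D : ℂ) * qCoeff form n)
  eig : ∀ p : ℕ, p.Prime → ¬ p ∣ N → qCoeff form p = a p ∧ IsIntegral ℤ (a p)
  eps_mem : ∀ x : ZMod N, ε x ∈ K
  rel : EigenRel N (fun p => ε (p : ZMod N)) a (fun n => qCoeff form n)
  conj : ∀ σ : ℂ →+* ℂ, ∃ g : CuspForm (Gamma1 N) 1, ∀ n : ℕ, qCoeff g n = σ (qCoeff form n)

variable {N : ℕ} [NeZero N] {ε : DirichletCharacter ℂ N} {a : ℕ → ℂ}

theorem Model.a_mem (M : Model N ε a) {p : ℕ} (hp : p.Prime) (hpN : ¬ p ∣ N) : a p ∈ M.K :=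
  (M.eig p hp hpN).1 ▸ (M.coeff p).1

theorem isIntegral_eps (ε : DirichletCharacter ℂ N) (x : ZMod N) : IsIntegral ℤ (ε x) := by
  by_cases hx : IsUnit x
  · obtain ⟨u, rfl⟩ := hx
    refine IsIntegral.of_pow (n := Fintype.card (ZMod N)ˣ) Fintype.card_pos ?_
    rw [← map_pow, ← Units.val_pow_eq_pow_val, pow_card_eq_one, Units.val_one, map_one]
    exact isIntegral_one
  · rw [MulChar.map_nonunit ε hx]
    exact isIntegral_zero

/-- Comparing the leading terms. -/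
theorem le_of_forall_log_le {r η B B' : ℝ}
    (h : ∀ s : ℝ, 1 < s → s ≤ 2 →
      r * Real.log (1 / (s - 1)) - B ≤ η * Real.log (1 / (s - 1)) + B') : r ≤ η := by
  by_contra hlt
  push Not at hlt
  obtain ⟨L, hL0, hL⟩ : ∃ L : ℝ, 0 ≤ L ∧ B + B' < (r - η) * L := by
    refine ⟨max 0 ((B + B') / (r - η) + 1), le_max_left _ _, ?_⟩
    have h1 : 0 < r - η := sub_pos.mpr hlt
    have h2 := le_max_right 0 ((B + B') / (r - η) + 1)
    have h3 := mul_le_mul_of_nonneg_left h2 h1.le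
    rw [mul_add, mul_one, mul_div_cancel₀ _ h1.ne'] at h3
    linarith
  have he : Real.exp (-L) ≤ 1 := by rw [Real.exp_le_one_iff]; linarith
  have h1 := h (1 + Real.exp (-L)) (by linarith [Real.exp_pos (-L)]) (by linarith)
  rw [add_sub_cancel_left, one_div, ← Real.exp_neg, neg_neg, Real.log_exp] at h1
  linarith

theorem summable_primes_rpow {s : ℝ} (hs : 1 < s) (T : Set Nat.Primes) :
    Summable fun p : T => ((p : Nat.Primes) : ℝ) ^ (-s) :=
  (Nat.Primes.summable_rpow.mpr (by linarith)).subtype T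

/-- The primes at which some conjugate of `a p` is large have small density. -/
theorem Model.exists_large_bound (M : Model N ε a) {c : ℝ} (hc : 0 < c) :
    ∃ B : ℝ, ∀ (T : Set Nat.Primes),
      (∀ p ∈ T, ∃ (hpN : ¬ (p : ℕ) ∣ N), ∃ σ : M.K →+* ℂ,
        c ≤ ‖σ ⟨a p, M.a_mem p.2 hpN⟩‖ ^ 2) →
      ∀ s : ℝ, 1 < s → s ≤ 2 → ∑' p : T, ((p : Nat.Primes) : ℝ) ^ (-s) ≤
        (Module.finrank ℚ M.K : ℝ) / c * Real.log (1 / (s - 1)) + B := by
  classical
  haveI := M.finite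
  haveI : NumberField M.K := { }
  haveI : Countable M.K := by
    rw [← Cardinal.mk_le_aleph0_iff]
    exact (Algebra.IsAlgebraic.cardinalMk_le_max ℚ M.K).trans (by simp)
  have hext : ∀ σ : M.K →+* ℂ, ∃ τ : ℂ →+* ℂ, ∀ x : M.K, τ (x : ℂ) = σ x := fun σ => by
    obtain ⟨τ, hτ⟩ := IntStr.exists_ringEquiv_complex_of_two_homs (R := M.K)
      (algebraMap M.K ℂ) σ (RingHom.injective _) σ.injective
    exact ⟨τ, fun x => hτ x⟩
  choose τ hτ using hext
  choose g hg using fun σ => M.conj (τ σ)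
  have hgT : ∀ σ, ∀ p : ℕ, p.Prime → ¬ p ∣ N → ∀ n : ℕ,
      qCoeff (g σ) (p * n) + ((τ σ).comp (RingHom.id ℂ)) (ε (p : ZMod N)) *
        (if p ∣ n then qCoeff (g σ) (n / p) else 0) = qCoeff (g σ) p * qCoeff (g σ) n := by
    intro σ p hp hpN n
    simp only [hg, RingHom.comp_id, (M.eig p hp hpN).1]
    rw [← map_zero (τ σ), ← apply_ite (τ σ), ← map_mul, ← map_add, ← map_mul]
    exact congrArg _ (M.rel p hp hpN n)
  have hB : ∀ σ, ∃ B : ℝ, ∀ s : ℝ, 1 < s → s ≤ 2 →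
      ∑' p : {p : Nat.Primes // ¬ (p : ℕ) ∣ N},
        min (‖qCoeff (g σ) (p : Nat.Primes)‖ ^ 2) c * ((p : Nat.Primes) : ℝ) ^ (-s) ≤
      Real.log (1 / (s - 1)) + B := fun σ =>
    exists_primeSum_bound N (ε.ringHomComp ((τ σ).comp (RingHom.id ℂ))) (g σ)
      (by rw [hg, M.one, map_one]) (fun p hp hpN n => hgT σ p hp hpN n) c hc.le
  choose B hB using hB
  refine ⟨(∑ σ, B σ) / c, fun T hT s hs hs2 => ?_⟩
  have hsum : ∀ σ : M.K →+* ℂ, Summable fun p : {p : Nat.Primes // ¬ (p : ℕ) ∣ N} =>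
      min (‖qCoeff (g σ) (p : Nat.Primes)‖ ^ 2) c * ((p : Nat.Primes) : ℝ) ^ (-s) := fun σ =>
    Summable.of_nonneg_of_le (fun p => by positivity)
      (fun p => mul_le_mul_of_nonneg_right (min_le_right _ _) (by positivity))
      (((summable_primes_rpow hs {p | ¬ (p : ℕ) ∣ N})).mul_left c)
  let e : T → {p : Nat.Primes // ¬ (p : ℕ) ∣ N} := fun p => ⟨p.1, (hT p.1 p.2).1⟩
  have he : Function.Injective e := fun x y h => Subtype.ext (congrArg Subtype.val h :)
  have key : ∑' p : T, ((p : Nat.Primes) : ℝ) ^ (-s) ≤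
      ∑' p : {p : Nat.Primes // ¬ (p : ℕ) ∣ N}, c⁻¹ * ∑ σ : M.K →+* ℂ,
        min (‖qCoeff (g σ) (p : Nat.Primes)‖ ^ 2) c * ((p : Nat.Primes) : ℝ) ^ (-s) := by
    refine Summable.tsum_le_tsum_of_inj e he (fun p _ => by positivity) (fun p => ?_)
      (summable_primes_rpow hs T) ((summable_sum fun σ _ => hsum σ).mul_left _)
    obtain ⟨hpN, σ, hσ⟩ := hT p.1 p.2
    have h1 : ‖qCoeff (g σ) (p.1 : ℕ)‖ ^ 2 = ‖σ ⟨a p.1, M.a_mem p.1.2 hpN⟩‖ ^ 2 := by
      rw [hg, (M.eig _ p.1.2 hpN).1]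
      exact congrArg (fun z => ‖z‖ ^ 2) (hτ σ ⟨a p.1, M.a_mem p.1.2 hpN⟩)
    have h2 : c * ((p.1 : Nat.Primes) : ℝ) ^ (-s) ≤ ∑ σ' : M.K →+* ℂ,
        min (‖qCoeff (g σ') ((e p : {p : Nat.Primes // ¬ (p : ℕ) ∣ N}) : Nat.Primes)‖ ^ 2) c *
          (((e p : {p : Nat.Primes // ¬ (p : ℕ) ∣ N}) : Nat.Primes) : ℝ) ^ (-s) := by
      refine le_trans (le_of_eq ?_) (Finset.single_le_sum (fun σ' _ => by positivity)
        (Finset.mem_univ σ))
      show c * _ = min (‖qCoeff (g σ) (p.1 : ℕ)‖ ^ 2) c * _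
      rw [min_eq_right (h1 ▸ hσ)]
    have h3 := mul_le_mul_of_nonneg_left h2 (inv_nonneg.mpr hc.le)
    rwa [← mul_assoc, inv_mul_cancel₀ hc.ne', one_mul] at h3
  refine key.trans ?_
  rw [tsum_mul_left, Summable.tsum_finsetSum fun σ _ => hsum σ]
  refine (mul_le_mul_of_nonneg_left (Finset.sum_le_sum fun σ _ => hB σ s hs hs2)
    (inv_nonneg.mpr hc.le)).trans (le_of_eq ?_)
  rw [Finset.sum_add_distrib, Finset.sum_const, Finset.card_univ,
    NumberField.Embeddings.card M.K ℂ, nsmul_eq_mul]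
  field_simp

variable {O : Type} [CommRing O] [IsDomain O] [IsDiscreteValuationRing O]
  [IsAdicComplete (maximalIdeal O) O]

/-- The properties of a residual representation of the system. -/
def IsResidualOf (N : ℕ) (ε : DirichletCharacter ℂ N) (a : ℕ → ℂ) (ℓ : ℕ) (ι : O →+* ℂ)
    (ρ : Γℚ →* GL (Fin 2) (ResidueField O)) : Prop :=
  GaloisFactorsThroughFiniteLevel ρ ∧ DS.SemisimpleTwo ρ ∧
    ∀ p : ℕ, p.Prime → ¬ p ∣ N * ℓ →
      ∀ P : ValuationSubring ℚ̄, P.LiesOverPrime p →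
        (∀ σ ∈ P.inertiaSubgroupIn ℚ, ρ σ = 1) ∧
        ∀ σ : Γℚ, P.IsFrobeniusAt σ p → ∀ x e : O, ι x = a p → ι e = ε (p : ZMod N) →
          ((ρ σ : GL (Fin 2) (ResidueField O)) :
            Matrix (Fin 2) (Fin 2) (ResidueField O)).trace = residue O x ∧
          ((ρ σ : GL (Fin 2) (ResidueField O)) :
            Matrix (Fin 2) (Fin 2) (ResidueField O)).det = residue O e

/-- **The residual images are bounded.** -/
theorem Model.exists_image_bound (M : Model N ε a) : ∃ A : ℕ, N ≤ A ∧ M.D ≤ A ∧ 2 ≤ A ∧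
    ∀ (ℓ : ℕ) [Fact ℓ.Prime], A < ℓ →
      ∀ (O : Type) [CommRing O] [IsDomain O] [IsDiscreteValuationRing O]
        [IsAdicComplete (maximalIdeal O) O] [Finite (ResidueField O)] (ι : O →+* ℂ),
        Function.Injective ι → (ℓ : O) ∈ maximalIdeal O →
        (∀ x : ℂ, x ∈ M.K → IsIntegral ℤ x → x ∈ ι.range) →
        ∀ ρ : Γℚ →* GL (Fin 2) (ResidueField O), IsResidualOf N ε a ℓ ι ρ →
          Nat.card ρ.range ≤ A := by
  classical
  haveI := M.finite
  haveI : NumberField M.K := { }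
  set d := Module.finrank ℚ M.K
  have hd : 0 < d := Module.finrank_pos
  set c : ℝ := 16 * d with hcdef
  have hc : 0 < c := by positivity
  obtain ⟨BL, hBL⟩ := M.exists_large_bound hc
  let X : Set ℂ := (fun x : M.K => (x : ℂ)) ''
    {x | IsIntegral ℤ x ∧ ∀ φ : M.K →+* ℂ, ‖φ x‖ ≤ Real.sqrt c}
  have hX : X.Finite := (NumberField.Embeddings.finite_of_norm_le M.K ℂ (Real.sqrt c)).image _
  let E : Set ℂ := Set.range fun u : (ZMod N)ˣ => ε (u : ZMod N)
  let P0 : Set (ℂ × ℂ) := X ×ˢ E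
  let Pf : Set (ℂ × ℂ) := P0 ∪ (fun te : ℂ × ℂ => (te.1 * te.2⁻¹, te.2⁻¹)) '' P0
  have hPf : Pf.Finite :=
    ((hX.prod (Set.finite_range _))).union ((hX.prod (Set.finite_range _)).image _)
  have hE : ∀ e ∈ E, e ≠ 0 ∧ e ∈ M.K ∧ IsIntegral ℤ e ∧ e⁻¹ ∈ E := by
    rintro _ ⟨u, rfl⟩
    refine ⟨(u.isUnit.map ε).ne_zero, M.eps_mem _, isIntegral_eps ε _, u⁻¹, ?_⟩
    refine eq_inv_of_mul_eq_one_left ?_
    rw [← map_mul, ← Units.val_mul, inv_mul_cancel, Units.val_one, map_one]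
  have hXK : ∀ x ∈ X, x ∈ M.K ∧ IsIntegral ℤ x := by
    rintro _ ⟨y, ⟨hy, -⟩, rfl⟩
    exact ⟨y.2, hy.map (M.K.val.toRingHom.toIntAlgHom)⟩
  have hPfK : ∀ te ∈ Pf, te.2 ≠ 0 ∧ te.1 ∈ M.K ∧ IsIntegral ℤ te.1 ∧ te.2 ∈ M.K ∧
      IsIntegral ℤ te.2 := by
    rintro te (⟨hx, he⟩ | ⟨⟨x, e⟩, ⟨hx, he⟩, rfl⟩)
    · obtain ⟨h0, h1, h2, -⟩ := hE _ he
      obtain ⟨h3, h4⟩ := hXK _ hx
      exact ⟨h0, h3, h4, h1, h2⟩
    · obtain ⟨-, -, -, hinv⟩ := hE _ he
      obtain ⟨h0, h1, h2, -⟩ := hE _ hinv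
      obtain ⟨h3, h4⟩ := hXK _ hx
      exact ⟨h0, mul_mem h3 h1, h4.mul h2, h1, h2⟩
  have hPfinv : ∀ te ∈ Pf, (te.1 * te.2⁻¹, te.2⁻¹) ∈ Pf := by
    rintro te (h | ⟨⟨x, e⟩, ⟨hx, he⟩, rfl⟩)
    · exact Or.inr ⟨te, h, rfl⟩
    · left
      have h0 := (hE _ he).1
      simp only [inv_inv, mul_assoc, inv_mul_cancel₀ h0, mul_one]
      exact ⟨hx, he⟩
  let Mc := hPf.toFinset.card
  refine ⟨max (max (DS.groupBound Mc) N) (max M.D 2),
    le_trans (le_max_right _ _) (le_max_left _ _), le_trans (le_max_left _ _) (le_max_right _ _),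
    le_trans (le_max_right _ _) (le_max_right _ _), ?_⟩
  intro ℓ hℓp hℓ O _ _ _ _ _ ι hι hℓO hint ρ hρ
  have hℓ' : ℓ.Prime := hℓp.out
  haveI : CharP (ResidueField O) ℓ := (CharP.charP_iff_prime_eq_zero hℓ').mpr (by
    rw [← map_natCast (residue O), IsLocalRing.residue_eq_zero_iff]; exact hℓO)
  -- the reduction of algebraic integers
  let red : ℂ → ResidueField O := fun z => residue O (Function.invFun ι z)
  have hred : ∀ (x : O) (z : ℂ), ι x = z → red z = residue O x := fun x z h => by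
    subst h
    exact congrArg _ (Function.leftInverse_invFun hι x)
  let S : Finset (ResidueField O × ResidueField O) :=
    hPf.toFinset.image fun te => (red te.1, red te.2)
  -- the image
  obtain ⟨hρL, hss, hfrob⟩ := hρ
  haveI : Finite (GL (Fin 2) (ResidueField O)) := inferInstance
  let j : ρ.range →* GL (Fin 2) (ResidueField O) := ρ.range.subtype
  have hjss : DS.SemisimpleTwo j := fun v hv hl => by
    obtain ⟨w, hw, hw'⟩ := hss v hv fun g => hl ⟨ρ g, g, rfl⟩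
    exact ⟨w, hw, fun ⟨_, g, rfl⟩ => hw' g⟩
  let C : Set ρ.range := {g | DS.trDet j g ∉ S}
  have hconj : ∀ g h : ρ.range, g ∈ C → h * g * h⁻¹ ∈ C := fun g h hg => by
    have h1 := DS.trace_det_smul j (ConjAct.toConjAct h) g
    rw [ConjAct.smul_def, ConjAct.ofConjAct_toConjAct] at h1
    show DS.trDet j _ ∉ S
    rw [DS.trDet, h1.1, h1.2]
    exact hg
  have hinv : ∀ g : ρ.range, g ∈ C → g⁻¹ ∈ C := by
    intro g hg hgS
    refine hg ?_
    obtain ⟨te, hte, heq⟩ := Finset.mem_image.mp hgS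
    rw [Set.Finite.mem_toFinset] at hte
    obtain ⟨h0, h1, h2, h3, h4⟩ := hPfK te hte
    obtain ⟨x, hx⟩ := hint _ h1 h2
    obtain ⟨e, he⟩ := hint _ h3 h4
    obtain ⟨-, -, -, h7, h8⟩ := hPfK _ (hPfinv te hte)
    obtain ⟨e', he'⟩ := hint _ h7 h8
    have hee : e * e' = 1 := hι (by rw [map_mul, he, he', mul_inv_cancel₀ h0, map_one])
    refine Finset.mem_image.mpr ⟨_, (Set.Finite.mem_toFinset _).mpr (hPfinv te hte), ?_⟩
    rw [hred x te.1 hx, hred e te.2 he] at heq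
    rw [hred (x * e') (te.1 * te.2⁻¹) (by rw [map_mul, hx, he']), hred e' te.2⁻¹ he']
    -- the characteristic polynomial of the inverse
    set m := DS.mat j g with hm
    set n := DS.mat j g⁻¹ with hn
    have hnm : n * m = 1 := by rw [hn, hm, ← DS.mat_mul, inv_mul_cancel, DS.mat_one]
    have hm' : m = n⁻¹ := (Matrix.inv_eq_right_inv hnm).symm
    have heq1 : residue O x = n.trace := congrArg Prod.fst heq
    have heq2 : residue O e = n.det := congrArg Prod.snd heq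
    have he'r : residue O e' = n.det⁻¹ := by
      refine eq_inv_of_mul_eq_one_right ?_
      rw [← heq2, ← map_mul, hee, map_one]
    show (residue O (x * e'), residue O e') = (m.trace, m.det)
    rw [map_mul, he'r, heq1, hm', Matrix.det_nonsing_inv, Ring.inverse_eq_inv', Matrix.inv_def,
      Matrix.trace_smul, Ring.inverse_eq_inv', Matrix.adjugate_fin_two, Matrix.trace_fin_two,
      Matrix.trace_fin_two]
    refine Prod.ext ?_ rfl
    simp [mul_comm, add_comm]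
  -- primes with Frobenius in `C`
  set Sbad : Finset ℕ := (N * ℓ).primeFactors
  obtain ⟨B, hB⟩ := exists_lower_density ρ.rangeRestrict
    (by obtain ⟨L, hL, hL'⟩ := hρL; exact ⟨L, hL, fun σ hσ => Subtype.ext (hL' σ hσ)⟩)
    ρ.rangeRestrict_surjective C hconj hinv Sbad (δ := 1 / 16) (by norm_num)
  have hT : ∀ p ∈ frobSet ρ.rangeRestrict C Sbad, ∃ (hpN : ¬ (p : ℕ) ∣ N), ∃ σ : M.K →+* ℂ,
      c ≤ ‖σ ⟨a p, M.a_mem p.2 hpN⟩‖ ^ 2 := by
    rintro p ⟨hpS, hpC⟩
    have hpM : ¬ (p : ℕ) ∣ N * ℓ := fun hd => hpS (Nat.mem_primeFactors.mpr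
      ⟨p.2, hd, mul_ne_zero (NeZero.ne N) hℓ'.ne_zero⟩)
    have hpN : ¬ (p : ℕ) ∣ N := fun hd => hpM (hd.trans (dvd_mul_right N ℓ))
    refine ⟨hpN, ?_⟩
    by_contra hall
    push Not at hall
    obtain ⟨A, hA, σ, hσ⟩ := GalCommon.exists_place_frobenius p.2
    obtain ⟨hap, hapi⟩ := M.eig p p.2 hpN
    obtain ⟨x, hx⟩ := hint _ (M.a_mem p.2 hpN) hapi
    obtain ⟨e, he⟩ := hint _ (M.eps_mem _) (isIntegral_eps ε ((p : ℕ) : ZMod N))
    obtain ⟨htr, hdet⟩ := (hfrob p p.2 hpM A hA).2 σ hσ x e hx he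
    refine hpC A σ hA hσ (Finset.mem_image.mpr ⟨(a p, ε ((p : ℕ) : ZMod N)),
      (Set.Finite.mem_toFinset _).mpr (Or.inl ⟨⟨⟨a p, M.a_mem p.2 hpN⟩, ⟨?_, fun φ => ?_⟩, rfl⟩,
        (ZMod.unitOfCoprime p ((Nat.Prime.coprime_iff_not_dvd p.2).mpr hpN)), rfl⟩), ?_⟩)
    · exact (isIntegral_algHom_iff (f := (M.K.val.restrictScalars ℤ)) Subtype.val_injective).mp hapi
    · rw [Real.le_sqrt (norm_nonneg _) hc.le]
      exact (hall φ).le
    · show (red (a p), red (ε ((p : ℕ) : ZMod N))) = _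
      rw [hred x _ hx, hred e _ he]
      exact Prod.ext htr.symm hdet.symm
  -- the density inequality
  have hr : (Nat.card C : ℝ) / Nat.card ρ.range - 1 / 16 ≤ 1 / 16 := by
    refine le_of_forall_log_le (B := B) (B' := BL) fun s hs hs2 => ?_
    refine (hB s hs hs2).trans ((hBL _ hT s hs hs2).trans (le_of_eq ?_))
    rw [hcdef]
    have hd0 : (Module.finrank ℚ ↥M.K : ℝ) ≠ 0 := by exact_mod_cast hd.ne'
    simp only [d]
    field_simp
  have hbad : 8 * Nat.card C ≤ Nat.card ρ.range := by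
    have hn : (0 : ℝ) < Nat.card ρ.range := by exact_mod_cast Nat.card_pos
    rw [sub_le_iff_le_add, div_le_iff₀ hn] at hr
    have h8 : (8 : ℝ) * Nat.card C ≤ Nat.card ρ.range := by linarith
    exact_mod_cast h8
  refine (DS.card_le_groupBound (ρ := j) Subtype.val_injective hjss S (M := Mc) ?_ hbad
    (lt_of_le_of_lt (le_trans (le_max_left _ _) (le_max_left _ _)) hℓ)).trans
      (le_trans (le_max_left _ _) (le_max_left _ _))
  exact Finset.card_image_le

end FLTAgent.WeightOne
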