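import Fermat.Agent.WeightOne.Defs

/-!
# The Hecke relations force the character

`hasNebentypus_of_eigenRel`: a normalised cusp form of weight one on `Γ₁(N)` whose coefficients
satisfy the Hecke relations for `ε` at the primes `p ∤ N` has Nebentypus `ε`;
`odd_of_nebentypus`: a nonzero such form has `ε (-1) = -1`.

Idea: for `γ ∈ Γ₀(N)` and a prime `p ≡ d mod N`, the sum `∑_j f|(1 j; 0 p) + (f|γ)|(p 0; 0 1)` is
`Γ₁(N)`-invariant, so the relations make `h = f|γ - ε(p) f` invariant under `Γ₁(N)` and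
`(1 0; N/p 1)`. That group contains an upper triangular matrix with corner `p⁻ᵏ`, so `h = 0` by
the exponential decay at infinity. A prime `p` in each class comes from Dirichlet's theorem.
-/

set_option autoImplicit false
set_option linter.unusedSectionVars false

noncomputable section

open CongruenceSubgroup UpperHalfPlane Matrix.SpecialLinearGroup
open scoped MatrixGroups ModularForm Manifold

namespace FLTAgent.WeightOne

open ModularFormClass (qCoeff)

/-- The element of `GL₂(ℝ)` with the given entries. -/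
def realGL (a b c d : ℝ) (h : a * d - b * c ≠ 0) : GL (Fin 2) ℝ :=
  Matrix.GeneralLinearGroup.mkOfDetNeZero !![a, b; c, d] (by rwa [Matrix.det_fin_two_of])

theorem coe_realGL {a b c d : ℝ} (h : a * d - b * c ≠ 0) :
    (↑(realGL a b c d h) : Matrix (Fin 2) (Fin 2) ℝ) = !![a, b; c, d] := rfl

theorem coe_mapGL' (γ : SL(2, ℤ)) :
    (↑(mapGL ℝ γ : GL (Fin 2) ℝ) : Matrix (Fin 2) (Fin 2) ℝ) =
      !![((γ 0 0 : ℤ) : ℝ), ((γ 0 1 : ℤ) : ℝ); ((γ 1 0 : ℤ) : ℝ), ((γ 1 1 : ℤ) : ℝ)] := by
  ext i j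
  fin_cases i <;> fin_cases j <;> simp

theorem det_realGL {a b c d : ℝ} (h : a * d - b * c ≠ 0) :
    (realGL a b c d h).det.val = a * d - b * c := by
  rw [Matrix.GeneralLinearGroup.val_det_apply, coe_realGL, Matrix.det_fin_two_of]

theorem slash_realGL {a b c d : ℝ} (h : a * d - b * c ≠ 0) (hpos : 0 < a * d - b * c) (f : ℍ → ℂ)
    (τ : ℍ) : ∃ w : ℍ, (w : ℂ) = (a * τ + b) / (c * τ + d) ∧
      (f ∣[(1 : ℤ)] realGL a b c d h) τ = f w / (c * τ + d) := by
  have hdet : 0 < (realGL a b c d h).det.val := by rwa [det_realGL]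
  refine ⟨realGL a b c d h • τ, ?_, ?_⟩
  · rw [UpperHalfPlane.coe_smul_of_det_pos hdet, num, denom, coe_realGL]
    simp
  · rw [ModularForm.slash_apply, σ, if_pos hdet, sub_self, zpow_zero, denom, coe_realGL]
    simp [div_eq_mul_inv]

/-- Multiplication of a row of operators. -/
theorem sum_slash {ι : Type*} (s : Finset ι) (F : ι → ℍ → ℂ) (g : GL (Fin 2) ℝ) :
    (∑ i ∈ s, F i) ∣[(1 : ℤ)] g = ∑ i ∈ s, (F i ∣[(1 : ℤ)] g) := by
  classical
  induction s using Finset.induction_on with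
  | empty => simp
  | insert a s ha ih => rw [Finset.sum_insert ha, Finset.sum_insert ha, SlashAction.add_slash, ih]

/-- The element of `SL₂(ℤ)` with the given entries. -/
def intSL (a b c d : ℤ) (h : a * d - b * c = 1) : SL(2, ℤ) :=
  ⟨!![a, b; c, d], by rw [Matrix.det_fin_two_of]; exact h⟩

theorem coe_intSL {a b c d : ℤ} (h : a * d - b * c = 1) :
    (intSL a b c d h : Matrix (Fin 2) (Fin 2) ℤ) = !![a, b; c, d] := rfl

variable {N : ℕ} [NeZero N]

theorem gamma1_slash (f : CuspForm (Gamma1 N) 1) {δ : SL(2, ℤ)} (hδ : δ ∈ Gamma1 N) :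
    ⇑f ∣[(1 : ℤ)] δ = ⇑f :=
  SlashInvariantFormClass.slash_action_eq f _ ⟨δ, hδ, rfl⟩

theorem conj_mem_gamma1 {γ δ : SL(2, ℤ)} (hγ : γ ∈ Gamma0 N) (hδ : δ ∈ Gamma1 N) :
    γ * δ * γ⁻¹ ∈ Gamma1 N := by
  rw [Gamma1_mem] at hδ ⊢
  rw [Gamma0_mem] at hγ
  obtain ⟨h00, h11, h10⟩ := hδ
  have hdet := congrArg (Int.cast : ℤ → ZMod N) γ.2
  rw [Matrix.det_fin_two] at hdet
  push_cast at hdet
  rw [hγ, mul_zero, sub_zero] at hdet
  refine ⟨?_, ?_, ?_⟩ <;>
    simp [Matrix.SpecialLinearGroup.coe_mul, Matrix.SpecialLinearGroup.coe_inv,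
      Matrix.adjugate_fin_two, Matrix.mul_apply, Fin.sum_univ_two, h00, h11, h10, hγ] <;>
    linear_combination hdet

section Prime

variable (p : ℕ) [Fact p.Prime]

theorem natCast_pos' : (0 : ℝ) < p := Nat.cast_pos.mpr (Fact.out : p.Prime).pos

/-- The coset representatives `(1 j; 0 p)` and `(p 0; 0 1)`. -/
def rep : Option (ZMod p) → GL (Fin 2) ℝ
  | some j => realGL 1 (j.val : ℝ) 0 p (by simp [(natCast_pos' p).ne'])
  | none => realGL p 0 0 1 (by simp [(natCast_pos' p).ne'])

/-- The sum defining `T_p`. -/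
def heckeSum (f g : ℍ → ℂ) : ℍ → ℂ :=
  ∑ i : Option (ZMod p), ((if i.isSome then f else g) ∣[(1 : ℤ)] rep p i)

theorem exists_rep_perm {γ : SL(2, ℤ)} (hγ : γ ∈ Gamma0 N)
    (hpd : ((γ 1 1 : ℤ) : ZMod N) = (p : ZMod N)) {δ : SL(2, ℤ)} (hδ : δ ∈ Gamma1 N) :
    ∃ σ : Option (ZMod p) → Option (ZMod p), Function.Bijective σ ∧ ∀ i, ∃ ξ ∈ Gamma1 N,
      (if i.isSome then 1 else mapGL ℝ γ) * rep p i * mapGL ℝ δ =
        mapGL ℝ ξ * ((if (σ i).isSome then 1 else mapGL ℝ γ) * rep p (σ i)) := by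
  classical
  have hp : p.Prime := Fact.out
  obtain ⟨hd00, hd11, hd10⟩ := (Gamma1_mem N δ).mp hδ
  have hγ0 : ((γ 1 0 : ℤ) : ZMod N) = 0 := Gamma0_mem.mp hγ
  set a := δ 0 0
  set b := δ 0 1
  set c := δ 1 0
  set d := δ 1 1
  have hdet : a * d - b * c = 1 := by
    have := δ.2
    rwa [Matrix.det_fin_two] at this
  have hdetp : ((a : ZMod p) * d - b * c) = 1 := by exact_mod_cast congrArg (Int.cast : ℤ → ZMod p) hdet
  have hγdet : γ 0 0 * γ 1 1 - γ 0 1 * γ 1 0 = 1 := by
    have := γ.2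
    rwa [Matrix.det_fin_two] at this
  have hγdetN : ((γ 0 0 : ℤ) : ZMod N) * (p : ZMod N) = 1 := by
    have := congrArg (Int.cast : ℤ → ZMod N) hγdet
    push_cast at this
    rw [hγ0, mul_zero, sub_zero, hpd] at this
    exact this
  let σ : Option (ZMod p) → Option (ZMod p) := fun i => match i with
    | some j => if (a : ZMod p) + j * c = 0 then none
        else some (((b : ZMod p) + j * d) * ((a : ZMod p) + j * c)⁻¹)
    | none => if (c : ZMod p) = 0 then none else some ((d : ZMod p) * (c : ZMod p)⁻¹)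
  refine ⟨σ, Finite.injective_iff_bijective.mp ?_, ?_⟩
  · rintro (_ | j) (_ | j') h
    · rfl
    · exfalso
      simp only [σ] at h
      split_ifs at h with h1 h2
      · rw [h1, mul_zero, add_zero] at h2
        rw [h1, h2, zero_mul, mul_zero, sub_zero] at hdetp
        exact zero_ne_one hdetp
      · rw [Option.some.injEq, ← div_eq_mul_inv, ← div_eq_mul_inv, div_eq_div_iff h1 ‹_›] at h
        exact one_ne_zero (by linear_combination (-1 : ZMod p) * hdetp + h : (1 : ZMod p) = 0)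
    · exfalso
      simp only [σ] at h
      split_ifs at h with h1 h2
      · rw [h2, mul_zero, add_zero] at h1
        rw [h1, h2, zero_mul, mul_zero, sub_zero] at hdetp
        exact zero_ne_one hdetp
      · rw [Option.some.injEq, ← div_eq_mul_inv, ← div_eq_mul_inv, div_eq_div_iff h1 ‹_›] at h
        exact one_ne_zero (by linear_combination (-1 : ZMod p) * hdetp - h : (1 : ZMod p) = 0)
    · simp only [σ] at h
      split_ifs at h with h1 h2
      · by_contra hne
        have hjj : j - j' ≠ 0 := sub_ne_zero.mpr fun e => hne (congrArg some e)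
        have hc : (c : ZMod p) = 0 :=
          (mul_eq_zero.mp (by linear_combination h1 - h2 : (j - j') * (c : ZMod p) = 0)).resolve_left hjj
        rw [hc, mul_zero, add_zero] at h1
        rw [h1, hc, zero_mul, mul_zero, sub_zero] at hdetp
        exact zero_ne_one hdetp
      · rw [Option.some.injEq, ← div_eq_mul_inv, ← div_eq_mul_inv, div_eq_div_iff h1 ‹_›] at h
        exact congrArg some (by linear_combination h + (j' - j) * hdetp)
  · rintro (_ | j)
    · by_cases hc : (c : ZMod p) = 0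
      · rw [show σ none = none from if_pos hc]
        obtain ⟨c', hc'⟩ := (ZMod.intCast_zmod_eq_zero_iff_dvd _ _).mp hc
        have hc'N : ((c' : ℤ) : ZMod N) = 0 := by
          have h : ((p : ZMod N)) * (c' : ZMod N) = 0 := by
            rw [← hd10, hc']; push_cast; ring
          linear_combination (γ 0 0 : ZMod N) * h - (c' : ZMod N) * hγdetN
        refine ⟨γ * intSL a (p * b) c' d (by linear_combination hdet + b * hc') * γ⁻¹,
          conj_mem_gamma1 hγ ((Gamma1_mem _ _).mpr ⟨by simpa [coe_intSL] using hd00,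
            by simpa [coe_intSL] using hd11, by simpa [coe_intSL] using hc'N⟩), ?_⟩
        simp only [Option.isSome_none, if_false, Bool.false_eq_true]
        rw [map_mul, map_mul, map_inv, mul_assoc, mul_assoc, mul_assoc, inv_mul_cancel_left]
        refine congrArg _ (Units.ext ?_)
        simp only [Units.val_mul, coe_mapGL', coe_intSL, rep, coe_realGL, Matrix.mul_fin_two]
        simp [a, b, c, d] at hc' ⊢
        simp [hc']
        ring_nf
        simp
      · rw [show σ none = some ((d : ZMod p) * (c : ZMod p)⁻¹) from if_neg hc]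
        set j' := (d : ZMod p) * (c : ZMod p)⁻¹ with hj'
        obtain ⟨e, he⟩ : (p : ℤ) ∣ d - c * (j'.val : ℤ) := by
          rw [← ZMod.intCast_zmod_eq_zero_iff_dvd]
          push_cast
          rw [ZMod.natCast_zmod_val, hj']
          field_simp
          ring
        have heN : (p : ZMod N) * ((e : ℤ) : ZMod N) = 1 := by
          have h : ((d : ℤ) : ZMod N) - (c : ZMod N) * ((j'.val : ℤ) : ZMod N) = (p : ZMod N) * e := by
            exact_mod_cast congrArg (Int.cast : ℤ → ZMod N) he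
          rw [hd11, hd10, zero_mul, sub_zero] at h
          exact h.symm
        refine ⟨γ * intSL (p * a) (b - a * (j'.val : ℤ)) c e
          (by linear_combination hdet - a * he), ?_, ?_⟩
        · rw [Gamma1_mem]
          refine ⟨?_, ?_, ?_⟩ <;>
            simp [-ZMod.natCast_val, coe_intSL, Matrix.SpecialLinearGroup.coe_mul, Matrix.mul_apply,
              Fin.sum_univ_two, hd00, hd10, hγ0, hpd]
          · exact hγdetN
          · exact heN
        simp only [Option.isSome_none, Option.isSome_some, if_false, if_true, Bool.false_eq_true,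
          one_mul]
        rw [map_mul, mul_assoc, mul_assoc]
        refine congrArg _ (Units.ext ?_)
        simp only [Units.val_mul, coe_mapGL', coe_intSL, rep, coe_realGL, Matrix.mul_fin_two]
        have he' : (d : ℝ) - c * (j'.val : ℝ) = p * e := by exact_mod_cast he
        simp [-ZMod.natCast_val, a, b, c, d] at he' ⊢
        constructor <;> linarith
    · by_cases hac : (a : ZMod p) + j * c = 0
      · rw [show σ (some j) = none from if_pos hac]
        obtain ⟨e, he⟩ : (p : ℤ) ∣ a + (j.val : ℤ) * c := by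
          rw [← ZMod.intCast_zmod_eq_zero_iff_dvd]
          push_cast
          rw [ZMod.natCast_zmod_val, hac]
        have heN : (p : ZMod N) * ((e : ℤ) : ZMod N) = 1 := by
          have h : ((a : ℤ) : ZMod N) + ((j.val : ℤ) : ZMod N) * (c : ZMod N) = (p : ZMod N) * e := by
            exact_mod_cast congrArg (Int.cast : ℤ → ZMod N) he
          rw [hd00, hd10, mul_zero, add_zero] at h
          exact h.symm
        refine ⟨intSL e (b + (j.val : ℤ) * d) c (p * d) (by linear_combination hdet - d * he) * γ⁻¹,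
          ?_, ?_⟩
        · rw [Gamma1_mem]
          refine ⟨?_, ?_, ?_⟩ <;>
            simp [-ZMod.natCast_val, coe_intSL, Matrix.SpecialLinearGroup.coe_mul,
              Matrix.SpecialLinearGroup.coe_inv, Matrix.adjugate_fin_two, Matrix.mul_apply,
              Fin.sum_univ_two, hd11, hd10, hγ0, hpd]
          · rw [mul_comm]; exact heN
          · rw [mul_comm]; exact hγdetN
        simp only [Option.isSome_none, Option.isSome_some, if_false, if_true, Bool.false_eq_true,
          one_mul]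
        rw [map_mul, map_inv, mul_assoc, inv_mul_cancel_left]
        refine Units.ext ?_
        simp only [Units.val_mul, coe_mapGL', coe_intSL, rep, coe_realGL, Matrix.mul_fin_two]
        have he' : (a : ℝ) + (j.val : ℝ) * c = p * e := by exact_mod_cast he
        simp [-ZMod.natCast_val, a, b, c, d] at he' ⊢
        constructor <;> linarith
      · rw [show σ (some j) = some (((b : ZMod p) + j * d) * ((a : ZMod p) + j * c)⁻¹) from
          if_neg hac]
        set j' := ((b : ZMod p) + j * d) * ((a : ZMod p) + j * c)⁻¹ with hj'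
        obtain ⟨e, he⟩ : (p : ℤ) ∣ (b + (j.val : ℤ) * d) - (a + (j.val : ℤ) * c) * (j'.val : ℤ) := by
          rw [← ZMod.intCast_zmod_eq_zero_iff_dvd]
          push_cast
          rw [ZMod.natCast_zmod_val, ZMod.natCast_zmod_val, hj', mul_left_comm, mul_inv_cancel₀ hac]
          ring
        refine ⟨intSL (a + (j.val : ℤ) * c) e (p * c) (d - c * (j'.val : ℤ))
          (by linear_combination hdet + c * he), ?_, ?_⟩
        · rw [Gamma1_mem]
          refine ⟨?_, ?_, ?_⟩ <;> simp [-ZMod.natCast_val, coe_intSL, hd00, hd11, hd10]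
        simp only [Option.isSome_some, if_true, one_mul]
        refine Units.ext ?_
        simp only [Units.val_mul, coe_mapGL', coe_intSL, rep, coe_realGL, Matrix.mul_fin_two]
        have he' : ((b : ℝ) + (j.val : ℝ) * d) - ((a : ℝ) + (j.val : ℝ) * c) * (j'.val : ℝ) = p * e := by
          exact_mod_cast he
        simp [-ZMod.natCast_val, a, b, c, d] at he' ⊢
        constructor <;> ring_nf at he' ⊢ <;> linarith

/-- The sum defining `T_p` is invariant. -/
theorem heckeSum_invariant (f : CuspForm (Gamma1 N) 1) {γ : SL(2, ℤ)} (hγ : γ ∈ Gamma0 N)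
    (hpd : ((γ 1 1 : ℤ) : ZMod N) = (p : ZMod N)) {δ : SL(2, ℤ)} (hδ : δ ∈ Gamma1 N) :
    heckeSum p ⇑f (⇑f ∣[(1 : ℤ)] γ) ∣[(1 : ℤ)] δ = heckeSum p ⇑f (⇑f ∣[(1 : ℤ)] γ) := by
  classical
  obtain ⟨σ, hσ, h⟩ := exists_rep_perm p hγ hpd hδ
  have hterm : ∀ i : Option (ZMod p), ((if i.isSome then ⇑f else ⇑f ∣[(1 : ℤ)] γ) ∣[(1 : ℤ)] rep p i) =
      ⇑f ∣[(1 : ℤ)] ((if i.isSome then 1 else mapGL ℝ γ) * rep p i) := fun i => by
    cases i with
    | none => exact (SlashAction.slash_mul _ (mapGL ℝ γ) _ _).symm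
    | some j =>
      simp only [Option.isSome_some, if_true, one_mul]
  change heckeSum p ⇑f (⇑f ∣[(1 : ℤ)] γ) ∣[(1 : ℤ)] (mapGL ℝ δ) = _
  rw [heckeSum, sum_slash]
  simp only [hterm, ← SlashAction.slash_mul]
  refine Fintype.sum_bijective σ hσ _ _ fun i => ?_
  obtain ⟨ξ, hξ, he⟩ := h i
  rw [he, SlashAction.slash_mul _ (mapGL ℝ ξ)]
  exact congrArg (· ∣[(1 : ℤ)] _) (gamma1_slash f hξ)

/-- The `q`-expansion identity behind `T_p`. -/
theorem heckeSum_apply (f : CuspForm (Gamma1 N) 1) {e A : ℂ}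
    (hrel : ∀ n : ℕ, qCoeff f (p * n) + e * (if p ∣ n then qCoeff f (n / p) else 0) =
      A * qCoeff f n) (g : ℍ → ℂ) :
    heckeSum p ⇑f g = A • ⇑f + ((g - e • ⇑f) ∣[(1 : ℤ)] rep p none) := by
  classical
  have hp : p.Prime := Fact.out
  have hpR := natCast_pos' p
  have hq : ∀ τ : ℍ, HasSum (fun n => qCoeff f n * Complex.exp (2 * Real.pi * Complex.I * τ) ^ n)
      (f τ) := fun τ => by
    have h := ModularForm.hasSum_qExpansion f (h := 1) one_pos
      (by simp [CongruenceSubgroup.strictPeriods_Gamma1]) τ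
    simpa [Function.Periodic.qParam, qCoeff, smul_eq_mul] using h
  funext τ
  set w : ℂ := Complex.exp (2 * Real.pi * Complex.I * τ / p) with hw
  set ζ : ℂ := Complex.exp (2 * Real.pi * Complex.I / p) with hζ
  have hζp : IsPrimitiveRoot ζ p := Complex.isPrimitiveRoot_exp p hp.ne_zero
  have hwp : w ^ p = Complex.exp (2 * Real.pi * Complex.I * τ) := by
    rw [hw, ← Complex.exp_nat_mul]
    congr 1
    have : (p : ℂ) ≠ 0 := Nat.cast_ne_zero.mpr hp.ne_zero
    field_simp
  -- the translates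
  have hsome : ∀ j : ZMod p, HasSum (fun m => qCoeff f m * w ^ m * (ζ ^ m) ^ j.val / p)
      ((⇑f ∣[(1 : ℤ)] rep p (some j)) τ) := by
    intro j
    obtain ⟨z, hz, hfz⟩ := slash_realGL (a := 1) (b := (j.val : ℝ)) (c := 0) (d := p)
      (by simp [hpR.ne']) (by simpa using hpR) ⇑f τ
    have hexp : Complex.exp (2 * Real.pi * Complex.I * z) = w * ζ ^ j.val := by
      rw [hz, hw, hζ, ← Complex.exp_nat_mul, ← Complex.exp_add]
      congr 1
      push_cast
      ring
    have h := (hq z).div_const (p : ℂ)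
    rw [show (⇑f ∣[(1 : ℤ)] rep p (some j)) τ = f z / p from hfz.trans (by simp)]
    refine h.congr_fun fun m => ?_
    rw [hexp, mul_pow, ← pow_mul, ← pow_mul, mul_comm j.val m, mul_assoc]
  have hsum := hasSum_sum (s := (Finset.univ : Finset (ZMod p))) fun j _ => hsome j
  have horth : ∀ m : ℕ, ∑ j : ZMod p, (ζ ^ m) ^ j.val = if p ∣ m then (p : ℂ) else 0 := by
    intro m
    rw [show ∑ j : ZMod p, (ζ ^ m) ^ j.val = ∑ i ∈ Finset.range p, (ζ ^ m) ^ i from
      Finset.sum_bij (fun j _ => j.val) (fun j _ => Finset.mem_range.mpr (ZMod.val_lt j))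
        (fun _ _ _ _ h => ZMod.val_injective p h)
        (fun i hi => ⟨(i : ZMod p), Finset.mem_univ _,
          ZMod.val_cast_of_lt (Finset.mem_range.mp hi)⟩) fun _ _ => rfl]
    split_ifs with hm
    · rw [(hζp.pow_eq_one_iff_dvd m).mpr hm]; simp
    · rw [geom_sum_eq (fun h => hm ((hζp.pow_eq_one_iff_dvd m).mp h)), ← pow_mul, mul_comm m p,
        pow_mul, hζp.pow_eq_one, one_pow, sub_self, zero_div]
  have hdvd : HasSum (fun n => qCoeff f (p * n) * Complex.exp (2 * Real.pi * Complex.I * τ) ^ n)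
      (∑ j : ZMod p, (⇑f ∣[(1 : ℤ)] rep p (some j)) τ) := by
    have h2 : HasSum (fun m => if p ∣ m then qCoeff f m * w ^ m else 0)
        (∑ j : ZMod p, (⇑f ∣[(1 : ℤ)] rep p (some j)) τ) := by
      refine hsum.congr_fun fun m => ?_
      rw [← Finset.sum_div, ← Finset.mul_sum, horth]
      split_ifs
      · rw [mul_div_assoc, div_self (Nat.cast_ne_zero.mpr hp.ne_zero), mul_one]
      · simp
    have h3 := (Function.Injective.hasSum_iff (mul_right_injective₀ hp.ne_zero)
      (fun m hm => if_neg fun ⟨k, hk⟩ => hm ⟨k, hk.symm⟩)).mpr h2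
    refine h3.congr_fun fun n => ?_
    simp [← hwp, pow_mul]
  obtain ⟨z, hz, hfz⟩ := slash_realGL (a := (p : ℝ)) (b := 0) (c := 0) (d := 1)
    (by simp [hpR.ne']) (by simpa using hpR) ⇑f τ
  have hexp : Complex.exp (2 * Real.pi * Complex.I * z) =
      Complex.exp (2 * Real.pi * Complex.I * τ) ^ p := by
    rw [hz, ← Complex.exp_nat_mul]
    congr 1
    push_cast
    ring
  have hmul : HasSum (fun n => (if p ∣ n then qCoeff f (n / p) else 0) *
      Complex.exp (2 * Real.pi * Complex.I * τ) ^ n) ((⇑f ∣[(1 : ℤ)] rep p none) τ) := by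
    rw [show (⇑f ∣[(1 : ℤ)] rep p none) τ = f z from hfz.trans (by simp)]
    refine (Function.Injective.hasSum_iff (mul_right_injective₀ hp.ne_zero)
      (fun m hm => by rw [if_neg fun ⟨k, hk⟩ => hm ⟨k, hk.symm⟩, zero_mul])).mp ?_
    refine (hq z).congr_fun fun n => ?_
    simp [hexp, ← pow_mul, Nat.mul_div_cancel_left _ hp.pos]
  have key : ∑ j : ZMod p, (⇑f ∣[(1 : ℤ)] rep p (some j)) τ +
      e * (⇑f ∣[(1 : ℤ)] rep p none) τ = A * f τ := by
    refine (hdvd.add (hmul.mul_left e)).unique (((hq τ).mul_left A).congr_fun fun n => ?_)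
    rw [← mul_assoc A, ← hrel n]
    ring
  have hnone : ((g - e • ⇑f) ∣[(1 : ℤ)] rep p none) τ =
      (g ∣[(1 : ℤ)] rep p none) τ - e * (⇑f ∣[(1 : ℤ)] rep p none) τ := by
    obtain ⟨u, hu, hgu⟩ := slash_realGL (a := (p : ℝ)) (b := 0) (c := 0) (d := 1)
      (by simp [hpR.ne']) (by simpa using hpR) (g - e • ⇑f) τ
    obtain ⟨v, hv, hgv⟩ := slash_realGL (a := (p : ℝ)) (b := 0) (c := 0) (d := 1)
      (by simp [hpR.ne']) (by simpa using hpR) g τ
    obtain rfl : u = z := UpperHalfPlane.ext (hu.trans hz.symm)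
    obtain rfl : v = u := UpperHalfPlane.ext (hv.trans hu.symm)
    exact hgu.trans (by rw [show (g ∣[(1 : ℤ)] rep p none) τ = _ from hgv,
      show (⇑f ∣[(1 : ℤ)] rep p none) τ = _ from hfz]; simp)
  rw [heckeSum, Fintype.sum_option, Pi.add_apply, Pi.add_apply, Finset.sum_apply, Pi.smul_apply,
    smul_eq_mul, hnone]
  simp only [Option.isSome_none, Option.isSome_some, Bool.false_eq_true, if_false, if_true]
  linear_combination key

/-- The stabiliser of `h`. -/
def stab (h : ℍ → ℂ) : Subgroup (GL (Fin 2) ℝ) where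
  carrier := {g | h ∣[(1 : ℤ)] g = h}
  one_mem' := SlashAction.slash_one 1 h
  mul_mem' {a b} ha hb := by
    show h ∣[(1 : ℤ)] (a * b) = h
    rw [SlashAction.slash_mul, ha, hb]
  inv_mem' {a} ha := by
    show h ∣[(1 : ℤ)] a⁻¹ = h
    conv_lhs => rw [← (ha : h ∣[(1 : ℤ)] a = h)]
    rw [← SlashAction.slash_mul, mul_inv_cancel, SlashAction.slash_one]

omit [NeZero N] in
/-- A function invariant under `Γ₁(N)` and `(1 0; N/p 1)` that decays at infinity vanishes. -/
theorem eq_zero_of_invariant (hN : N ≠ 0) (hpN : ¬ p ∣ N) {h : ℍ → ℂ}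
    (h1 : ∀ δ ∈ Gamma1 N, mapGL ℝ δ ∈ stab h)
    (hu : realGL 1 0 ((N : ℝ) / p) 1 (by simp) ∈ stab h)
    (hdec : (h : ℍ → ℂ) =O[atImInfty] fun τ => Real.exp (-2 * Real.pi * τ.im)) : h = 0 := by
  have hp : p.Prime := Fact.out
  have hpR := natCast_pos' p
  have : NeZero N := ⟨hN⟩
  -- first columns
  have reach : ∀ k : ℕ, ∃ g ∈ stab h, g.det.val = 1 ∧ ∃ x y : ℤ, IsCoprime x y ∧
      (x : ZMod N) = (p : ZMod N) ^ k ∧ (y : ZMod N) = 0 ∧
      (g : Matrix (Fin 2) (Fin 2) ℝ) 0 0 = x / (p : ℝ) ^ k ∧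
      (g : Matrix (Fin 2) (Fin 2) ℝ) 1 0 = y / (p : ℝ) ^ k := by
    intro k
    induction k with
    | zero => exact ⟨1, one_mem _, by simp, 1, 0, isCoprime_one_left, by simp, by simp, by simp, by simp⟩
    | succ k ih =>
      obtain ⟨g, hg, hdg, x, y, hxy, hx, hy, h00, h10⟩ := ih
      obtain ⟨g, hg, hdg, x, y, hxy, hx, hy, h00, h10, hpx⟩ :
          ∃ g ∈ stab h, g.det.val = 1 ∧ ∃ x y : ℤ, IsCoprime x y ∧
            (x : ZMod N) = (p : ZMod N) ^ k ∧ (y : ZMod N) = 0 ∧
            (g : Matrix (Fin 2) (Fin 2) ℝ) 0 0 = x / (p : ℝ) ^ k ∧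
            (g : Matrix (Fin 2) (Fin 2) ℝ) 1 0 = y / (p : ℝ) ^ k ∧ ¬ (p : ℤ) ∣ x := by
        by_cases hpx : (p : ℤ) ∣ x
        · refine ⟨mapGL ℝ ModularGroup.T * g, mul_mem (h1 _ ?_) hg, ?_, x + y, y, ?_, ?_, hy, ?_, ?_, ?_⟩
          · simp [Gamma1_mem, ModularGroup.coe_T]
          · simp [hdg]
          · simpa using hxy.add_mul_left_left 1
          · push_cast; rw [hx, hy, add_zero]
          · simp [Units.val_mul, Matrix.mul_apply, Fin.sum_univ_two, ModularGroup.coe_T,
              h00, h10]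
            ring
          · simp [Units.val_mul, Matrix.mul_apply, Fin.sum_univ_two, ModularGroup.coe_T,
              h10]
          · intro hd
            have hy' : (p : ℤ) ∣ y := by simpa using hd.sub hpx
            exact (Nat.prime_iff_prime_int.mp hp).not_isUnit (hxy.isUnit_of_dvd' hpx hy')
        · exact ⟨g, hg, hdg, x, y, hxy, hx, hy, h00, h10, hpx⟩
      refine ⟨realGL 1 0 ((N : ℝ) / p) 1 (by simp) * g, mul_mem hu hg, ?_,
        p * x, N * x + p * y, ?_, ?_, ?_, ?_, ?_⟩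
      · rw [map_mul, Units.val_mul, det_realGL, hdg]; ring
      · refine IsCoprime.mul_left ?_ ?_
        · rw [Prime.coprime_iff_not_dvd (Nat.prime_iff_prime_int.mp hp)]
          intro hd
          have := (Nat.prime_iff_prime_int.mp hp).dvd_or_dvd
            ((dvd_add_left (dvd_mul_right (p : ℤ) y)).mp hd)
          exact this.elim (fun h => hpN (Int.natCast_dvd_natCast.mp h)) hpx
        · have h3 := (IsCoprime.mul_right ((Prime.coprime_iff_not_dvd
            (Nat.prime_iff_prime_int.mp hp)).mpr hpx).symm hxy).add_mul_left_right (N : ℤ)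
          rwa [show (N : ℤ) * x + p * y = p * y + x * N by ring]
      · push_cast; rw [hx]; ring
      · push_cast; rw [hy]; simp
      · simp [Units.val_mul, coe_realGL, Matrix.mul_apply, Fin.sum_univ_two, h00]
        field_simp
        ring
      · simp [Units.val_mul, coe_realGL, Matrix.mul_apply, Fin.sum_univ_two, h00, h10]
        field_simp
        ring
  obtain ⟨k, hk0, hk⟩ : ∃ k : ℕ, 0 < k ∧ (p : ZMod N) ^ k = 1 := by
    let u := ZMod.unitOfCoprime p ((Nat.Prime.coprime_iff_not_dvd hp).mpr hpN)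
    refine ⟨orderOf u, orderOf_pos u, ?_⟩
    rw [show (p : ZMod N) = (u : ZMod N) from (ZMod.coe_unitOfCoprime p _).symm, ← Units.val_pow_eq_pow_val,
      pow_orderOf_eq_one, Units.val_one]
  obtain ⟨g, hg, hdg, x, y, ⟨u, v, huv⟩, hx, hy, h00, h10⟩ := reach k
  rw [hk] at hx
  have huN : (u : ZMod N) = 1 := by
    have := congrArg (Int.cast : ℤ → ZMod N) huv
    push_cast at this
    simpa [hx, hy] using this
  -- clean the first column
  let γ : SL(2, ℤ) := intSL u v (-y) x (by linear_combination huv)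
  have hγ : γ ∈ Gamma1 N := by simp [γ, coe_intSL, Gamma1_mem, hx, hy, huN]
  set g₀ := mapGL ℝ γ * g with hg₀
  have hg₀s : g₀ ∈ stab h := mul_mem (h1 _ hγ) hg
  set P : ℝ := (p : ℝ) ^ k with hP
  have hP0 : 0 < P := by positivity
  have e00 : (g₀ : Matrix (Fin 2) (Fin 2) ℝ) 0 0 = 1 / P := by
    rw [hg₀, Units.val_mul, coe_mapGL', Matrix.mul_apply, Fin.sum_univ_two, h00, h10]
    simp [γ, coe_intSL]
    field_simp
    exact_mod_cast huv
  have e10 : (g₀ : Matrix (Fin 2) (Fin 2) ℝ) 1 0 = 0 := by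
    rw [hg₀, Units.val_mul, coe_mapGL', Matrix.mul_apply, Fin.sum_univ_two, h00, h10]
    simp [γ, coe_intSL]
    ring
  have hd₀ : g₀.det.val = 1 := by simp [hg₀, hdg]
  have e11 : (g₀ : Matrix (Fin 2) (Fin 2) ℝ) 1 1 = P := by
    have h := hd₀
    rw [Matrix.GeneralLinearGroup.val_det_apply, Matrix.det_fin_two, e00, e10, mul_zero,
      sub_zero] at h
    field_simp at h
    linarith
  set b₀ : ℝ := (g₀ : Matrix (Fin 2) (Fin 2) ℝ) 0 1
  -- the scaling
  have hstep : ∀ τ : ℍ, ∃ w : ℍ, w.im = P ^ 2 * τ.im ∧ ‖h τ‖ = P * ‖h w‖ := by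
    intro τ
    refine ⟨g₀⁻¹ • τ, ?_, ?_⟩
    · have hdinv : (g₀⁻¹).det.val = 1 := by rw [map_inv, Units.val_inv_eq_inv_val, hd₀, inv_one]
      have hw : τ = g₀ • (g₀⁻¹ • τ) := (smul_inv_smul g₀ τ).symm
      have him := congrArg UpperHalfPlane.im hw
      rw [im_smul_eq_div_normSq, hd₀, abs_one, one_mul, denom, e10, e11] at him
      simp at him
      rw [him]
      field_simp
    · have hh := congrFun (hg₀s : h ∣[(1 : ℤ)] g₀ = h) (g₀⁻¹ • τ)
      rw [ModularForm.slash_apply, σ, if_pos (by rw [hd₀]; exact one_pos), sub_self, zpow_zero,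
        smul_inv_smul, denom, e10, e11] at hh
      simp at hh
      rw [← hh, norm_mul, norm_inv, Complex.norm_real, Real.norm_of_nonneg hP0.le]
      field_simp
  funext τ
  have hiter : ∀ m : ℕ, ∃ w : ℍ, w.im = (P ^ m) ^ 2 * τ.im ∧ ‖h τ‖ = P ^ m * ‖h w‖ := by
    intro m
    induction m with
    | zero => exact ⟨τ, by simp, by simp⟩
    | succ m ih =>
      obtain ⟨w, hw, hv⟩ := ih
      obtain ⟨w', hw', hv'⟩ := hstep w
      exact ⟨w', by rw [hw', hw]; ring, by rw [hv, hv']; ring⟩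
  obtain ⟨C, hC⟩ := hdec.bound
  rw [atImInfty, Filter.eventually_comap, Filter.eventually_atTop] at hC
  obtain ⟨Y, hY⟩ := hC
  have hP1 : 1 < P := one_lt_pow₀ (by exact_mod_cast hp.one_lt) hk0.ne'
  refine norm_le_zero_iff.mp (le_of_forall_pos_le_add fun ε hε => ?_)
  have hpi := Real.pi_pos
  have hτ := τ.im_pos
  obtain ⟨m, hm⟩ := pow_unbounded_of_one_lt (max (max 1 (Y / τ.im)) (|C| / (2 * Real.pi * τ.im * ε))) hP1
  obtain ⟨w, hw, hv⟩ := hiter m
  have hmY : Y ≤ w.im := by
    rw [hw]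
    have h1 : Y / τ.im < P ^ m := lt_of_le_of_lt ((le_max_right _ _).trans (le_max_left _ _)) hm
    have h0 : (1 : ℝ) ≤ P ^ m := one_le_pow₀ hP1.le
    rw [div_lt_iff₀ hτ] at h1
    linarith [mul_le_mul_of_nonneg_right (le_self_pow₀ h0 two_ne_zero) hτ.le]
  have hb := hY w.im hmY w rfl
  rw [Real.norm_of_nonneg (Real.exp_pos _).le, show -2 * Real.pi * w.im = -(2 * Real.pi * w.im) by ring,
    Real.exp_neg] at hb
  have hexp : (Real.exp (2 * Real.pi * w.im))⁻¹ ≤ (2 * Real.pi * w.im)⁻¹ :=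
    inv_anti₀ (by positivity) (by linarith [Real.add_one_le_exp (2 * Real.pi * w.im)])
  have hb2 : ‖h w‖ ≤ |C| * (2 * Real.pi * w.im)⁻¹ :=
    hb.trans (mul_le_mul (le_abs_self C) hexp (by positivity) (abs_nonneg C))
  have hmε : |C| / (2 * Real.pi * τ.im * ε) ≤ P ^ m := (le_max_right _ _).trans hm.le
  rw [zero_add, hv]
  calc P ^ m * ‖h w‖ ≤ P ^ m * (|C| * (2 * Real.pi * w.im)⁻¹) :=
        mul_le_mul_of_nonneg_left hb2 (by positivity)
    _ = |C| / (2 * Real.pi * τ.im) / P ^ m := by rw [hw]; field_simp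
    _ ≤ ε := by
      rw [div_le_iff₀ (by positivity)] at hmε
      rw [div_div, div_le_iff₀ (by positivity)]
      calc |C| ≤ P ^ m * (2 * Real.pi * τ.im * ε) := hmε
        _ = _ := by ring

/-- The diamond operator at a lift of `p`. -/
theorem slash_eq_of_relation (hpN : ¬ p ∣ N) (f : CuspForm (Gamma1 N) 1) {e A : ℂ}
    (hrel : ∀ n : ℕ, qCoeff f (p * n) + e * (if p ∣ n then qCoeff f (n / p) else 0) =
      A * qCoeff f n) {γ : SL(2, ℤ)} (hγ : γ ∈ Gamma0 N)
    (hpd : ((γ 1 1 : ℤ) : ZMod N) = (p : ZMod N)) : ⇑f ∣[(1 : ℤ)] γ = e • ⇑f := by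
  have hpR := natCast_pos' p
  set h : ℍ → ℂ := ⇑f ∣[(1 : ℤ)] γ - e • ⇑f with hh
  have hg1 : ∀ δ ∈ Gamma1 N, (⇑f ∣[(1 : ℤ)] γ) ∣[(1 : ℤ)] δ = ⇑f ∣[(1 : ℤ)] γ := fun δ hδ => by
    rw [← SlashAction.slash_mul,
      show γ * δ = γ * δ * γ⁻¹ * γ by rw [inv_mul_cancel_right], SlashAction.slash_mul,
      gamma1_slash f (conj_mem_gamma1 hγ hδ)]
  have h1 : ∀ δ ∈ Gamma1 N, mapGL ℝ δ ∈ stab h := fun δ hδ => by
    show h ∣[(1 : ℤ)] δ = h
    rw [hh, sub_eq_add_neg, ← _root_.neg_smul, SlashAction.add_slash, ModularForm.SL_smul_slash, hg1 δ hδ,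
      gamma1_slash f hδ]
  have hH : ∀ δ ∈ Gamma1 N, rep p none * mapGL ℝ δ * (rep p none)⁻¹ ∈ stab h := fun δ hδ => by
    show h ∣[(1 : ℤ)] _ = h
    have hF := heckeSum_invariant p f hγ hpd hδ
    rw [heckeSum_apply p f hrel, ← hh, SlashAction.add_slash, ModularForm.SL_smul_slash,
      gamma1_slash f hδ, add_right_inj] at hF
    change (h ∣[(1 : ℤ)] rep p none) ∣[(1 : ℤ)] mapGL ℝ δ = _ at hF
    rw [SlashAction.slash_mul, SlashAction.slash_mul, hF, ← SlashAction.slash_mul, mul_inv_cancel, SlashAction.slash_one]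
  have hu : realGL 1 0 ((N : ℝ) / p) 1 (by simp) ∈ stab h := by
    have hmem : intSL 1 0 (N : ℤ) 1 (by ring) ∈ Gamma1 N := by
      simp [Gamma1_mem, coe_intSL]
    convert hH _ hmem
    rw [eq_mul_inv_iff_mul_eq]
    refine Units.ext ?_
    simp only [Units.val_mul, coe_mapGL', coe_intSL, rep, coe_realGL, Matrix.mul_fin_two]
    simp
  refine sub_eq_zero.mp (eq_zero_of_invariant p (NeZero.ne N) hpN h1 hu ?_)
  have hmd : ∀ g : SL(2, ℤ), MDiff (⇑f ∣[(1 : ℤ)] g) := fun g =>
    ModularFormClass.holo (CuspForm.translate f (mapGL ℝ g))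
  have hT : ModularGroup.T ∈ Gamma1 N := by simp [Gamma1_mem, ModularGroup.coe_T]
  have hper : Function.Periodic (h ∘ ofComplex) (1 : ℝ) := by
    intro z
    rcases le_or_gt z.im 0 with hz | hz
    · have hz' : (z + ((1 : ℝ) : ℂ)).im ≤ 0 := by simpa using hz
      show h (ofComplex _) = h (ofComplex z)
      rw [ofComplex_apply_of_im_nonpos hz, ofComplex_apply_of_im_nonpos hz']
    · have hz' : 0 < (z + ((1 : ℝ) : ℂ)).im := by simpa using hz
      have := congrFun (h1 _ hT : h ∣[(1 : ℤ)] ModularGroup.T = h) ⟨z, hz⟩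
      change (h ∣[(1 : ℤ)] ModularGroup.T) ⟨z, hz⟩ = _ at this
      rw [ModularForm.SL_slash_apply] at this
      simp only [Function.comp_apply, ofComplex_apply_of_im_pos hz, ofComplex_apply_of_im_pos hz']
      rw [← this]
      rw [UpperHalfPlane.modular_T_smul]
      simp [denom, ModularGroup.coe_T]
      congr 1
      ext
      simp [add_comm]
  have hzero : IsZeroAtImInfty h := by
    have h2 := (CuspFormClass.zero_at_infty_slash f γ).add
      ((CuspFormClass.zero_at_infty f).smul (-e))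
    simpa [hh, sub_eq_add_neg, IsZeroAtImInfty] using h2
  have hhol : MDiff h := (hmd γ).sub ((ModularFormClass.holo f).const_smul e)
  simpa using hzero.exp_decay_atImInfty one_pos hper hhol hzero.boundedAtFilter

end Prime

/-- A cusp form of weight one on `Γ₁(N)` with the Hecke relations for `ε` has Nebentypus `ε`. -/
theorem hasNebentypus_of_eigenRel (N : ℕ) [NeZero N] (ε : DirichletCharacter ℂ N)
    (f : CuspForm (Gamma1 N) 1) (hf₁ : qCoeff f 1 = 1)
    (hrel : EigenRel N (fun p => ε (p : ZMod N)) (fun p => qCoeff f p) (fun n => qCoeff f n)) :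
    DS.HasNebentypus 1 ε ⇑f := by
  intro γ hγ
  have hu : IsUnit ((γ 1 1 : ℤ) : ZMod N) := by
    have hdet := congrArg (Int.cast : ℤ → ZMod N) γ.2
    rw [Matrix.det_fin_two] at hdet
    push_cast at hdet
    rw [Gamma0_mem.mp hγ, mul_zero, sub_zero] at hdet
    exact IsUnit.of_mul_eq_one _ (by rwa [mul_comm] at hdet)
  obtain ⟨p, hpN, hp, hpd⟩ := Nat.forall_exists_prime_gt_and_eq_mod hu N
  have := Fact.mk hp
  have hndvd : ¬ p ∣ N := fun h => absurd (Nat.le_of_dvd (Nat.pos_of_ne_zero (NeZero.ne N)) h) hpN.not_ge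
  rw [← hpd]
  exact slash_eq_of_relation p hndvd f (hrel p hp hndvd) hγ hpd.symm

/-- The character is odd. -/
theorem odd_of_nebentypus (N : ℕ) [NeZero N] (ε : DirichletCharacter ℂ N)
    (f : CuspForm (Gamma1 N) 1) (hne : ⇑f ≠ 0) (h : DS.HasNebentypus 1 ε ⇑f) : ε (-1) = -1 := by
  obtain ⟨τ, hτ⟩ := Function.ne_iff.mp hne
  have h1 := congrFun (h (-1) (by simp [Gamma0_mem])) τ
  rw [ModularForm.SL_slash_apply, ModularGroup.SL_neg_smul, one_smul] at h1
  simp [denom] at h1
  exact (mul_right_cancel₀ hτ (by rw [neg_mul, one_mul]; exact h1)).symm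

end FLTAgent.WeightOne
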