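import Fermat.Agent.WeightOne.RationalConj
import Fermat.Agent.WeightOne.RationalSeries
import Fermat.Agent.IntStr.Main

/-!
# Rationality of a weight one eigen system

`exists_algebraic_form`: from a normalised cusp form of weight one with the Hecke relations at
`p ∤ N` we get a number field `K` and a form with the same eigenvalues whose coefficients lie in
`K` and have bounded denominators, integral eigenvalues, and a form for every conjugate of the
coefficients. The form is one of minimal support among the first coefficients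
(`exists_minimal_form`); denominators are bounded via weight two and a power on `Γ₀(N)`, and
integrality of eigenvalues follows from a stable set with bounded denominators.
-/

set_option autoImplicit false
set_option linter.style.haveILetI false
set_option linter.unusedSectionVars false

noncomputable section

open CongruenceSubgroup
open UpperHalfPlane (upperHalfPlaneSet)
open scoped MatrixGroups UpperHalfPlane

namespace FLTAgent.WeightOne

open ModularFormClass (qCoeff)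

open IntStr (qE goodSubring sturmIdx)

variable {N : ℕ} [NeZero N]

/-- The forms with character `ε` in the eigen system `a`. -/
def eigSpace (ε : DirichletCharacter ℂ N) (a : ℕ → ℂ) : Submodule ℂ (CuspForm (Gamma1 N) 1) where
  carrier := {g | g ∈ nebForms N ε ∧
    EigenRel N (fun p => ε (p : ZMod N)) a (fun n => qCoeff g n)}
  zero_mem' := ⟨zero_mem _, fun p _ _ n => by
    simp only [← coeff₁_apply, map_zero, ite_self, mul_zero, add_zero]⟩
  add_mem' := fun {f g} hf hg => ⟨add_mem hf.1 hg.1, fun p hp hpN n => by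
    have h1 := hf.2 p hp hpN n
    have h2 := hg.2 p hp hpN n
    simp only [← coeff₁_apply, map_add] at h1 h2 ⊢
    split_ifs at h1 h2 ⊢ <;> linear_combination h1 + h2⟩
  smul_mem' := fun c f hf => ⟨Submodule.smul_mem _ c hf.1, fun p hp hpN n => by
    have h1 := hf.2 p hp hpN n
    simp only [← coeff₁_apply, map_smul, smul_eq_mul] at h1 ⊢
    split_ifs at h1 ⊢ <;> linear_combination c * h1⟩

theorem mem_eigSpace {ε : DirichletCharacter ℂ N} {a : ℕ → ℂ} {g : CuspForm (Gamma1 N) 1} :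
    g ∈ eigSpace ε a ↔ DS.HasNebentypus 1 ε ⇑g ∧
      EigenRel N (fun p => ε (p : ZMod N)) a (fun n => qCoeff g n) := Iff.rfl

theorem isIntegral_charValue (ε : DirichletCharacter ℂ N) (x : ZMod N) : IsIntegral ℤ (ε x) := by
  by_cases hx : IsUnit x
  · obtain ⟨u, rfl⟩ := hx
    refine IsIntegral.of_pow (n := Fintype.card (ZMod N)ˣ) Fintype.card_pos ?_
    rw [← map_pow, ← Units.val_pow_eq_pow_val, pow_card_eq_one, Units.val_one, map_one]
    exact isIntegral_one
  · rw [MulChar.map_nonunit ε hx]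
    exact isIntegral_zero

theorem ringHomComp_eq_self {ε : DirichletCharacter ℂ N} {K : IntermediateField ℚ ℂ}
    (hK : ∀ x, ε x ∈ K) {σ : ℂ →+* ℂ} (hσ : ∀ x : K, σ (x : ℂ) = x) : ε.ringHomComp σ = ε :=
  MulChar.ext fun u => hσ ⟨_, hK u⟩

/-- Conjugation within a fixed character. -/
theorem exists_conjEig {ε : DirichletCharacter ℂ N} (hε : ε (-1) = -1) {a : ℕ → ℂ}
    {g : CuspForm (Gamma1 N) 1} (hg : g ∈ eigSpace ε a) (σ : ℂ →+* ℂ)
    (hσ : ε.ringHomComp σ = ε) :
    ∃ g' ∈ eigSpace ε (fun p => σ (a p)), ∀ n, qCoeff g' n = σ (qCoeff g n) := by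
  obtain ⟨g', hn, hc⟩ := exists_conjForm σ hε g hg.1
  rw [hσ] at hn
  refine ⟨g', ⟨hn, fun p hp hpN n => ?_⟩, hc⟩
  have he : σ (ε (p : ZMod N)) = ε (p : ZMod N) := congrArg (fun χ : DirichletCharacter ℂ N => χ p) hσ
  have h := congrArg σ (hg.2 p hp hpN n)
  simp only [hc]
  split_ifs at h ⊢ with hd
  · simpa [he] using h
  · simpa [he] using h

/-- A form with character is determined by finitely many coefficients. -/
theorem eq_of_low {ε : DirichletCharacter ℂ N} (hε : ε (-1) = -1) {g g' : CuspForm (Gamma1 N) 1}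
    (hg : g ∈ nebForms N ε) (hg' : g' ∈ nebForms N ε)
    (h : ∀ n, n ≤ sturmIdx N 2 → qCoeff g n = qCoeff g' n) : g = g' := by
  obtain ⟨F, hF⟩ := exists_mulEis hε (g - g') (sub_mem hg hg' : g - g' ∈ nebForms N ε)
  have hd : ∀ n, n ≤ sturmIdx N 2 → coeff₁ N 1 n (g - g') = 0 := fun n hn => by
    rw [map_sub, coeff₁_apply, coeff₁_apply, h n hn, sub_self]
  have hmul : goodForm0 F = goodForm (g - g') * goodForm (eisAux ε hε) := Subtype.ext hF
  have hF0 : F = 0 := IntStr.eq_zero_of_qCoeff_le F fun n hn => by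
    rw [← coeff_goodForm0, hmul, map_mul, PowerSeries.coeff_mul]
    refine Finset.sum_eq_zero fun kl hkl => ?_
    rw [coeff_goodForm, ← coeff₁_apply, hd kl.1 (by
      have := Finset.HasAntidiagonal.mem_antidiagonal.mp hkl; omega), zero_mul]
  have h0 : qE (goodForm (g - g')) * qE (goodForm (eisAux ε hε)) = 0 := by
    rw [← map_mul, ← hmul, show goodForm0 F = 0 from Subtype.ext (by simp [hF0, goodForm0]),
      map_zero]
  have h1 := (mul_eq_zero.mp h0).resolve_right (qE_eisAux_ne_zero ε hε)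
  refine eq_of_coeff₁ fun n => sub_eq_zero.mp ?_
  rw [← coeff₁_apply, ← coeff₁_apply, ← map_sub, coeff₁_apply, ← coeff_goodForm, h1, map_zero]

theorem finiteDimensional_nebForms {ε : DirichletCharacter ℂ N} (hε : ε (-1) = -1) :
    FiniteDimensional ℂ (nebForms N ε) :=
  FiniteDimensional.of_injective
    ((LinearMap.pi fun n : Fin (sturmIdx N 2 + 1) => coeff₁ N 1 n).comp (nebForms N ε).subtype)
    fun x y h => Subtype.ext (eq_of_low hε x.2 y.2 fun n hn =>
      congrFun h ⟨n, Nat.lt_succ_of_le hn⟩)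

/-- Normalised forms in distinct eigen systems are independent. -/
theorem linearIndependent_eigen {ι : Type*} {e : ℕ → ℂ} (g : ι → CuspForm (Gamma1 N) 1)
    (b : ι → ℕ → ℂ) (h1 : ∀ i, qCoeff (g i) 1 = 1)
    (hrel : ∀ i, EigenRel N e (b i) (fun n => qCoeff (g i) n))
    (hne : ∀ i j, i ≠ j → ∃ p : ℕ, p.Prime ∧ ¬ p ∣ N ∧ b i p ≠ b j p) :
    LinearIndependent ℂ g := by
  classical
  have key : ∀ (s : Finset ι) (c : ι → ℂ), (∀ n, ∑ i ∈ s, c i * qCoeff (g i) n = 0) →
      ∀ i ∈ s, c i = 0 := by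
    intro s
    induction s using Finset.induction_on with
    | empty => simp
    | insert j s hj ih =>
      intro c hc i hi
      have hs : ∀ i ∈ s, c i = 0 := fun i hi => by
        have hij : i ≠ j := fun h => hj (h ▸ hi)
        obtain ⟨p, hp, hpN, hbp⟩ := hne i j hij
        have h := ih (fun i => c i * (b i p - b j p)) (fun n => ?_) i hi
        · exact (mul_eq_zero.mp h).resolve_right (sub_ne_zero.mpr hbp)
        have hA : ∑ i ∈ insert j s, c i * (b i p - b j p) * qCoeff (g i) n = 0 := by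
          calc ∑ i ∈ insert j s, c i * (b i p - b j p) * qCoeff (g i) n
              = ∑ i ∈ insert j s, (c i * qCoeff (g i) (p * n) +
                  e p * (c i * (if p ∣ n then qCoeff (g i) (n / p) else 0)) -
                  b j p * (c i * qCoeff (g i) n)) :=
                Finset.sum_congr rfl fun i _ => by linear_combination -(c i) * hrel i p hp hpN n
            _ = 0 := by
              rw [Finset.sum_sub_distrib, Finset.sum_add_distrib, ← Finset.mul_sum,
                ← Finset.mul_sum, hc, hc]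
              split_ifs with hd
              · rw [hc]; ring
              · simp
        rwa [Finset.sum_insert hj, sub_self, mul_zero, zero_mul, zero_add] at hA
      rcases Finset.mem_insert.mp hi with rfl | hi'
      · have h := hc 1
        rw [Finset.sum_insert hj, Finset.sum_eq_zero (fun k hk => by rw [hs k hk, zero_mul]),
          h1, mul_one, add_zero] at h
        exact h
      · exact hs i hi'
  refine linearIndependent_iff'.mpr fun s c hc => key s c fun n => ?_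
  have := congrArg (coeff₁ N 1 n) hc
  simp only [map_sum, map_smul, map_zero, smul_eq_mul, coeff₁_apply] at this
  exact this

/-- The eigenvalues are algebraic. -/
theorem isIntegral_eigenvalue {ε : DirichletCharacter ℂ N} (hε : ε (-1) = -1) {a : ℕ → ℂ}
    {f : CuspForm (Gamma1 N) 1} (hf : f ∈ eigSpace ε a) (hf₁ : qCoeff f 1 = 1) {p : ℕ}
    (hp : p.Prime) (hpN : ¬ p ∣ N) : IsIntegral ℚ (a p) := by
  set K₀ := IntermediateField.adjoin ℚ (Set.range ε)
  have hK₀ : ∀ x, ε x ∈ K₀ := fun x => IntermediateField.subset_adjoin ℚ _ ⟨x, rfl⟩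
  haveI : Algebra.IsAlgebraic ℚ K₀ :=
    IntermediateField.isAlgebraic_adjoin fun x hx => by
      obtain ⟨x, rfl⟩ := hx
      exact (isIntegral_charValue ε x).tower_top
  let Sys := {s : {p : ℕ // p.Prime ∧ ¬ p ∣ N} → ℂ //
    ∃ σ : ℂ →+* ℂ, (∀ x : K₀, σ (x : ℂ) = x) ∧ s = fun q : {p : ℕ // p.Prime ∧ ¬ p ∣ N} => σ (a q.1)}
  have hex : ∀ s : Sys, ∃ (g : nebForms N ε) (b : ℕ → ℂ),
      qCoeff (g : CuspForm (Gamma1 N) 1) 1 = 1 ∧
      EigenRel N (fun p => ε (p : ZMod N)) b (fun n => qCoeff (g : CuspForm (Gamma1 N) 1) n) ∧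
      ∀ q : {p : ℕ // p.Prime ∧ ¬ p ∣ N}, b q = s.1 q := by
    rintro ⟨s, σ, hσ, rfl⟩
    obtain ⟨g, hg, hc⟩ := exists_conjEig hε hf σ (ringHomComp_eq_self hK₀ hσ)
    exact ⟨⟨g, hg.1⟩, fun p => σ (a p), by simp [hc, hf₁], hg.2, fun q => rfl⟩
  choose g b hg1 hgb hbs using hex
  have hli : LinearIndependent ℂ g := by
    refine LinearIndependent.of_comp (nebForms N ε).subtype
      (linearIndependent_eigen (fun s => (g s : CuspForm (Gamma1 N) 1)) b hg1 hgb fun i j hij => ?_)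
    obtain ⟨q, hq⟩ := Function.ne_iff.mp fun h => hij (Subtype.ext h)
    exact ⟨q, q.2.1, q.2.2, by rwa [hbs, hbs]⟩
  haveI := finiteDimensional_nebForms hε
  haveI : Finite Sys := hli.finite_of_isNoetherian
  refine isIntegral_of_finite_orbit (K := K₀) ((Set.finite_range
    fun s : Sys => s.1 ⟨p, hp, hpN⟩).subset ?_)
  rintro _ ⟨σ, hσ, rfl⟩
  exact ⟨⟨fun q => σ (a q.1), σ, hσ, rfl⟩, rfl⟩

/-- A normalised form whose coefficients are fixed with the eigenvalues. -/
theorem exists_minimal_form {ε : DirichletCharacter ℂ N} (hε : ε (-1) = -1) {a : ℕ → ℂ}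
    {f : CuspForm (Gamma1 N) 1} (hf : f ∈ eigSpace ε a) (hf₁ : qCoeff f 1 = 1) :
    ∃ f₀ ∈ eigSpace ε a, qCoeff f₀ 1 = 1 ∧ ∀ σ : ℂ →+* ℂ, ε.ringHomComp σ = ε →
      (∀ p, p.Prime → ¬ p ∣ N → σ (a p) = a p) → ∀ n, σ (qCoeff f₀ n) = qCoeff f₀ n := by
  classical
  set B := sturmIdx N 2
  let supp : CuspForm (Gamma1 N) 1 → Finset ℕ := fun g =>
    (Finset.range (B + 1)).filter fun n => qCoeff g n ≠ 0
  have hex : ∃ d, ∃ g ∈ eigSpace ε a, qCoeff g 1 = 1 ∧ (supp g).card = d :=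
    ⟨_, f, hf, hf₁, rfl⟩
  obtain ⟨f₀, hf₀, h1, hcard⟩ := Nat.find_spec hex
  refine ⟨f₀, hf₀, h1, fun σ hσε hσa => ?_⟩
  obtain ⟨g, hg, hc⟩ := exists_conjEig hε hf₀ σ hσε
  have hg' : g ∈ eigSpace ε a := ⟨hg.1, fun p hp hpN n => by
    have h := hg.2 p hp hpN n
    simp only [hσa p hp hpN] at h
    exact h⟩
  suffices h : g = f₀ by intro n; rw [← hc, h]
  refine eq_of_low hε hg.1 hf₀.1 fun n hn => ?_
  by_contra hne
  set t := -qCoeff f₀ n / (qCoeff g n - qCoeff f₀ n)
  have hd : qCoeff g n - qCoeff f₀ n ≠ 0 := sub_ne_zero.mpr hne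
  set h' := f₀ + t • (g - f₀) with hh'
  have hh : h' ∈ eigSpace ε a := add_mem hf₀ (Submodule.smul_mem _ t (sub_mem hg' hf₀))
  have hcoef : ∀ k, qCoeff h' k = qCoeff f₀ k + t * (qCoeff g k - qCoeff f₀ k) := fun k => by
    show coeff₁ N 1 k h' = _
    rw [hh', map_add, map_smul, map_sub]
    rfl
  have hn0 : qCoeff f₀ n ≠ 0 := fun h0 => hne (by rw [hc, h0, map_zero])
  have hlt : (supp h').card < (supp f₀).card := by
    refine Finset.card_lt_card ((Finset.ssubset_iff_of_subset fun k hk => ?_).mpr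
      ⟨n, by simpa [supp, hn0, Nat.lt_succ_iff] using! hn, fun h => ?_⟩)
    · simp only [supp, Finset.mem_filter] at hk ⊢
      refine ⟨hk.1, fun h0 => hk.2 ?_⟩
      rw [hcoef, hc, h0, map_zero]
      ring
    · simp only [supp, Finset.mem_filter] at h
      exact h.2 (by rw [hcoef, div_mul_cancel₀ _ hd, add_neg_cancel])
  have := Nat.find_min' hex ⟨h', hh, by rw [hcoef, hc, h1, map_one]; ring, rfl⟩
  omega

/-- Forms on `Γ₀(N)` with coefficients in a number field have bounded denominators. -/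
theorem exists_den {k : ℕ} (hk : 0 < k) (K : IntermediateField ℚ ℂ) [FiniteDimensional ℚ K]
    (G : CuspForm (Gamma0 N) k) (hG : ∀ n, qCoeff G n ∈ K) :
    ∃ D : ℕ, 0 < D ∧ ∀ n, (D : ℂ) * qCoeff G n ∈ intsIn K := by
  classical
  haveI := countable_of_isAlgebraic K
  have hint : Submodule.span ℂ ((CuspForm.intLattice N (k : ℤ)) : Set (CuspForm (Gamma0 N) k)) =
      ⊤ :=
    IntStr.hasIntegralStructure_of_finite N (by omega) (ModSym.moduleFinite_heckeAlgebra_all N k ∅)
  obtain ⟨b, hb, hspan, hli⟩ := exists_linearIndependent ℂ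
    ((CuspForm.intLattice N (k : ℤ)) : Set (CuspForm (Gamma0 N) k))
  haveI : Fintype b := hli.setFinite.fintype
  obtain ⟨c, hc⟩ := (Submodule.mem_span_range_iff_exists_fun ℂ).mp
    (show G ∈ Submodule.span ℂ (Set.range ((↑) : b → CuspForm (Gamma0 N) k)) by
      rw [Subtype.range_coe, hspan, hint]; trivial)
  choose m hm using fun (w : b) => (IntStr.mem_intLattice_iff _).mp (hb w.2)
  have hcoef : ∀ (d : b → ℂ) (n : ℕ),
      qCoeff (⇑(∑ w : b, d w • (w : CuspForm (Gamma0 N) k) : CuspForm (Gamma0 N) k)) n = ∑ w, d w * (m w n : ℂ) := fun d n => by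
    rw [IntStr.qCoeff_sum']
    exact Finset.sum_congr rfl fun w _ => by rw [IntStr.qCoeff_smul', hm]
  have hcK : ∀ w, c w ∈ K := fun w => mem_of_forall_fixing fun σ hσ => by
    have h : ∑ w : b, (σ (c w) - c w) • (w : CuspForm (Gamma0 N) k) = 0 := by
      refine IntStr.eq_of_qCoeff fun n => ?_
      rw [hcoef, IntStr.qCoeff_zero']
      have h' : σ (qCoeff G n) = qCoeff G n := hσ ⟨_, hG n⟩
      rw [← hc, hcoef, map_sum] at h'
      simp only [map_mul, map_intCast] at h'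
      simp only [sub_mul, Finset.sum_sub_distrib, h', sub_self]
    exact sub_eq_zero.mp (Fintype.linearIndependent_iff.mp hli _ h w)
  obtain ⟨y, hy0, hy⟩ := exists_integral_multiples ℤ ℚ
    (Finset.univ.image fun w : b => (⟨c w, hcK w⟩ : K))
  refine ⟨y.natAbs, Int.natAbs_pos.mpr hy0, fun n => ?_⟩
  rw [← hc, hcoef, Finset.mul_sum]
  refine sum_mem fun w _ => ?_
  rw [← mul_assoc]
  refine mul_mem (mem_intsIn.mpr ⟨mul_mem (natCast_mem _ _) (hcK w), ?_⟩) (intCast_mem _ _)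
  have h := (hy _ (Finset.mem_image.mpr ⟨w, Finset.mem_univ _, rfl⟩)).algebraMap (B := ℂ)
  have h' : IsIntegral ℤ ((y : ℂ) * c w) := by
    convert h
    simp [zsmul_eq_mul]
  rcases y.natAbs_eq with hs | hs
  · rw [hs, Int.cast_natCast] at h'; exact h'
  · rw [hs, Int.cast_neg, Int.cast_natCast, neg_mul] at h'
    simpa using h'.neg

theorem eisAux_mem_serIn {ε : DirichletCharacter ℂ N} (hε : ε (-1) = -1)
    (K : IntermediateField ℚ ℂ) (hεK : ∀ x, ε x ∈ K) :
    PowerSeries.C ((2 * N : ℕ) : ℂ) * qE (goodForm (eisAux ε hε)) ∈ serIn (intsIn K) := by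
  have hv : ∀ x, ε⁻¹ x ∈ intsIn K := fun x => by
    rw [MulChar.inv_apply]
    exact ⟨hεK _, isIntegral_charValue ε _⟩
  refine mem_serIn.mpr fun n => ?_
  rw [PowerSeries.coeff_C_mul, coeff_goodForm, qCoeff_eisAux]
  split_ifs
  · have : ((2 * N : ℕ) : ℂ) * eisConst N ε⁻¹ =
        -∑ a ∈ Finset.range N, ε⁻¹ (a : ZMod N) * (a : ℂ) := by
      have hN : (N : ℂ) ≠ 0 := Nat.cast_ne_zero.mpr (NeZero.ne N)
      rw [eisConst]; push_cast; field_simp
    rw [this]
    exact neg_mem (sum_mem fun x _ => mul_mem (hv _) (natCast_mem _ _))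
  · exact mul_mem (natCast_mem _ _) (sum_mem fun x _ => hv _)

theorem C_natCast_mem_serIn (O : Subring ℂ) (n : ℕ) :
    (PowerSeries.C (n : ℂ) : PowerSeries ℂ) ∈ serIn O := by
  rw [map_natCast]; exact natCast_mem _ _

/-- The algebraic model of an eigen system of weight one. -/
theorem exists_algebraic_form (N : ℕ) [NeZero N] (ε : DirichletCharacter ℂ N)
    (f : CuspForm (Gamma1 N) 1) (hf₁ : qCoeff f 1 = 1)
    (hrel : EigenRel N (fun p => ε (p : ZMod N)) (fun p => qCoeff f p) (fun n => qCoeff f n)) :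
    ∃ (K : IntermediateField ℚ ℂ) (_ : FiniteDimensional ℚ K) (f₀ : CuspForm (Gamma1 N) 1) (D : ℕ),
      0 < D ∧ qCoeff f₀ 1 = 1 ∧ DS.HasNebentypus 1 ε ⇑f₀ ∧
      (∀ n : ℕ, qCoeff f₀ n ∈ K ∧ IsIntegral ℤ ((D : ℂ) * qCoeff f₀ n)) ∧
      (∀ p : ℕ, p.Prime → ¬ p ∣ N → qCoeff f₀ p = qCoeff f p ∧ IsIntegral ℤ (qCoeff f p)) ∧
      (∀ x : ZMod N, ε x ∈ K) ∧
      EigenRel N (fun p => ε (p : ZMod N)) (fun p => qCoeff f p) (fun n => qCoeff f₀ n) ∧
      ∀ σ : ℂ →+* ℂ, ∃ g : CuspForm (Gamma1 N) 1, ∀ n : ℕ, qCoeff g n = σ (qCoeff f₀ n) := by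
  classical
  have hneb := hasNebentypus_of_eigenRel N ε f hf₁ hrel
  have hfne : ⇑f ≠ 0 := fun h => by
    have h0 : f = 0 := DFunLike.coe_injective (by simpa using h)
    rw [← coeff₁_apply, h0, map_zero] at hf₁
    exact zero_ne_one hf₁
  have hε := odd_of_nebentypus N ε f hfne hneb
  set a : ℕ → ℂ := fun p => qCoeff f p
  have hf : f ∈ eigSpace ε a := ⟨hneb, hrel⟩
  obtain ⟨f₀, hf₀, h1, hfix⟩ := exists_minimal_form hε hf hf₁
  have hap : ∀ p : ℕ, p.Prime → ¬ p ∣ N → qCoeff f₀ p = a p := fun p hp hpN => by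
    have h := hf₀.2 p hp hpN 1
    simpa [h1, hp.not_dvd_one, hp.ne_one] using h
  -- algebraicity
  set K₁ := IntermediateField.adjoin ℚ
    (Set.range ε ∪ {z | ∃ p, p.Prime ∧ ¬ p ∣ N ∧ a p = z})
  haveI : Algebra.IsAlgebraic ℚ K₁ :=
    IntermediateField.isAlgebraic_adjoin fun x hx => by
      rcases hx with ⟨x, rfl⟩ | ⟨p, hp, hpN, rfl⟩
      · exact (isIntegral_charValue ε x).tower_top
      · exact isIntegral_eigenvalue hε hf hf₁ hp hpN
  haveI := countable_of_isAlgebraic K₁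
  have hK₁ε : ∀ x, ε x ∈ K₁ := fun x => IntermediateField.subset_adjoin ℚ _ (Or.inl ⟨x, rfl⟩)
  have halg : ∀ n, IsIntegral ℚ (qCoeff f₀ n) := fun n => by
    have hmem : qCoeff f₀ n ∈ K₁ := mem_of_forall_fixing fun σ hσ =>
      hfix σ (ringHomComp_eq_self hK₁ε hσ) (fun p hp hpN =>
        hσ ⟨a p, IntermediateField.subset_adjoin ℚ _ (Or.inr ⟨p, hp, hpN, rfl⟩)⟩) n
    exact (Algebra.IsIntegral.isIntegral (R := ℚ) (⟨_, hmem⟩ : K₁)).algebraMap (B := ℂ)
  -- the number field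
  set B := sturmIdx N 2
  set S : Set ℂ := Set.range ε ∪ (fun n => qCoeff f₀ n) '' Set.Iic B
  set K := IntermediateField.adjoin ℚ S
  haveI : Finite S := ((Set.finite_range ε).union ((Set.finite_Iic B).image _)).to_subtype
  have hKfd : FiniteDimensional ℚ K :=
    IntermediateField.finiteDimensional_adjoin fun x hx => by
      rcases hx with ⟨x, rfl⟩ | ⟨n, -, rfl⟩
      · exact (isIntegral_charValue ε x).tower_top
      · exact halg n
  haveI := countable_of_isAlgebraic K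
  have hKε : ∀ x, ε x ∈ K := fun x => IntermediateField.subset_adjoin ℚ _ (Or.inl ⟨x, rfl⟩)
  have hKf : ∀ n, qCoeff f₀ n ∈ K := fun n => mem_of_forall_fixing fun σ hσ => by
    obtain ⟨g, hg, hc⟩ := exists_conjEig hε hf₀ σ (ringHomComp_eq_self hKε hσ)
    have : g = f₀ := eq_of_low hε hg.1 hf₀.1 fun k hk => by
      rw [hc]
      exact hσ ⟨_, IntermediateField.subset_adjoin ℚ _ (Or.inr ⟨k, hk, rfl⟩)⟩
    rw [← hc, this]
  -- bounded denominators
  obtain ⟨F, hF⟩ := exists_mulEis hε f₀ hf₀.1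
  set m := charExp N with hm_def
  obtain ⟨H, hH⟩ : ∃ H : CuspForm (Gamma0 N) m, (⇑H : ℍ → ℂ) = (⇑f₀ : ℍ → ℂ) ^ m :=
    exists_powForm f₀ hf₀.1
  set P₀ := qE (goodForm f₀)
  set E := qE (goodForm (eisAux ε hε))
  have hqF : qE (goodForm0 F) = P₀ * E := by
    rw [show goodForm0 F = goodForm f₀ * goodForm (eisAux ε hε) from Subtype.ext hF, map_mul]
  have hqH : qE (goodForm0 H) = P₀ ^ m := by
    rw [show goodForm0 H = goodForm f₀ ^ m from Subtype.ext (by simpa [coe_goodForm] using! hH), map_pow]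
  have hP₀K : P₀ ∈ serIn K.toSubfield.toSubring := mem_serIn.mpr fun n => hKf n
  have hEK : E ∈ serIn K.toSubfield.toSubring := mem_serIn.mpr fun n => by
    have h := mem_serIn.mp (eisAux_mem_serIn hε K hKε) n
    rw [PowerSeries.coeff_C_mul] at h
    have h2 : ((2 * N : ℕ) : ℂ) ≠ 0 := Nat.cast_ne_zero.mpr (by simp [NeZero.ne N])
    have := K.mul_mem (K.inv_mem (natCast_mem K (2 * N))) h.1
    rwa [← mul_assoc, inv_mul_cancel₀ h2, one_mul] at this
  obtain ⟨D₁, hD₁, hD₁F⟩ := exists_den (k := 2) two_pos K F fun n => by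
    rw [← coeff_goodForm0 (k := 2), hqF]
    exact mem_serIn.mp (mul_mem hP₀K hEK) n
  obtain ⟨D₂, hD₂, hD₂H⟩ := exists_den (k := m) charExp_pos K H fun n => by
    rw [← coeff_goodForm0 (k := (m : ℤ)), hqH]
    exact mem_serIn.mp (pow_mem hP₀K m) n
  have hF' : PowerSeries.C (D₁ : ℂ) * (P₀ * E) ∈ serIn (intsIn K) := mem_serIn.mpr fun n => by
    rw [PowerSeries.coeff_C_mul, ← hqF, coeff_goodForm0]; exact hD₁F n
  have hH' : PowerSeries.C (D₂ : ℂ) * P₀ ^ m ∈ serIn (intsIn K) := mem_serIn.mpr fun n => by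
    rw [PowerSeries.coeff_C_mul, ← hqH, coeff_goodForm0]; exact hD₂H n
  obtain ⟨m', hm'⟩ : ∃ m', m = m' + 1 := ⟨m - 1, (Nat.sub_add_cancel charExp_pos).symm⟩
  have hP : PowerSeries.C ((D₁ * D₂ : ℕ) : ℂ) * P₀ ∈ serIn (intsIn K) := by
    refine mem_serIn_of_mul_pow (E := PowerSeries.C ((2 * N : ℕ) : ℂ) * E) (m := m) charExp_pos
      (fun n => ?_) (mul_ne_zero ?_ (qE_eisAux_ne_zero ε hε)) (eisAux_mem_serIn hε K hKε) ?_ ?_
    · rw [PowerSeries.coeff_C_mul]
      exact K.mul_mem (natCast_mem K _) (hKf n)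
    · exact (map_ne_zero_iff _ PowerSeries.C_injective).mpr
        (Nat.cast_ne_zero.mpr (by simp [NeZero.ne N]))
    · rw [show PowerSeries.C ((D₁ * D₂ : ℕ) : ℂ) * P₀ * (PowerSeries.C ((2 * N : ℕ) : ℂ) * E) =
          PowerSeries.C (D₂ : ℂ) * PowerSeries.C ((2 * N : ℕ) : ℂ) *
            (PowerSeries.C (D₁ : ℂ) * (P₀ * E)) by push_cast; rw [map_mul]; ring]
      exact mul_mem (mul_mem (C_natCast_mem_serIn _ _) (C_natCast_mem_serIn _ _)) hF'
    · rw [show (PowerSeries.C ((D₁ * D₂ : ℕ) : ℂ) * P₀) ^ m =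
          PowerSeries.C (D₁ : ℂ) ^ m * PowerSeries.C (D₂ : ℂ) ^ m' *
            (PowerSeries.C (D₂ : ℂ) * P₀ ^ m) by push_cast; rw [map_mul, hm']; ring]
      exact mul_mem (mul_mem (pow_mem (C_natCast_mem_serIn _ _) _)
        (pow_mem (C_natCast_mem_serIn _ _) _)) hH'
  have hDn : ∀ n, ((D₁ * D₂ : ℕ) : ℂ) * qCoeff f₀ n ∈ intsIn K := fun n => by
    have h := mem_serIn.mp hP n
    rwa [PowerSeries.coeff_C_mul, coeff_goodForm] at h
  refine ⟨K, hKfd, f₀, D₁ * D₂, Nat.mul_pos hD₁ hD₂, h1, hf₀.1,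
    fun n => ⟨hKf n, (hDn n).2⟩, fun p hp hpN => ⟨hap p hp hpN, ?_⟩, hKε, hf₀.2, fun σ => ?_⟩
  · refine isIntegral_of_stable (K := K) _ {z | ∃ e ∈ intsIn K, ∃ n, z = e * qCoeff f₀ n}
      (D := ((D₁ * D₂ : ℕ) : ℂ)) (Nat.cast_ne_zero.mpr (Nat.mul_pos hD₁ hD₂).ne') ?_
      ⟨1 * qCoeff f₀ 1, ⟨1, one_mem _, 1, rfl⟩, by simp [h1]⟩ ?_
    · rintro _ ⟨e, he, n, rfl⟩
      rw [mul_left_comm]
      exact mul_mem he (hDn n)
    · rintro _ ⟨e, he, n, rfl⟩
      have hεp : ε (p : ZMod N) ∈ intsIn K := ⟨hKε _, isIntegral_charValue ε _⟩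
      have h : qCoeff f p * (e * qCoeff f₀ n) = e * qCoeff f₀ (p * n) +
          e * ε (p : ZMod N) * (if p ∣ n then qCoeff f₀ (n / p) else 0) := by
        linear_combination -e * hf₀.2 p hp hpN n
      rw [h]
      refine add_mem (Submodule.subset_span ⟨e, he, _, rfl⟩) ?_
      split_ifs
      · exact Submodule.subset_span ⟨_, mul_mem he hεp, _, rfl⟩
      · simp
  · obtain ⟨g, -, hg⟩ := exists_conjForm σ hε f₀ hf₀.1
    exact ⟨g, hg⟩

end FLTAgent.WeightOne
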