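import Fermat.Agent.WeightOne.Nebentypus
import Fermat.Agent.WeightOne.Eisenstein
import Fermat.Agent.IntStr.GalConj

/-!
# Forms of weight one with character: passage to weight two and conjugation

`exists_mulEis` sends a form `f` with odd character `ε` to the weight two form `f * E` on `Γ₀(N)`,
`E` the Eisenstein series of `ε⁻¹`, and `exists_powForm` sends `f` to a power on `Γ₀(N)`.
`exists_conjForm` deduces from the integral structure on `Γ₀(N)` that coefficientwise conjugation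
by an endomorphism of `ℂ` maps forms with character to forms (with the conjugate character).
-/

set_option autoImplicit false
set_option linter.unusedSectionVars false

noncomputable section

open CongruenceSubgroup UpperHalfPlane Filter Matrix.SpecialLinearGroup
open scoped MatrixGroups ModularForm Manifold

namespace FLTAgent.WeightOne

open ModularFormClass (qCoeff)
open IntStr (goodSubring qE qE_apply qE_injective)

variable {N : ℕ}

theorem one_mem_periods_gamma1 (N : ℕ) :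
    (1 : ℝ) ∈ (Gamma1 N : Subgroup (GL (Fin 2) ℝ)).strictPeriods := by
  rw [CongruenceSubgroup.strictPeriods_Gamma1]
  exact AddSubgroup.mem_zmultiples 1

/-- The function of a form as an element of the good ring. -/
def goodForm [NeZero N] {F : Type*} [FunLike F ℍ ℂ] {k : ℤ} [ModularFormClass F (Gamma1 N) k]
    (f : F) : goodSubring :=
  ⟨⇑f, IntStr.modularForm_mem_goodSubring (one_mem_periods_gamma1 N) f⟩

theorem coe_goodForm [NeZero N] {F : Type*} [FunLike F ℍ ℂ] {k : ℤ}
    [ModularFormClass F (Gamma1 N) k] (f : F) : ((goodForm f : goodSubring) : ℍ → ℂ) = ⇑f := rfl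

/-- The function of a form on `Γ₀(N)` as an element of the good ring. -/
def goodForm0 [NeZero N] {F : Type*} [FunLike F ℍ ℂ] {k : ℤ} [ModularFormClass F (Gamma0 N) k]
    (f : F) : goodSubring :=
  ⟨⇑f, IntStr.modularForm_mem_goodSubring (IntStr.one_mem_periods N) f⟩

theorem coeff_goodForm [NeZero N] {F : Type*} [FunLike F ℍ ℂ] {k : ℤ}
    [ModularFormClass F (Gamma1 N) k] (f : F) (n : ℕ) :
    PowerSeries.coeff n (qE (goodForm f)) = qCoeff f n := rfl

theorem coeff_goodForm0 [NeZero N] {F : Type*} [FunLike F ℍ ℂ] {k : ℤ}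
    [ModularFormClass F (Gamma0 N) k] (f : F) (n : ℕ) :
    PowerSeries.coeff n (qE (goodForm0 f)) = qCoeff f n := rfl

/-! ### Forms on `Γ₁(N)` -/

variable [NeZero N]

/-- The `n`-th coefficient, linearly. -/
def coeff₁ (N : ℕ) [NeZero N] (k : ℤ) (n : ℕ) : CuspForm (Gamma1 N) k →ₗ[ℂ] ℂ where
  toFun f := qCoeff f n
  map_add' f g := by
    simp only [qCoeff]
    rw [FunLike.coe_add]
    exact (congrArg (PowerSeries.coeff n)
      (qExpansion_add (IntStr.analyticAt_of_good (goodForm f))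
        (IntStr.analyticAt_of_good (goodForm g)))).trans (map_add _ _ _)
  map_smul' c f := by
    simp only [qCoeff]
    rw [FunLike.coe_smul]
    exact (congrArg (PowerSeries.coeff n)
      (qExpansion_smul (f := (⇑f : ℍ → ℂ)) (a := c)
        (IntStr.analyticAt_of_good (goodForm f)))).trans (PowerSeries.coeff_smul _ _ _)

@[simp] theorem coeff₁_apply {k : ℤ} (n : ℕ) (f : CuspForm (Gamma1 N) k) :
    coeff₁ N k n f = qCoeff f n := rfl

theorem eq_of_coeff₁ {k : ℤ} {f g : CuspForm (Gamma1 N) k} (h : ∀ n, qCoeff f n = qCoeff g n) :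
    f = g :=
  DFunLike.coe_injective (congrArg Subtype.val
    (qE_injective (a₁ := goodForm f) (a₂ := goodForm g) (PowerSeries.ext fun n => h n)))

theorem qCoeff_zero_index {k : ℤ} (f : CuspForm (Gamma1 N) k) : qCoeff f 0 = 0 :=
  CuspFormClass.qExpansion_coeff_zero f one_pos (one_mem_periods_gamma1 N)

/-- The forms with a given character. -/
def nebForms (N : ℕ) [NeZero N] (ε : DirichletCharacter ℂ N) :
    Submodule ℂ (CuspForm (Gamma1 N) 1) where
  carrier := {g | DS.HasNebentypus 1 ε ⇑g}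
  zero_mem' := fun γ _ => by simp
  add_mem' := fun {f g} hf hg γ hγ => by
    rw [FunLike.coe_add, SlashAction.add_slash, hf γ hγ, hg γ hγ, smul_add]
  smul_mem' := fun c f hf γ hγ => by
    rw [FunLike.coe_smul, ModularForm.SL_smul_slash, hf γ hγ, smul_comm]

theorem mem_nebForms {ε : DirichletCharacter ℂ N} {g : CuspForm (Gamma1 N) 1} :
    g ∈ nebForms N ε ↔ DS.HasNebentypus 1 ε ⇑g := Iff.rfl

theorem isUnit_lowerRight' {γ : SL(2, ℤ)} (hγ : γ ∈ Gamma0 N) :
    IsUnit ((γ 1 1 : ℤ) : ZMod N) := by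
  have h := congrArg (Int.cast : ℤ → ZMod N) γ.2
  rw [Matrix.det_fin_two] at h
  push_cast at h
  rw [Gamma0_mem.mp hγ, mul_zero, sub_zero] at h
  exact IsUnit.of_mul_eq_one_right _ h

/-! ### The auxiliary Eisenstein series -/

theorem eps_inv_neg_one {ε : DirichletCharacter ℂ N} (hε : ε (-1) = -1) : ε⁻¹ (-1) = -1 := by
  rw [MulChar.inv_apply_eq_inv', hε, inv_neg_one]

/-- The Eisenstein series with character `ε⁻¹`. -/
def eisAux (ε : DirichletCharacter ℂ N) (hε : ε (-1) = -1) : ModularForm (Gamma1 N) 1 :=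
  (exists_eisenstein N ε⁻¹ (eps_inv_neg_one hε)).choose

theorem eisAux_neb (ε : DirichletCharacter ℂ N) (hε : ε (-1) = -1) :
    DS.HasNebentypus 1 ε⁻¹ ⇑(eisAux ε hε) :=
  (exists_eisenstein N ε⁻¹ (eps_inv_neg_one hε)).choose_spec.1

theorem qCoeff_eisAux (ε : DirichletCharacter ℂ N) (hε : ε (-1) = -1) (n : ℕ) :
    qCoeff (eisAux ε hε) n = if n = 0 then eisConst N ε⁻¹ else eisCoeff N ε⁻¹ n := by
  obtain ⟨-, h0, h⟩ := (exists_eisenstein N ε⁻¹ (eps_inv_neg_one hε)).choose_spec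
  split_ifs with hn
  · subst hn; exact h0
  · exact h n (Nat.pos_of_ne_zero hn)

theorem qCoeff_eisAux_one (ε : DirichletCharacter ℂ N) (hε : ε (-1) = -1) :
    qCoeff (eisAux ε hε) 1 = 1 := by
  simp [qCoeff_eisAux, eisCoeff]

theorem eisAux_ne_zero (ε : DirichletCharacter ℂ N) (hε : ε (-1) = -1) :
    goodForm (eisAux ε hε) ≠ 0 := fun h => by
  have h1 := qCoeff_eisAux_one ε hε
  rw [← coeff_goodForm, h, map_zero, map_zero] at h1
  exact zero_ne_one h1

theorem qE_eisAux_ne_zero (ε : DirichletCharacter ℂ N) (hε : ε (-1) = -1) :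
    qE (goodForm (eisAux ε hε)) ≠ 0 := fun h =>
  eisAux_ne_zero ε hε (qE_injective (h.trans (map_zero _).symm))

/-- Conjugation of the auxiliary series. -/
theorem qE_eisAux_map (σ : ℂ →+* ℂ) (ε : DirichletCharacter ℂ N) (hε : ε (-1) = -1)
    (hε' : (ε.ringHomComp σ) (-1) = -1) :
    PowerSeries.map σ (qE (goodForm (eisAux ε hε))) =
      qE (goodForm (eisAux (ε.ringHomComp σ) hε')) := by
  have hinv : ∀ x : ZMod N, σ (ε⁻¹ x) = (ε.ringHomComp σ)⁻¹ x := fun x => by
    rw [MulChar.inv_apply_eq_inv', MulChar.inv_apply_eq_inv', MulChar.ringHomComp_apply, map_inv₀]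
  refine PowerSeries.ext fun n => ?_
  rw [PowerSeries.coeff_map, coeff_goodForm, coeff_goodForm, qCoeff_eisAux, qCoeff_eisAux]
  split_ifs
  · simp only [eisConst, map_div₀, map_neg, map_sum, map_mul, hinv, map_natCast, map_ofNat]
  · simp only [eisCoeff, map_sum, hinv]

/-- A cusp form on `Γ₀(N)` from its translates. -/
def mkCusp0 {k : ℤ} (F : ℍ → ℂ) (hinv : ∀ γ ∈ Gamma0 N, F ∣[k] γ = F) (hhol : MDiff F)
    (hzero : ∀ γ : SL(2, ℤ), IsZeroAtImInfty (F ∣[k] γ)) : CuspForm (Gamma0 N) k where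
  toFun := F
  slash_action_eq' := by
    rintro _ ⟨γ, hγ, rfl⟩
    exact hinv γ hγ
  holo' := hhol
  zero_at_cusps' := fun {c} hc => by
    rw [Subgroup.IsArithmetic.isCusp_iff_isCusp_SL2Z] at hc
    rw [OnePoint.isZeroAt_iff_forall_SL2Z hc]
    exact fun γ _ => hzero γ

/-- A form with character times the Eisenstein series of the inverse character. -/
theorem exists_mulEis {ε : DirichletCharacter ℂ N} (hε : ε (-1) = -1)
    (g : CuspForm (Gamma1 N) 1) (hg : DS.HasNebentypus 1 ε ⇑g) :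
    ∃ F : CuspForm (Gamma0 N) 2, (⇑F : ℍ → ℂ) = ⇑g * ⇑(eisAux ε hε) := by
  refine ⟨mkCusp0 (⇑g * ⇑(eisAux ε hε)) (fun γ hγ => ?_)
    ((goodForm g * goodForm (eisAux ε hε) : goodSubring)).2.2.1 (fun γ => ?_), rfl⟩
  · have hu := isUnit_lowerRight' hγ
    rw [show (2 : ℤ) = 1 + 1 from rfl, ModularForm.mul_slash_SL2, hg γ hγ, eisAux_neb ε hε γ hγ,
      smul_mul_smul_comm, MulChar.inv_apply_eq_inv', mul_inv_cancel₀ ((hu.map ε).ne_zero),
      one_smul]
  · rw [show (2 : ℤ) = 1 + 1 from rfl, ModularForm.mul_slash_SL2]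
    have h1 : IsZeroAtImInfty (⇑g ∣[(1 : ℤ)] γ) := CuspFormClass.zero_at_infty_slash g γ
    have h2 : IsBoundedAtImInfty (⇑(eisAux ε hε) ∣[(1 : ℤ)] γ) :=
      ModularFormClass.bdd_at_infty_slash (eisAux ε hε) γ
    exact Filter.ZeroAtFilter.mul_boundedAtFilter h1 h2

/-- The order of the group of values. -/
def charExp (N : ℕ) [NeZero N] : ℕ := Fintype.card (ZMod N)ˣ

theorem charExp_pos : 0 < charExp N := Fintype.card_pos

/-- The power of a form that descends to `Γ₀(N)`. -/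
theorem exists_powForm {ε : DirichletCharacter ℂ N} (g : CuspForm (Gamma1 N) 1)
    (hg : DS.HasNebentypus 1 ε ⇑g) :
    ∃ H : CuspForm (Gamma0 N) (charExp N), (⇑H : ℍ → ℂ) = (⇑g : ℍ → ℂ) ^ charExp N := by
  have hpow : ∀ γ : SL(2, ℤ), ((⇑g : ℍ → ℂ) ^ charExp N) ∣[(charExp N : ℤ)] γ =
      (⇑g ∣[(1 : ℤ)] γ) ^ charExp N := fun γ => by
    rw [← IntStr.pow_slash_SL, one_mul]
  refine ⟨mkCusp0 ((⇑g : ℍ → ℂ) ^ charExp N) (fun γ hγ => ?_) ((goodForm g ^ charExp N : goodSubring)).2.2.1 (fun γ => ?_),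
    rfl⟩
  · obtain ⟨u, hu⟩ := isUnit_lowerRight' hγ
    rw [hpow, hg γ hγ, smul_pow, ← hu, ← map_pow, ← Units.val_pow_eq_pow_val, charExp,
      pow_card_eq_one, Units.val_one, map_one, one_smul]
  · rw [hpow]
    have h1 : IsZeroAtImInfty (⇑g ∣[(1 : ℤ)] γ) := CuspFormClass.zero_at_infty_slash g γ
    have h2 := Filter.Tendsto.pow h1 (charExp N)
    rw [zero_pow charExp_pos.ne'] at h2
    exact h2

/-- Coefficientwise conjugation on forms of weight one with character. -/
theorem exists_conjForm (σ : ℂ →+* ℂ) {ε : DirichletCharacter ℂ N} (hε : ε (-1) = -1)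
    (g : CuspForm (Gamma1 N) 1) (hg : DS.HasNebentypus 1 ε ⇑g) :
    ∃ g' : CuspForm (Gamma1 N) 1, DS.HasNebentypus 1 (ε.ringHomComp σ) ⇑g' ∧
      ∀ n : ℕ, qCoeff g' n = σ (qCoeff g n) := by
  have hε' : (ε.ringHomComp σ) (-1) = -1 := by
    rw [MulChar.ringHomComp_apply, hε, map_neg, map_one]
  set m := charExp N
  set ε' := ε.ringHomComp σ
  obtain ⟨Q, hQ⟩ := exists_mulEis hε g hg
  obtain ⟨H, hH⟩ := exists_powForm g hg
  obtain ⟨Q', hQ'⟩ := IntStr.exists_galConj_cuspForm N 2 σ Q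
  obtain ⟨H', hH'⟩ := IntStr.exists_galConj_cuspForm N (m : ℤ) σ H
  set gG := goodForm g
  set D := goodForm (eisAux ε' hε')
  have hqQ : qE (goodForm0 Q') = PowerSeries.map σ (qE gG) * qE D := by
    have : goodForm0 Q = gG * goodForm (eisAux ε hε) := Subtype.ext hQ
    rw [← qE_eisAux_map σ ε hε hε', ← map_mul, ← map_mul, ← this]
    exact PowerSeries.ext fun n => by
      rw [PowerSeries.coeff_map, coeff_goodForm0, coeff_goodForm0]; exact hQ' n
  have hqH : qE (goodForm0 H') = PowerSeries.map σ (qE gG) ^ m := by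
    have : goodForm0 H = gG ^ m := Subtype.ext (by simpa [gG, coe_goodForm] using! hH)
    rw [← map_pow, ← map_pow, ← this]
    exact PowerSeries.ext fun n => by
      rw [PowerSeries.coeff_map, coeff_goodForm0, coeff_goodForm0]; exact hH' n
  have hrel : goodForm0 Q' ^ m = goodForm0 H' * D ^ m := qE_injective (by
    rw [map_pow, map_mul, map_pow, hqQ, hqH, mul_pow])
  let a : ℕ → ℍ → ℂ := fun s => if s + 1 = m then -(⇑H' : ℍ → ℂ) else 0
  have hsum : ∀ y : ℂ, ∀ z : ℍ,
      ∑ s ∈ Finset.range m, a s z * y ^ (m - (s + 1)) = -H' z := fun y z => by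
    have hm1 : m - 1 + 1 = m := Nat.sub_add_cancel charExp_pos
    rw [Finset.sum_eq_single (m - 1)]
    · simp [a, hm1]
    · intro s _ hs
      simp [a, show ¬ s + 1 = m by omega]
    · intro h
      exact absurd (Finset.mem_range.mpr (Nat.sub_lt charExp_pos one_pos)) h
  obtain ⟨G, hGd, hGeq⟩ := IntStr.exists_mdifferentiable_mul_eq (m := m)
    (N := (goodForm0 Q' : ℍ → ℂ)) (D := (D : ℍ → ℂ)) (a := a)
    (goodForm0 Q').2.2.1 D.2.2.1 (fun h => eisAux_ne_zero ε' hε' (Subtype.ext h))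
    (fun s _ => by
      by_cases h : s + 1 = m
      · simp only [a, if_pos h]; exact (goodForm0 H').2.2.1.neg
      · simp only [a, if_neg h]; exact mdifferentiable_const)
    (fun z hz => by
      have h := congrFun (congrArg Subtype.val hrel) z
      simp only [Subring.coe_mul, SubmonoidClass.coe_pow, Pi.mul_apply, Pi.pow_apply] at h
      rw [hsum, div_pow, h, mul_div_assoc, div_self (pow_ne_zero _ hz)]
      simp [goodForm0])
  have hD0 : (D : ℍ → ℂ) ≠ 0 := fun h => eisAux_ne_zero ε' hε' (Subtype.ext h)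
  have hGQ : G * (D : ℍ → ℂ) = ⇑Q' := funext hGeq
  have hGm : G ^ m = ⇑H' := by
    have h0 : (G ^ m - ⇑H') * (D : ℍ → ℂ) ^ m = 0 := by
      rw [sub_mul, ← mul_pow, hGQ, sub_eq_zero]
      exact congrArg Subtype.val hrel
    rcases (UpperHalfPlane.mul_eq_zero_iff ((hGd.pow m).sub (goodForm0 H').2.2.1)
      (D.2.2.1.pow m)).mp h0 with h | h
    · exact sub_eq_zero.mp h
    · exfalso
      have h' := qE_eisAux_ne_zero ε' hε'
      exact pow_ne_zero m h' (by
        rw [← map_pow, show D ^ m = 0 from Subtype.ext (by simpa using h), map_zero])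
  have hGinv : ∀ γ ∈ Gamma0 N, G ∣[(1 : ℤ)] γ = ε' ((γ 1 1 : ℤ) : ZMod N) • G := fun γ hγ => by
    have hu := isUnit_lowerRight' hγ
    set c := ε' ((γ 1 1 : ℤ) : ZMod N)
    have hc : c ≠ 0 := (hu.map ε').ne_zero
    have hQs : (⇑Q' : ℍ → ℂ) ∣[(2 : ℤ)] γ = ⇑Q' :=
      SlashInvariantFormClass.slash_action_eq Q' _ ⟨γ, hγ, rfl⟩
    rw [← hGQ, show (2 : ℤ) = 1 + 1 from rfl, ModularForm.mul_slash_SL2,
      show (D : ℍ → ℂ) ∣[(1 : ℤ)] γ = c⁻¹ • (D : ℍ → ℂ) by
        rw [← MulChar.inv_apply_eq_inv']; exact eisAux_neb ε' hε' γ hγ,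
      mul_smul_comm, inv_smul_eq_iff₀ hc] at hQs
    have h0 : (G ∣[(1 : ℤ)] γ - c • G) * (D : ℍ → ℂ) = 0 := by
      rw [sub_mul, hQs, smul_mul_assoc, sub_self]
    rcases (UpperHalfPlane.mul_eq_zero_iff ((hGd.slash 1 _).sub (hGd.const_smul c))
      D.2.2.1).mp h0 with h | h
    · exact sub_eq_zero.mp h
    · exact absurd h hD0
  have hzero : ∀ γ : SL(2, ℤ), IsZeroAtImInfty (G ∣[(1 : ℤ)] γ) := fun γ => by
    refine IntStr.isZeroAtImInfty_of_monic (m := m)
      (a := fun s => if s + 1 = m then -((⇑H' : ℍ → ℂ) ∣[(m : ℤ)] γ) else 0) (fun z => ?_)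
      fun s _ => ?_
    · have hm1 : m - 1 + 1 = m := Nat.sub_add_cancel charExp_pos
      rw [Finset.sum_eq_single (m - 1) (fun s _ hs => by simp [show ¬ s + 1 = m by omega])
        (fun h => absurd (Finset.mem_range.mpr (Nat.sub_lt charExp_pos one_pos)) h)]
      rw [if_pos hm1, hm1, ← hGm, show (m : ℤ) = 1 * m by ring, IntStr.pow_slash_SL]
      simp
    · by_cases h : s + 1 = m
      · simp only [if_pos h]
        have := CuspFormClass.zero_at_infty_slash H' γ
        simpa [IsZeroAtImInfty, Filter.ZeroAtFilter] using! Filter.Tendsto.neg this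
      · simp only [if_neg h]
        exact Filter.zero_zeroAtFilter _
  let g' : CuspForm (Gamma1 N) 1 :=
    { toFun := G
      slash_action_eq' := by
        rintro _ ⟨γ, hγ, rfl⟩
        have h : ((γ 1 1 : ℤ) : ZMod N) = 1 := ((Gamma1_mem N γ).mp hγ).2.1
        have := hGinv γ (Gamma1_in_Gamma0 N hγ)
        rwa [h, map_one, one_smul] at this
      holo' := hGd
      zero_at_cusps' := fun {c} hc => by
        rw [Subgroup.IsArithmetic.isCusp_iff_isCusp_SL2Z] at hc
        rw [OnePoint.isZeroAt_iff_forall_SL2Z hc]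
        exact fun γ _ => hzero γ }
  refine ⟨g', hGinv, fun n => ?_⟩
  have h1 : goodForm g' * D = goodForm0 Q' := Subtype.ext hGQ
  have h2 : qE (goodForm g') = PowerSeries.map σ (qE gG) := by
    have h3 := congrArg qE h1
    rw [map_mul, hqQ] at h3
    exact mul_right_cancel₀ (qE_eisAux_ne_zero ε' hε') h3
  rw [← coeff_goodForm, h2, PowerSeries.coeff_map, coeff_goodForm]

end FLTAgent.WeightOne
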